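import Fermat.Agent.GoodModel.Field
import Fermat.Agent.Specialization.Inputs

/-!
# The good-model inequality at auxiliary levels

At a level divisible by the auxiliary level and prime to `ℓ`, the dimension of the multiples of
the poles of `j` is given by one formula in both characteristics, so it does not change on
reduction.
-/

set_option autoImplicit false
set_option linter.style.haveILetI false
set_option synthInstance.maxHeartbeats 400000
set_option maxHeartbeats 1000000

noncomputable section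

open AlgebraicCurve FLTAgent.Curves FLTAgent.ModEq IntermediateField ModularCurve IsLocalRing
open FLTAgent.Specialization (auxLevel GoodLevel X0Bar jq_mem_X0Bar ell laurentBaseChange_full_eq
  natCast_ne_zero_residue)

namespace FLTAgent.GoodModel

local notation "QA" => AlgebraicClosure ℚ

/-- A complex embedding of the algebraic numbers. -/
def qaToC : QA →+* ℂ :=
  haveI : Algebra.IsAlgebraic ℚ QA := AlgebraicClosure.isAlgebraic ℚ
  (IsAlgClosed.lift : QA →ₐ[ℚ] ℂ).toRingHom

/-- The dimensions of the multiples of the poles of `j` only depend on the underlying field. -/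
lemma finrank_poles_congr {K : Type*} [Field K] [IsAlgClosed K] {N : ℕ} [NeZero N]
    {E : IntermediateField K (LaurentSeries K)} (hE : E = modularFunctionFieldFullC K N)
    [Curves.IsFunctionField K E] [Curves.IsFunctionField K (modularFunctionFieldFullC K N)]
    (x : E) (hx : (x : LaurentSeries K) = jqModC K) (m : ℤ) :
    Module.finrank K (riemannRochSpace (m • poleDiv K x)) =
      Module.finrank K (riemannRochSpace (m • poleDiv K (jbarEl K N))) := by
  subst hE
  obtain rfl : x = jbarEl K N := Subtype.ext hx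
  rfl

variable {ℓ : ℕ} [Fact ℓ.Prime] {A : ValuationSubring QA}

/-- The good-model inequality at a level divisible by the auxiliary level and prime to `ℓ`. -/
theorem goodLevel (hA : A.LiesOverPrime ℓ) (M : ℕ) [NeZero M] (haux : auxLevel ℓ ∣ M)
    (hM : ¬ ℓ ∣ M) : GoodLevel A M := by
  classical
  obtain ⟨M0, hM0, h0⟩ : ∃ M0, (M0 = 2 ∨ M0 = 3) ∧ auxLevel ℓ = M0 * M0 := by
    unfold auxLevel
    split
    · exact ⟨3, .inr rfl, rfl⟩
    · exact ⟨2, .inl rfl, rfl⟩
  obtain ⟨N', rfl⟩ : M0 * M0 ∣ M := h0 ▸ haux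
  haveI : NeZero M0 := ⟨by rcases hM0 with rfl | rfl <;> omega⟩
  haveI : NeZero N' := ⟨fun h => NeZero.ne (M0 * M0 * N') (by rw [h, mul_zero])⟩
  haveI : NeZero (M0 * N') := ⟨mul_ne_zero (NeZero.ne M0) (NeZero.ne N')⟩
  intro hac hff
  -- the constants inside `ℂ`
  set S : Subring ℂ := A.toSubring.map qaToC with hS
  have hbij : Function.Bijective ((qaToC.comp A.subtype).codRestrict S
      fun a => ⟨a.1, a.2, rfl⟩) := by
    refine ⟨fun a b hab => Subtype.ext (qaToC.injective (congrArg Subtype.val hab)), ?_⟩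
    rintro ⟨_, a, ha, rfl⟩
    exact ⟨⟨a, ha⟩, rfl⟩
  let e : A ≃+* S := RingEquiv.ofBijective _ hbij
  -- the root of unity
  obtain ⟨z, hz⟩ := HasEnoughRootsOfUnity.exists_primitiveRoot QA (M0 * N')
  obtain ⟨i, -, hi⟩ := (hz.map_of_injective qaToC.injective).eq_pow_of_pow_eq_one
    (ξ := (zetaN (M0 * N') : ℂ)) (Complex.isPrimitiveRoot_exp _ (NeZero.ne (M0 * N'))).pow_eq_one
  have hn : 0 < M0 * N' := Nat.pos_of_ne_zero (NeZero.ne _)
  have hz0 : z ≠ 0 := hz.ne_zero hn.ne'
  have hzA : z ∈ A ∧ z⁻¹ ∈ A := by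
    have h1 : z ^ (M0 * N' - 1) * z = 1 := by
      rw [← pow_succ, Nat.sub_add_cancel hn, hz.pow_eq_one]
    have h2 : z⁻¹ = z ^ (M0 * N' - 1) := (eq_inv_of_mul_eq_one_left h1).symm
    rcases A.mem_or_inv_mem z with h | h
    · exact ⟨h, h2 ▸ pow_mem h _⟩
    · refine ⟨?_, h⟩
      have h3 : z = z⁻¹ ^ (M0 * N' - 1) := by rw [inv_pow, ← h2, inv_inv]
      rw [h3]
      exact pow_mem h _
  let u : Aˣ := ⟨⟨z, hzA.1⟩, ⟨z⁻¹, hzA.2⟩, Subtype.ext (mul_inv_cancel₀ hz0),
    Subtype.ext (inv_mul_cancel₀ hz0)⟩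
  set ζ : Sˣ := Units.map (e.toRingHom : A →* S) (u ^ i) with hζdef
  have hζ : ((ζ : S) : ℂ) = zetaN (M0 * N') := by
    rw [hζdef, Units.coe_map, MonoidHom.coe_coe, RingEquiv.toRingHom_eq_coe, RingHom.coe_coe,
      Units.val_pow_eq_pow_val, map_pow, SubmonoidClass.coe_pow, ← hi]
    rfl
  have hdvd : ¬ ℓ ∣ M0 * N' := fun h => hM (h.trans ⟨M0, by ring⟩)
  have hu : IsUnit ((M0 * N' : ℕ) : S) := by
    rw [← map_natCast e.toRingHom]
    refine IsUnit.map _ ?_
    by_contra hnu
    exact natCast_ne_zero_residue hA hdvd (by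
      rw [← map_natCast (residue A)]
      exact (residue_eq_zero_iff _).2 hnu)
  obtain ⟨L⟩ := nonempty_levelSeries (S := S) (M0 := M0) (N' := N') hM0 rfl ζ hζ hu
  haveI : Curves.IsFunctionField QA (modularFunctionFieldFullC QA (M0 * M0 * N')) :=
    isFunctionField_fullC (Nat.cast_ne_zero.2 (NeZero.ne _))
  obtain ⟨m₁, h1⟩ := finrank_poles_formula hM0 (natCast_ne_zero_residue hA hM)
    ((residue A).comp e.symm.toRingHom) L
  obtain ⟨m₂, h2⟩ := finrank_poles_formula hM0 (Nat.cast_ne_zero.2 (NeZero.ne (M0 * M0 * N')))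
    (A.subtype.comp e.symm.toRingHom) L
  refine ⟨max m₁ m₂, fun m hm => le_of_eq ?_⟩
  have h := (h1 m (le_of_max_le_left hm)).trans (h2 m (le_of_max_le_right hm)).symm
  have hpos : (2 * ((M0 * M0 + M0 : ℕ) : ℤ)) ≠ 0 := by
    rcases hM0 with rfl | rfl <;> norm_num
  have h' := mul_left_cancel₀ hpos h
  unfold ell
  rw [finrank_poles_congr (laurentBaseChange_full_eq _) (⟨_, jq_mem_X0Bar (A := A) _⟩ :
    X0Bar (M0 * M0 * N')) (coeffMap_jqModC _) (m : ℤ)]
  exact h'

end FLTAgent.GoodModel
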