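import Fermat.Agent.Curves.Hurwitz
import Fermat.Agent.Specialization.Cover

/-!
Unramified places of a function field given by an equation with unit discriminant, and transport
lemmas along embeddings.
-/

set_option autoImplicit false

noncomputable section

namespace FLTAgent.GoodModel

open AlgebraicCurve Polynomial IntermediateField FLTAgent.Curves

section Approx

variable {K E : Type*} [Field K] [Field E] [Algebra K E] [IsAlgClosed K] [IsFunctionField K E]
variable {x : E} {v : Place K E} {a : K}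

/-- A regular element of the line is congruent to a constant modulo the local parameter. -/
lemma exists_const_mod (hx : Transcendental K x) (hv : 0 < v.ord (x - algebraMap K E a)) {r : E}
    (hr : r ∈ K⟮x⟯) (hr0 : OrdGE v 0 r) :
    ∃ c : K, OrdGE v (v.ord (x - algebraMap K E a)) (r - algebraMap K E c) := by
  rcases eq_or_ne r 0 with rfl | hne
  · exact ⟨0, Or.inl (by simp)⟩
  have ht := transcendental_sub hx a
  have hr' : r ∈ K⟮x - algebraMap K E a⟯ := by rwa [adjoin_simple_sub_eq]
  obtain ⟨m, c, -, hm⟩ := exists_ord_eq hr' hne ht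
  obtain ⟨c', hc'⟩ := exists_residue_adjoin ht hr' fun w hw ↦ by
    refine ordGE_of_le ?_
    rw [(hm w hw).1]
    have h0 := hr0.le_ord hne
    rw [(hm v hv).1] at h0
    nlinarith
  exact ⟨c', hc' v hv⟩

/-- A nonzero element of the line has order divisible by the ramification index. -/
lemma dvd_ord_of_mem (hx : Transcendental K x) (hv : 0 < v.ord (x - algebraMap K E a)) {r : E}
    (hr : r ∈ K⟮x⟯) (hne : r ≠ 0) : v.ord (x - algebraMap K E a) ∣ v.ord r := by
  have hr' : r ∈ K⟮x - algebraMap K E a⟯ := by rwa [adjoin_simple_sub_eq]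
  obtain ⟨m, c, -, hm⟩ := exists_ord_eq hr' hne (transcendental_sub hx a)
  exact ⟨m, by rw [(hm v hv).1, mul_comm]⟩

lemma mem_line_const (x : E) (c : K) : algebraMap K E c ∈ K⟮x⟯ :=
  IntermediateField.algebraMap_mem _ c

/-- Evaluation at a regular point of a polynomial with regular coefficients. -/
lemma ordGE_eval {p : E[X]} {y : E} (hp : ∀ k, OrdGE v 0 (p.coeff k)) (hy : OrdGE v 0 y) :
    OrdGE v 0 (p.eval y) := by
  rw [eval_eq_sum_range]
  exact OrdGE.sum fun i _ ↦ ((hp i).mul (hy.pow i)).mono (by simp)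

/-- Congruent points give congruent values. -/
lemma ordGE_eval_sub {p : E[X]} {y z : E} (hp : ∀ k, OrdGE v 0 (p.coeff k)) (hy : OrdGE v 0 y)
    (hz : OrdGE v 0 z) {k : ℤ} (h : OrdGE v k (y - z)) : OrdGE v k (p.eval y - p.eval z) := by
  rw [eval_eq_sum_range, eval_eq_sum_range, ← Finset.sum_sub_distrib]
  refine OrdGE.sum fun i _ ↦ ?_
  rw [← mul_sub, ← geom_sum₂_mul]
  refine ((hp i).mul ((OrdGE.sum fun j _ ↦ (?_ : OrdGE v 0 (y ^ j * z ^ (i - 1 - j)))).mul h)).mono
    (by simp)
  exact ((hy.pow j).mul (hz.pow _)).mono (by simp)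

/-- Taylor expansion to first order. -/
lemma ordGE_taylor {p : E[X]} {y z : E} (hp : ∀ k, OrdGE v 0 (p.coeff k)) (hy : OrdGE v 0 y)
    (hz : OrdGE v 0 z) {k : ℤ} (h : OrdGE v k (y - z)) :
    OrdGE v (k + k) (p.eval y - p.eval z - (derivative p).eval z * (y - z)) := by
  rw [derivative_eval, eval_eq_sum_range, eval_eq_sum_range,
    sum_over_range p (by simp) (f := fun e b ↦ b * (e : E) * z ^ (e - 1)), Finset.sum_mul,
    ← Finset.sum_sub_distrib, ← Finset.sum_sub_distrib]
  refine OrdGE.sum fun i _ ↦ ?_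
  have key : y ^ i - z ^ i - (i : E) * z ^ (i - 1) * (y - z) =
      (∑ j ∈ Finset.range i, (y ^ j - z ^ j) * z ^ (i - 1 - j)) * (y - z) := by
    have : ∀ j ∈ Finset.range i, z ^ j * z ^ (i - 1 - j) = z ^ (i - 1) := fun j hj ↦ by
      rw [← pow_add]; congr 1; have := Finset.mem_range.mp hj; omega
    simp only [sub_mul, Finset.sum_sub_distrib, Finset.sum_congr rfl this, Finset.sum_const,
      Finset.card_range, nsmul_eq_mul]
    rw [← geom_sum₂_mul y z i]
  have e : p.coeff i * y ^ i - p.coeff i * z ^ i - p.coeff i * (i : E) * z ^ (i - 1) * (y - z) =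
      p.coeff i * (y ^ i - z ^ i - (i : E) * z ^ (i - 1) * (y - z)) := by ring
  rw [e, key]
  refine ((hp i).mul ((OrdGE.sum fun j _ ↦ (?_ : OrdGE v k ((y ^ j - z ^ j) * z ^ (i - 1 - j)))).mul
    h)).mono (by simp)
  rw [← geom_sum₂_mul y z j]
  refine (((OrdGE.sum fun l _ ↦ (?_ : OrdGE v 0 (y ^ l * z ^ (j - 1 - l)))).mul h).mul
    (hz.pow _)).mono (by simp)
  exact ((hy.pow l).mul (hz.pow _)).mono (by simp)

/-- A root of a monic polynomial with regular coefficients is regular. -/
lemma ordGE_root {p : E[X]} {y : E} (hp : ∀ k, OrdGE v 0 (p.coeff k)) (hm : p.Monic)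
    (h0 : p.eval y = 0) : OrdGE v 0 y := by
  by_contra hn
  rw [OrdGE, not_or, not_le] at hn
  obtain ⟨hy0, hy⟩ := hn
  rw [eval_eq_sum_range, Finset.sum_range_succ, hm.coeff_natDegree, one_mul,
    add_eq_zero_iff_eq_neg'] at h0
  have h1 : OrdGE v (((p.natDegree : ℤ) - 1) * v.ord y) (y ^ p.natDegree) := by
    rw [h0]
    refine (OrdGE.sum fun i hi ↦ ?_).neg
    refine (((hp i).mul ((ordGE_ord v y).pow i)).mono ?_)
    have : (i : ℤ) ≤ (p.natDegree : ℤ) - 1 := by have := Finset.mem_range.mp hi; omega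
    nlinarith
  have h2 := h1.le_ord (pow_ne_zero _ hy0)
  rw [ord_pow] at h2
  nlinarith

/-- A place where an equation with unit derivative generates the field is unramified. -/
theorem ord_sub_eq_one_of_bezout (hx : Transcendental K x)
    (hv : 0 < v.ord (x - algebraMap K E a)) {f : E}
    (hgen : ∀ z : E, ∃ p : E[X], (∀ k, p.coeff k ∈ K⟮x⟯) ∧ p.eval f = z)
    {g l r : E[X]} (hg : ∀ k, g.coeff k ∈ K⟮x⟯) (hg0 : ∀ k, OrdGE v 0 (g.coeff k))
    (hl0 : ∀ k, OrdGE v 0 (l.coeff k)) (hr0 : ∀ k, OrdGE v 0 (r.coeff k))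
    (hm : g.Monic) (hbez : l * g + r * derivative g = 1) (hroot : g.eval f = 0) :
    v.ord (x - algebraMap K E a) = 1 := by
  set t := x - algebraMap K E a with htdef
  set e := v.ord t with hedef
  have ht : t ∈ K⟮x⟯ := sub_mem (mem_adjoin_simple_self K x) (mem_line_const x a)
  have ht0 : t ≠ 0 := ne_zero_of_transcendental (transcendental_sub hx a)
  have hf := ordGE_root hg0 hm hroot
  have hd0 : ∀ k, OrdGE v 0 ((derivative g).coeff k) := fun k ↦ by
    rw [coeff_derivative, show (k : E) + 1 = algebraMap K E ((k : K) + 1) by simp]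
    exact ((hg0 _).mul (ordGE_algebraMap v _)).mono (by simp)
  have hdmem : ∀ k, (derivative g).coeff k ∈ K⟮x⟯ := fun k ↦ by
    rw [coeff_derivative]
    exact mul_mem (hg _) (add_mem (_root_.natCast_mem _ k) (one_mem _))
  have heval : ∀ {p : E[X]} {θ : E}, (∀ k, p.coeff k ∈ K⟮x⟯) → θ ∈ K⟮x⟯ → p.eval θ ∈ K⟮x⟯ := by
    intro p θ hp hθ
    rw [eval_eq_sum_range]
    exact sum_mem fun i _ ↦ mul_mem (hp i) (pow_mem hθ i)
  -- the derivative is a unit at every point congruent to `f`
  have hunit : ∀ θ, OrdGE v 0 θ → OrdGE v 1 (f - θ) →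
      (derivative g).eval θ ≠ 0 ∧ v.ord ((derivative g).eval θ) = 0 := by
    intro θ hθ hcl
    have h1 : r.eval f * (derivative g).eval f = 1 := by
      have := congrArg (Polynomial.eval f) hbez
      simpa [hroot] using this
    have hne : (derivative g).eval θ ≠ 0 ∧ ¬ OrdGE v 1 ((derivative g).eval θ) := by
      have key : ¬ OrdGE v 1 ((derivative g).eval θ) := fun hc ↦ by
        have h2 := (ordGE_eval hr0 hf).mul (hc.add (ordGE_eval_sub hd0 hf hθ hcl))
        rw [add_sub_cancel, h1, zero_add] at h2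
        have := h2.le_ord one_ne_zero
        rw [v.ord_one] at this
        omega
      exact ⟨fun h0 ↦ key (Or.inl h0), key⟩
    refine ⟨hne.1, le_antisymm ?_ ((ordGE_eval hd0 hθ).le_ord hne.1)⟩
    by_contra h
    exact hne.2 (ordGE_of_le (by omega))
  -- successive approximations
  have happ : ∀ N : ℕ, ∃ θ ∈ K⟮x⟯, OrdGE v 0 θ ∧ OrdGE v 1 (f - θ) ∧
      OrdGE v ((N + 1 : ℕ) * e) (f - θ) := by
    intro N
    induction N with
    | zero =>
      obtain ⟨c, hc⟩ := exists_residue v hf
      refine ⟨algebraMap K E c, mem_line_const x c, ordGE_algebraMap v c, hc, ?_⟩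
      rcases eq_or_ne (f - algebraMap K E c) 0 with h0 | h0
      · exact Or.inl h0
      set k := v.ord (f - algebraMap K E c) with hk
      have hk1 : 1 ≤ k := hc.le_ord h0
      obtain ⟨hu0, hu⟩ := hunit _ (ordGE_algebraMap v c) hc
      have hgc : OrdGE v e (g.eval (algebraMap K E c)) := by
        obtain ⟨c', hc'⟩ := exists_const_mod hx hv (heval hg (mem_line_const x c))
          (ordGE_eval hg0 (ordGE_algebraMap v c))
        have h1 : OrdGE v 1 (g.eval (algebraMap K E c)) := by
          have := (ordGE_eval_sub hg0 hf (ordGE_algebraMap v c) hc).neg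
          simpa [hroot] using this
        have h2 : OrdGE v 1 (algebraMap K E c') := by
          have := h1.sub (hc'.mono (show (1 : ℤ) ≤ e by omega))
          rwa [sub_sub_cancel] at this
        rcases h2 with h2 | h2
        · rwa [h2, sub_zero] at hc'
        · rw [ord_algebraMap] at h2; omega
      refine ordGE_of_le ?_
      by_contra hlt
      rw [Nat.zero_add, Nat.cast_one, one_mul, not_le] at hlt
      have h3 := ordGE_taylor hg0 hf (ordGE_algebraMap v c) (ordGE_ord v (f - algebraMap K E c))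
      rw [hroot] at h3
      have h4 : OrdGE v (k + 1) ((derivative g).eval (algebraMap K E c) * (f - algebraMap K E c)) := by
        have := ((h3.mono (show k + 1 ≤ k + k by omega)).add (hgc.mono (show k + 1 ≤ e by omega))).neg
        ring_nf at this ⊢
        exact this
      have h5 := h4.le_ord (mul_ne_zero hu0 h0)
      rw [v.ord_mul hu0 h0, hu] at h5
      omega
    | succ N ih =>
      obtain ⟨θ, hθ, hθ0, hcl, hδ⟩ := ih
      obtain ⟨hu0, hu⟩ := hunit θ hθ0 hcl
      set k : ℤ := ((N + 1 : ℕ) : ℤ) * e with hk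
      have hge : OrdGE v k (g.eval θ) := by
        have := (ordGE_eval_sub hg0 hf hθ0 hδ).neg
        simpa [hroot] using this
      set s := g.eval θ / (t ^ (N + 1) * (derivative g).eval θ) with hs
      have hden : t ^ (N + 1) * (derivative g).eval θ ≠ 0 := mul_ne_zero (pow_ne_zero _ ht0) hu0
      have hs0 : OrdGE v 0 s := by
        rcases hge with h | h
        · exact Or.inl (by rw [hs, h, zero_div])
        rcases eq_or_ne (g.eval θ) 0 with h' | h'
        · exact Or.inl (by rw [hs, h', zero_div])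
        refine ordGE_of_le ?_
        rw [hs, ord_div v h' hden, v.ord_mul (pow_ne_zero _ ht0) hu0, hu, ord_pow, add_zero]
        push_cast at hk ⊢
        nlinarith [hedef]
      obtain ⟨c, hc⟩ := exists_const_mod hx hv (r := -s)
        (neg_mem (div_mem (heval hg hθ) (mul_mem (pow_mem ht _) (heval hdmem hθ)))) hs0.neg
      have htp : OrdGE v k (t ^ (N + 1)) := ordGE_of_le (by rw [ord_pow])
      refine ⟨θ + algebraMap K E c * t ^ (N + 1),
        add_mem hθ (mul_mem (mem_line_const x c) (pow_mem ht _)), ?_, ?_, ?_⟩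
      · exact hθ0.add (((ordGE_algebraMap v c).mul htp).mono (by nlinarith [hv]))
      · rw [← sub_sub]
        exact hcl.sub (((ordGE_algebraMap v c).mul htp).mono (by push_cast at hk; nlinarith [hv]))
      · have h3 := (ordGE_taylor hg0 hf hθ0 hδ).mono
          (show k + e ≤ k + k by rw [hk]; push_cast; nlinarith [hv])
        rw [hroot] at h3
        have h4 : OrdGE v (k + e) ((f - θ) - (-s) * t ^ (N + 1)) := by
          convert (h3.neg.mul (ordGE_of_le (v.ord_inv ((derivative g).eval θ)).ge)).mono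
            (show k + e ≤ k + e + -v.ord ((derivative g).eval θ) by rw [hu]; simp) using 1
          rw [hs]
          field_simp
          ring
        have h5 : OrdGE v (e + k) ((-s - algebraMap K E c) * t ^ (N + 1)) := hc.mul htp
        have h6 := h4.add (h5.mono (add_comm e k).ge)
        convert h6.mono (show ((N + 1 + 1 : ℕ) : ℤ) * e ≤ k + e by rw [hk]; push_cast; linarith)
          using 1
        ring
  -- a uniformiser is congruent to an element of the line
  obtain ⟨π, hπ0, hπ⟩ := exists_uniformizer v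
  obtain ⟨p, hp, hpπ⟩ := hgen π
  set m : ℕ := (Finset.range (p.natDegree + 1)).sup fun i ↦ (v.ord (p.coeff i)).natAbs
  obtain ⟨θ, hθ, hθ0, -, hδ⟩ := happ (m + 1)
  set q := C (t ^ m) * p with hq
  have hq0 : ∀ i, OrdGE v 0 (q.coeff i) := fun i ↦ by
    rw [hq, coeff_C_mul]
    rcases lt_or_ge p.natDegree i with hi | hi
    · exact Or.inl (by rw [coeff_eq_zero_of_natDegree_lt hi, mul_zero])
    have h1 : (v.ord (p.coeff i)).natAbs ≤ m :=
      Finset.le_sup (f := fun i ↦ (v.ord (p.coeff i)).natAbs) (Finset.mem_range.mpr (by omega))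
    refine ((ordGE_ord v (t ^ m)).mul (ordGE_ord v (p.coeff i))).mono ?_
    rw [ord_pow, ← hedef]
    have : (1 : ℤ) ≤ e := by omega
    have : (m : ℤ) ≤ m * e := le_mul_of_one_le_right (by positivity) this
    omega
  have hqe : q.eval f = t ^ m * π := by rw [hq, eval_mul, eval_C, hpπ]
  have hdiff := ordGE_eval_sub hq0 hf hθ0 hδ
  rw [hqe] at hdiff
  have hy : q.eval θ ∈ K⟮x⟯ := heval (fun i ↦ by
    rw [hq, coeff_C_mul]; exact mul_mem (pow_mem ht m) (hp i)) hθ
  have htm : t ^ m * π ≠ 0 := mul_ne_zero (pow_ne_zero _ ht0) hπ0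
  have hord : v.ord (t ^ m * π) = m * e + 1 := by
    rw [v.ord_mul (pow_ne_zero _ ht0) hπ0, ord_pow, hπ]
  by_contra hne
  have he2 : 2 ≤ e := by omega
  rcases eq_or_ne (q.eval θ) 0 with h0 | h0
  · rw [h0, sub_zero] at hdiff
    have := hdiff.le_ord htm
    rw [hord] at this
    push_cast at this
    nlinarith
  obtain ⟨d, hd⟩ := dvd_ord_of_mem hx hv hy h0
  rw [← hedef] at hd
  have hlow : OrdGE v (min (v.ord (t ^ m * π)) (((m + 1 + 1 : ℕ) : ℤ) * e)) (q.eval θ) := by
    have := ((ordGE_ord v (t ^ m * π)).mono (min_le_left _ (((m + 1 + 1 : ℕ) : ℤ) * e))).sub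
      (hdiff.mono (min_le_right _ _))
    rwa [sub_sub_cancel] at this
  have h1 := hlow.le_ord h0
  have hup : OrdGE v (min (v.ord (q.eval θ)) (((m + 1 + 1 : ℕ) : ℤ) * e)) (t ^ m * π) := by
    have := ((ordGE_ord v (q.eval θ)).mono (min_le_left _ (((m + 1 + 1 : ℕ) : ℤ) * e))).add
      (hdiff.mono (min_le_right _ _))
    rwa [add_sub_cancel] at this
  have h2 := hup.le_ord htm
  rw [hord] at h1 h2
  rw [hd] at h1 h2
  push_cast at h1 h2
  rw [min_eq_left (by nlinarith)] at h1
  have hdm : (m : ℤ) < d := by nlinarith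
  rcases le_or_gt (d : ℤ) (m + 2) with h | h
  · rw [min_eq_left (by nlinarith)] at h2
    nlinarith
  · rw [min_eq_right (by nlinarith)] at h2
    nlinarith

end Approx

section Transport

variable {K F E : Type*} [Field K] [Field F] [Field E] [Algebra K F] [Algebra K E]

/-- Separability descends along an embedding. -/
theorem isSeparable_of_algHom (ι : F →ₐ[K] E) {x : F}
    (h : Algebra.IsSeparable K⟮ι x⟯ E) : Algebra.IsSeparable K⟮x⟯ F := by
  have hmap : K⟮x⟯.map ι = K⟮ι x⟯ := by rw [adjoin_map, Set.image_singleton]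
  let e : K⟮x⟯ ≃ₐ[K] K⟮ι x⟯ := (K⟮x⟯.equivMap ι).trans (IntermediateField.equivOfEq hmap)
  have hcomm : (ι : F →+* E).comp (algebraMap K⟮x⟯ F) =
      (algebraMap K⟮ι x⟯ E).comp (e : K⟮x⟯ →+* K⟮ι x⟯) := RingHom.ext fun _ ↦ rfl
  refine ⟨fun y ↦ ?_⟩
  set p := minpoly K⟮ι x⟯ (ι y)
  have hq : Polynomial.aeval y (p.map (e.symm : K⟮ι x⟯ →+* K⟮x⟯)) = 0 := by
    apply ι.injective
    rw [map_zero, aeval_def, eval₂_map]
    show (ι : F →+* E) _ = _
    rw [hom_eval₂, ← RingHom.comp_assoc, hcomm,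
      RingHom.comp_assoc, show (e : K⟮x⟯ →+* K⟮ι x⟯).comp (e.symm : K⟮ι x⟯ →+* K⟮x⟯) =
        RingHom.id _ from RingHom.ext fun z ↦ e.apply_symm_apply z, RingHom.comp_id]
    exact minpoly.aeval _ _
  have hsep : (p.map (e.symm : K⟮ι x⟯ →+* K⟮x⟯)).Separable :=
    Polynomial.Separable.map (Algebra.IsSeparable.isSeparable K⟮ι x⟯ (ι y))
  exact hsep.of_dvd (minpoly.dvd _ _ hq)

/-- The degree of a subfield over a simple subfield, computed in the ambient field. -/
theorem finrank_adjoin_coe {Ω : Type*} [Field Ω] [Algebra K Ω] {F : IntermediateField K Ω} (x : F)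
    (h : K⟮(x : Ω)⟯ ≤ F) :
    Module.finrank K⟮x⟯ F = Module.finrank K⟮(x : Ω)⟯ (IntermediateField.extendScalars h) := by
  have hmap : K⟮x⟯.map F.val = K⟮(x : Ω)⟯ := by rw [adjoin_map, Set.image_singleton]; rfl
  let e : K⟮x⟯ ≃ₐ[K] K⟮(x : Ω)⟯ :=
    (K⟮x⟯.equivMap F.val).trans (IntermediateField.equivOfEq hmap)
  exact Algebra.finrank_eq_of_equiv_equiv e.toRingEquiv
    (RingEquiv.refl F : F ≃+* (IntermediateField.extendScalars h)) (RingHom.ext fun _ => rfl)

end Transport

end FLTAgent.GoodModel
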