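import Fermat.Agent.ModEq.Embeddings
import Fermat.Agent.Curves.Orbits
import Fermat.Agent.GoodModel.Approx

/-!
The function field of level `N` over a field in which `N` is invertible, and its places over
`j = ∞`.
-/

set_option autoImplicit false

noncomputable section

open HahnSeries ModularCurve IntermediateField AlgebraicCurve FLTAgent.Curves FLTAgent.ModEq

namespace FLTAgent.GoodModel

variable (K : Type*) [Field K] (N : ℕ) [NeZero N]

/-- `j` in the function field of level `N`. -/
def jbarEl : modularFunctionFieldFullC K N := ⟨jqModC K, jqModC_mem_full K N⟩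

@[simp] lemma coe_jbarEl : (jbarEl K N : LaurentSeries K) = jqModC K := rfl

lemma jField_le : jField K ≤ modularFunctionFieldFullC K N :=
  adjoin_simple_le_iff.mpr (jqModC_mem_full K N)

variable {K N}

lemma finrank_adjoin_jbarEl (hN : (N : K) ≠ 0) :
    Module.finrank K⟮jbarEl K N⟯ (modularFunctionFieldFullC K N) = dedekindPsi N := by
  rw [finrank_adjoin_coe (jbarEl K N) (jField_le K N)]
  exact finrank_fullC hN (jField_le K N)

lemma transcendental_jqModC : Transcendental K (jqModC K) := by
  rw [← jAt_one_one]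
  exact transcendental_jAt 1 1

lemma transcendental_jbarEl : Transcendental K (jbarEl K N) :=
  (transcendental_algebraMap_iff (R := K) (algebraMap (modularFunctionFieldFullC K N)
    (LaurentSeries K)).injective).mp transcendental_jqModC

lemma dedekindPsi_pos : 0 < dedekindPsi N :=
  Finset.sum_pos' (fun _ _ => Nat.zero_le _)
    ⟨1, Finset.mem_filter.2 ⟨Nat.one_mem_divisors.2 (NeZero.ne N), squarefree_one⟩, by
      simp [Nat.pos_of_ne_zero (NeZero.ne N)]⟩

theorem isFunctionField_fullC (hN : (N : K) ≠ 0) :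
    Curves.IsFunctionField K (modularFunctionFieldFullC K N) := by
  refine IsFunctionField.mk_of _ transcendental_jbarEl (FiniteDimensional.of_finrank_pos ?_)
  rw [finrank_adjoin_jbarEl hN]
  exact dedekindPsi_pos

variable (N)

/-- The monodromy at infinity on triples. -/
def triShiftFun (t : {t // t ∈ primTriples N}) : {t // t ∈ primTriples N} :=
  ⟨(t.1.1, (t.1.2.1 + t.1.1) % t.1.2.2, t.1.2.2), by
    have ht := mem_primTriples.mp t.2
    refine mem_primTriples.mpr ⟨ht.1, Nat.mod_lt _ ht.pos.2, fun r hr h1 h2 h3 => ?_⟩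
    rw [Nat.dvd_mod_iff h3, Nat.dvd_add_left h1] at h2
    exact ht.2.2 r hr h1 h2 h3⟩

lemma triShiftFun_injective : Function.Injective (triShiftFun N) := by
  rintro ⟨⟨a, b, d⟩, h⟩ ⟨⟨a', b', d'⟩, h'⟩ e
  simp only [triShiftFun, Subtype.mk.injEq, Prod.mk.injEq] at e
  obtain ⟨rfl, e2, rfl⟩ := e
  obtain rfl : b = b' := Nat.ModEq.eq_of_lt_of_lt (Nat.ModEq.add_right_cancel' a e2)
    (mem_primTriples.mp h).2.1 (mem_primTriples.mp h').2.1
  rfl

/-- The monodromy at infinity as a permutation. -/
def triShift : Equiv.Perm {t // t ∈ primTriples N} :=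
  Equiv.ofBijective _ (Finite.injective_iff_bijective.mp (triShiftFun_injective N))

/-- The number of orbits of the monodromy at infinity. -/
def numCusps : ℕ := Nat.card (Quotient (Equiv.Perm.SameCycle.setoid (triShift N)))

variable {N}

lemma twist_order (w : Kˣ) (f : LaurentSeries K) : (twist w f).order = f.order := by
  rcases eq_or_ne f 0 with rfl | hf
  · simp
  have hne : twist w f ≠ 0 := fun h => hf <| by
    ext k
    have := congrArg (fun z : LaurentSeries K => z.coeff k) h
    simpa [zpow_ne_zero] using this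
  refine le_antisymm (HahnSeries.order_le_of_coeff_ne_zero ?_) (HahnSeries.order_le_of_coeff_ne_zero ?_)
  · rw [twist_coeff]
    exact mul_ne_zero (Units.ne_zero _) (mt HahnSeries.coeff_order_eq_zero.mp hf)
  · intro h0
    have := mt HahnSeries.coeff_order_eq_zero.mp hne
    rw [twist_coeff, h0, mul_zero] at this
    exact this rfl

theorem poles_jbarEl [IsAlgClosed K] (hN : (N : K) ≠ 0)
    [Curves.IsFunctionField K (modularFunctionFieldFullC K N)] :
    Nat.card {v : Place K (modularFunctionFieldFullC K N) // v.ord (jbarEl K N) < 0} = numCusps N ∧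
      ∀ v : Place K (modularFunctionFieldFullC K N), v.ord (jbarEl K N) < 0 →
        v.ord (jbarEl K N) ∣ (N : ℤ) := by
  classical
  obtain ⟨ζ, hζ⟩ := exists_isPrimitiveRoot_units N hN
  set I := {t // t ∈ primTriples N}
  have heq := modularFunctionFieldFullC_eq (K := K) N hN
  have hex : ∀ i : I, ∃ τ : modularFunctionFieldFullC K N →ₐ[K] LaurentSeries K,
      τ (jbarEl K N) = jAt (1 : Kˣ) N ∧
      τ ⟨jqNModC K N, heq ▸ jqNModC_mem K N⟩ = tSer ζ N i.1 := fun i => by
    obtain ⟨τ, h1, h2⟩ := exists_cusp_embedding hζ dvd_rfl (mem_primTriples.mp i.2)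
    exact ⟨τ.comp (IntermediateField.equivOfEq heq).toAlgHom, h1, h2⟩
  choose φ hφj hφN using hex
  have hext : ∀ f g : modularFunctionFieldFullC K N →ₐ[K] LaurentSeries K,
      f (jbarEl K N) = g (jbarEl K N) →
      f ⟨jqNModC K N, heq ▸ jqNModC_mem K N⟩ = g ⟨jqNModC K N, heq ▸ jqNModC_mem K N⟩ → f = g := by
    intro f g h1 h2
    refine IntermediateField.algHom_ext_of_eq_adjoin _ heq fun x hx => ?_
    rcases hx with rfl | rfl
    · exact h1
    · exact h2
  have hinj : Function.Injective fun i => (φ i : modularFunctionFieldFullC K N →+* LaurentSeries K) := by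
    intro i j h
    have h' := DFunLike.congr_fun h
      (⟨jqNModC K N, heq ▸ jqNModC_mem K N⟩ : modularFunctionFieldFullC K N)
    simp only [RingHom.coe_coe, hφN] at h'
    have hi := mem_primTriples.mp i.2
    have hj := mem_primTriples.mp j.2
    exact Subtype.ext (tSer_inj_level ζ N hζ dvd_rfl hi.1 hj.1 hi.2.1 hj.2.1 h')
  have hζN : ζ ^ N = 1 := hζ.pow_eq_one
  have hσφ : ∀ i, φ (triShift N i) = (twistAlg ζ).comp (φ i) := by
    intro i
    refine hext _ _ ?_ ?_
    · rw [AlgHom.comp_apply, twistAlg_apply, hφj, hφj, twist_jAt, hζN, mul_one]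
    · rw [AlgHom.comp_apply, twistAlg_apply, hφN, hφN]
      obtain ⟨⟨a, b, d⟩, hi⟩ := i
      have ht := mem_primTriples.mp hi
      show tSer ζ N (a, (b + a) % d, d) = twist ζ (tSer ζ N (a, b, d))
      rw [tSer_mod ζ N hζN ht.dvd, tSer_def, tSer_def]
      have : NeZero (a * (N / d)) := ⟨Nat.mul_ne_zero ht.pos.1.ne'
        (Nat.div_pos (Nat.le_of_dvd (Nat.pos_of_ne_zero (NeZero.ne N)) ht.dvd) ht.pos.2).ne'⟩
      rw [twist_jAt, ← _root_.pow_add, add_mul]
  have hord : ∀ i f, ((φ (triShift N i)) f).order = (φ i f).order := fun i f => by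
    rw [hσφ, AlgHom.comp_apply, twistAlg_apply, twist_order]
  have hpow : ∀ (d : ℕ) i f, φ ((triShift N ^ d) i) f = twist (ζ ^ d) (φ i f) := by
    intro d
    induction d with
    | zero => intro i f; simp [twist_one]
    | succ d ih =>
      intro i f
      rw [pow_succ', Equiv.Perm.mul_apply, hσφ, AlgHom.comp_apply, twistAlg_apply, ih, twist_twist,
        ← pow_succ']
  have hT : ∀ i, φ i (jbarEl K N)⁻¹ = (jAt (1 : Kˣ) N)⁻¹ := fun i => by rw [map_inv₀, hφj]
  have hTord : ((jAt (1 : Kˣ) N)⁻¹).order = (N : ℤ) := by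
    have h1 : (jAt (1 : Kˣ) N).order = -(N : ℤ) := by
      refine le_antisymm (HahnSeries.order_le_of_coeff_ne_zero ?_) ?_
      · rw [jAt_coeff_neg]; exact Units.ne_zero _
      · by_contra h
        exact mt HahnSeries.coeff_order_eq_zero.mp (jAt_ne_zero _ _) (jAt_coeff_of_lt _ _ (not_le.mp h))
    rw [lord_inv, h1, neg_neg]
  have hfix : ∀ i, ∀ d : ℕ, (triShift N ^ d) i = i → ∀ f,
      ((jAt (1 : Kˣ) N)⁻¹).order ∣ (d : ℤ) * (φ i f).order := by
    intro i d hd f
    rw [hTord]
    rcases eq_or_ne (φ i f) 0 with h0 | h0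
    · simp [h0]
    have h1 := congrArg (fun z : LaurentSeries K => z.coeff (φ i f).order) (hpow d i f)
    simp only [hd, twist_coeff] at h1
    have hc := mt HahnSeries.coeff_order_eq_zero.mp h0
    have h2 : (((ζ ^ d) ^ (φ i f).order : Kˣ) : K) = 1 :=
      mul_right_cancel₀ hc (h1.symm.trans (one_mul _).symm)
    rw [Units.val_eq_one, ← zpow_natCast, ← zpow_mul, hζ.zpow_eq_one_iff_dvd] at h2
    exact h2
  have hI : Fintype.card I = Module.finrank K⟮(jbarEl K N)⁻¹⟯ (modularFunctionFieldFullC K N) := by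
    rw [adjoin_simple_inv_eq, finrank_adjoin_jbarEl hN, Fintype.card_coe]
    exact (good_of_dvd hζ N dvd_rfl).card
  haveI : Nonempty I := ⟨⟨_, mem_primTriples.mpr (isPrim_top N)⟩⟩
  obtain ⟨P, hP0, hPsurj, hPiff, hPord⟩ :=
    exists_place_map_of_tame (fun i => (φ i : modularFunctionFieldFullC K N →+* LaurentSeries K))
      (κ := RingHom.id K)
      (fun i a => by
        rw [RingHom.coe_coe, AlgHom.commutes, HahnSeries.C_apply,
          algebraMap_laurentSeries_eq_single, RingHom.id_apply])
      hinj hI hT (by rw [hTord]; exact_mod_cast Nat.pos_of_ne_zero (NeZero.ne N))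
      (by rw [hTord]; exact_mod_cast hN) (triShift N) hord hfix
  have hiff : ∀ v : Place K (modularFunctionFieldFullC K N),
      0 < v.ord (jbarEl K N)⁻¹ ↔ v.ord (jbarEl K N) < 0 := fun v => by rw [v.ord_inv]; omega
  let F : Quotient (Equiv.Perm.SameCycle.setoid (triShift N)) →
      {v : Place K (modularFunctionFieldFullC K N) // v.ord (jbarEl K N) < 0} :=
    Quotient.lift (fun i => ⟨P i, (hiff _).1 (hP0 i)⟩) fun i j h => Subtype.ext ((hPiff i j).2 h)
  refine ⟨(Nat.card_congr (Equiv.ofBijective F ⟨fun x y => ?_, fun v => ?_⟩)).symm, fun v hv => ?_⟩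
  · induction x using Quotient.inductionOn with
    | h i =>
      induction y using Quotient.inductionOn with
      | h j => exact fun h => Quotient.sound ((hPiff i j).1 (congrArg Subtype.val h))
  · obtain ⟨i, hi⟩ := hPsurj v.1 ((hiff _).2 v.2)
    exact ⟨Quotient.mk _ i, Subtype.ext hi⟩
  · obtain ⟨i, rfl⟩ := hPsurj v ((hiff _).2 hv)
    obtain ⟨c, -, hc⟩ := hPord i
    refine ⟨-c, ?_⟩
    have := hc (jbarEl K N)⁻¹
    rw [RingHom.coe_coe, hT, hTord, (P i).ord_inv] at this
    linarith

end FLTAgent.GoodModel
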