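import Fermat.Agent.GoodModel.Level
import Fermat.Agent.GoodModel.Approx
import Fermat.Agent.GoodModel.Cusps

/-!
The auxiliary coordinate lies in the function field of level `M₀²`, and `j` is a rational
function of exact degree `ψ(M₀²)` in it.
-/

set_option autoImplicit false

noncomputable section

open ModularCurve IntermediateField Polynomial FLTAgent.ModEq

namespace FLTAgent.GoodModel

variable {K : Type*} [Field K]

lemma eval₂_C_eq_aeval (h : LaurentSeries K) (P : K[X]) :
    P.eval₂ HahnSeries.C h = aeval h P := by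
  rw [aeval_def, algebraMap_eq_C]

lemma ratIn_map {R : Type*} [CommRing R] {ι : Type*} [Fintype ι] (φ : R →+* K)
    {H z : LaurentSeries R} {c : ι → R} (hz : RatIn H c z) :
    RatIn (coeffMap φ H) (fun i ↦ φ (c i)) (coeffMap φ z) := by
  obtain ⟨P, w, h⟩ := hz
  refine ⟨P.map φ, w, ?_⟩
  have hc : (coeffMap φ).comp HahnSeries.C = HahnSeries.C.comp φ :=
    RingHom.ext fun r ↦ coeffMap_C φ r
  have h' := congrArg (coeffMap φ) h
  rw [map_mul, hom_eval₂, hom_eval₂, hc, ← eval₂_map, ← eval₂_map, Polynomial.map_prod] at h'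
  simpa using h'

lemma dedekindPsi_sq {M0 : ℕ} (hM : M0 = 2 ∨ M0 = 3) :
    dedekindPsi (M0 * M0) = M0 * M0 + M0 := by
  rcases hM with rfl | rfl
  · have h4 : ¬ Squarefree 4 := fun h ↦ absurd (Nat.isUnit_iff.mp (h 2 ⟨1, rfl⟩)) (by norm_num)
    rw [dedekindPsi, show Nat.divisors (2 * 2) = {1, 2, 4} by decide, Finset.sum_filter]
    norm_num [Finset.sum_insert, Nat.prime_two.squarefree, h4]
  · have h9 : ¬ Squarefree 9 := fun h ↦ absurd (Nat.isUnit_iff.mp (h 3 ⟨1, rfl⟩)) (by norm_num)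
    rw [dedekindPsi, show Nat.divisors (3 * 3) = {1, 3, 9} by decide, Finset.sum_filter]
    norm_num [Finset.sum_insert, Nat.prime_three.squarefree, h9]

/-- The multiplicities of the poles of `j` over the auxiliary coordinate. -/
def wJ {M0 : ℕ} (i : Fin M0) : ℕ := if (i : ℕ) = 0 then M0 * M0 else 1

lemma wJ_pos {M0 : ℕ} [NeZero M0] (i : Fin M0) : 0 < wJ i := by
  rw [wJ]
  split
  · exact Nat.mul_pos (NeZero.pos M0) (NeZero.pos M0)
  · exact one_pos

lemma sum_wJ {M0 : ℕ} (hM : M0 = 2 ∨ M0 = 3) : ∑ i : Fin M0, wJ i + 1 = M0 * M0 + M0 := by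
  rcases hM with rfl | rfl <;> simp [wJ, Fin.sum_univ_two, Fin.sum_univ_three]

/-- The common denominator of `j`. -/
def qJ {M0 : ℕ} (c : Fin M0 → K) : K[X] := ∏ i, (X - C (c i)) ^ wJ i

lemma monic_qJ {M0 : ℕ} (c : Fin M0 → K) : (qJ c).Monic :=
  monic_prod_of_monic _ _ fun i _ ↦ (monic_X_sub_C _).pow _

lemma natDegree_qJ {M0 : ℕ} (c : Fin M0 → K) : (qJ c).natDegree = ∑ i : Fin M0, wJ i := by
  rw [qJ, natDegree_prod_of_monic _ _ fun i _ ↦ (monic_X_sub_C _).pow _]
  simp

lemma transcendental_of_geOrd {h : LaurentSeries K} {a : ℤ} (ha : a < 0) (hc : h.coeff a ≠ 0) :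
    Transcendental K h := by
  rintro ⟨p, hp, h0⟩
  have hh : h ≠ 0 := fun e ↦ hc (by simp [e])
  have ho : h.order < 0 := (HahnSeries.order_le_of_coeff_ne_zero hc).trans_lt ha
  have key := congrArg (fun z : LaurentSeries K ↦ z.coeff ((p.natDegree : ℤ) * h.order)) h0
  simp only [HahnSeries.coeff_zero, aeval_def, algebraMap_eq_C, RingHom.comp_id, eval₂_eq_sum_range,
    HahnSeries.coeff_sum] at key
  have hlt : GeOrd h h.order := fun k hk ↦ HahnSeries.coeff_eq_zero_of_lt_order hk
  rw [Finset.sum_eq_single p.natDegree] at key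
  · rw [show ((p.natDegree : ℤ) * h.order) = 0 + (p.natDegree : ℤ) * h.order from (zero_add _).symm,
      (geOrd_C _).coeff_mul_add (hlt.pow _), hlt.coeff_pow, HahnSeries.C_apply,
      HahnSeries.coeff_single_same] at key
    exact mul_ne_zero (leadingCoeff_ne_zero.mpr hp)
      (pow_ne_zero _ (mt HahnSeries.coeff_order_eq_zero.mp hh)) key
  · intro i hi hne
    refine ((geOrd_C _).mul (hlt.pow i)) _ ?_
    have : (i : ℤ) + 1 ≤ p.natDegree := by have := Finset.mem_range.mp hi; omega
    nlinarith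
  · simp

section Main

variable {S : Subring ℂ} {M0 N' : ℕ} [NeZero M0] [NeZero N'] (φ : S →+* K)
  (L : LevelSeries S M0 N')

/-- The auxiliary coordinate over `K`. -/
def hser : LaurentSeries K := coeffMap φ L.H

/-- The values at the finite cusps. -/
def cK (i : Fin M0) : K := φ (L.c i)

lemma cK_injective : Function.Injective (cK φ L) := fun i j h ↦ by
  by_contra hne
  have := (L.isUnit_c i j hne).map φ
  rw [map_sub, show φ (L.c i) = φ (L.c j) from h, sub_self] at this
  exact not_isUnit_zero this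

lemma hser_transcendental : Transcendental K (hser φ L) := by
  refine transcendental_of_geOrd (a := -(N' : ℤ))
    (by simpa using Nat.pos_of_ne_zero (NeZero.ne N')) ?_
  rw [hser, coeffMap_coeff]
  exact (L.leadH.2.map φ).ne_zero

lemma mem_line_of_ratIn {z : LaurentSeries K} (hz : RatIn (hser φ L) (cK φ L) z) :
    z ∈ K⟮hser φ L⟯ := by
  obtain ⟨P, w, h⟩ := hz
  rw [eval₂_C_eq_aeval, eval₂_C_eq_aeval] at h
  set Q := ∏ i, (X - C (cK φ L i)) ^ w i
  have hQ : aeval (hser φ L) Q ≠ 0 := fun h0 ↦ hser_transcendental φ L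
    ⟨Q, (monic_prod_of_monic _ _ fun i _ ↦ (monic_X_sub_C _).pow _).ne_zero, h0⟩
  exact (mem_adjoin_simple_iff K _).2 ⟨P, Q, by rw [← h, mul_div_cancel_right₀ _ hQ]⟩

/-- The rational relation between `j` and the coordinate. -/
lemma exists_jRel : ∃ P : K[X], P.natDegree ≤ M0 * M0 + M0 ∧
    jAt (1 : Kˣ) N' * aeval (hser φ L) (qJ (cK φ L)) = aeval (hser φ L) P := by
  obtain ⟨P, hP, h⟩ := L.jRel
  refine ⟨P.map φ, natDegree_map_le.trans hP, ?_⟩
  have hc : (coeffMap φ).comp HahnSeries.C = HahnSeries.C.comp φ :=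
    RingHom.ext fun r ↦ coeffMap_C φ r
  have h' := congrArg (coeffMap φ) h
  rw [map_mul, coeffMap_jAt, map_one, hom_eval₂, hom_eval₂, hc, ← eval₂_map, ← eval₂_map,
    Polynomial.map_prod, eval₂_C_eq_aeval, eval₂_C_eq_aeval] at h'
  simpa [qJ, wJ, cK, hser, apply_ite] using h'

variable (hM : M0 = 2 ∨ M0 = 3) (hK : ((M0 * M0 : ℕ) : K) ≠ 0)

include hM hK in
/-- The coordinate lies in the field of level `M₀²`, and the relation has exact degree. -/
theorem hser_mem_and_degree :
    (∃ z ∈ modularFunctionFieldC K (M0 * M0), substAlg (1 : Kˣ) N' z = hser φ L) ∧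
    ∃ P : K[X], P.natDegree = (qJ (cK φ L)).natDegree + 1 ∧ (∀ i, P.eval (cK φ L i) ≠ 0) ∧
      jAt (1 : Kˣ) N' * aeval (hser φ L) (qJ (cK φ L)) = aeval (hser φ L) P := by
  classical
  obtain ⟨P, hPdeg, hrel⟩ := exists_jRel φ L
  set M := M0 * M0 with hMdef
  set h := hser φ L
  set J : LaurentSeries K := jAt (1 : Kˣ) N' with hJ
  set B := baseField K N'
  have hJB : J ∈ B := mem_adjoin_simple_self K _
  have hJtr : Transcendental K J := transcendental_jAt _ _
  -- a nonzero polynomial over `B` killing `h`, for any split of the relation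
  have hpoly : ∀ P' Q' : K[X], Q'.Monic → J * aeval h Q' = aeval h P' →
      ∃ p : B[X], p ≠ 0 ∧ aeval h p = 0 ∧ p.natDegree ≤ max P'.natDegree Q'.natDegree := by
    intro P' Q' hQ' he
    refine ⟨P'.map (algebraMap K B) - C (⟨J, hJB⟩ : B) * Q'.map (algebraMap K B), fun h0 ↦ ?_, ?_, ?_⟩
    · have h1 := congrArg (fun p : B[X] ↦ (p.coeff Q'.natDegree : LaurentSeries K)) h0
      simp only [Polynomial.coeff_sub, coeff_map, coeff_C_mul, hQ'.coeff_natDegree, map_one, mul_one,
        coeff_zero, AddSubgroupClass.coe_sub, ZeroMemClass.coe_zero] at h1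
      have h2 : algebraMap K (LaurentSeries K) (P'.coeff Q'.natDegree) = J := sub_eq_zero.mp h1
      exact hJtr (h2 ▸ isAlgebraic_algebraMap _)
    · rw [map_sub, map_mul, aeval_C, aeval_map_algebraMap, aeval_map_algebraMap, ← he]
      exact sub_self _
    · refine (natDegree_sub_le _ _).trans (max_le_max natDegree_map_le ?_)
      exact (natDegree_C_mul_le _ _).trans natDegree_map_le
  obtain ⟨p, hp0, hph, hpdeg⟩ := hpoly P (qJ (cK φ L)) (monic_qJ _) hrel
  have hψ : dedekindPsi M = M + M0 := dedekindPsi_sq hM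
  have hQdeg : (qJ (cK φ L)).natDegree + 1 = dedekindPsi M := by
    rw [natDegree_qJ, sum_wJ hM, hψ]
  have hint : IsIntegral B h := (IsAlgebraic.isIntegral ⟨p, hp0, hph⟩)
  haveI := IntermediateField.adjoin.finiteDimensional hint
  have hupper : Module.finrank B B⟮h⟯ ≤ dedekindPsi M := by
    rw [IntermediateField.adjoin.finrank hint]
    refine (natDegree_le_of_dvd (minpoly.dvd _ _ hph) hp0).trans (hpdeg.trans ?_)
    rw [hψ]
    exact max_le hPdeg (by omega)
  -- `j_M` generates
  set y : LaurentSeries K := jAt (1 : Kˣ) (M * N')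
  have hy : y ∈ B⟮h⟯ := by
    have h1 : RatIn (hser φ L) (cK φ L) y := by
      have := ratIn_map φ L.jMRat
      rwa [coeffMap_jAt, map_one] at this
    have h2 : K⟮h⟯ ≤ (B⟮h⟯).restrictScalars K :=
      adjoin_simple_le_iff.mpr (mem_adjoin_simple_self B h)
    exact h2 (mem_line_of_ratIn φ L h1)
  have hxS : substAlg (1 : Kˣ) N' (jqNModC K M) = y := scale_jqN N' M
  have hsur : Function.Surjective (scaleBase (K := K) N') := by
    rintro ⟨z, hz⟩
    have h' : (jField K).map (substAlg (1 : Kˣ) N') = baseField K N' := by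
      rw [jField, adjoin_map, Set.image_singleton, scale_jq]
    rw [← h'] at hz
    obtain ⟨w, hw, hwz⟩ := hz
    exact ⟨⟨w, hw⟩, Subtype.ext hwz⟩
  let e : jField K ≃+* B := RingEquiv.ofBijective (scaleBase N') ⟨RingHom.injective _, hsur⟩
  have hlow : ∀ g : B[X], g.Monic → aeval y g = 0 → dedekindPsi M ≤ g.natDegree := by
    intro g hg hg0
    have hinj : Function.Injective (substAlg (1 : Kˣ) N' : LaurentSeries K → LaurentSeries K) :=
      substHom_injective _ _
    have := natDegree_le_of_root M hK (g := g.map (e.symm : B →+* jField K)) (hg.map _) (hinj (by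
      rw [map_zero, aeval_def, eval₂_map]
      show (substAlg (1 : Kˣ) N' : LaurentSeries K →+* LaurentSeries K) _ = 0
      rw [hom_eval₂, RingHom.coe_coe, hxS, ← RingHom.comp_assoc,
        show ((substAlg (1 : Kˣ) N' : LaurentSeries K →+* LaurentSeries K).comp
            (algebraMap (jField K) (LaurentSeries K))).comp (e.symm : B →+* jField K) =
          algebraMap B (LaurentSeries K) from
          RingHom.ext fun z ↦ congrArg Subtype.val (e.apply_symm_apply z)]
      exact hg0))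
    rwa [hg.natDegree_map] at this
  have hyint : IsIntegral B y := by
    have h1 : (⟨y, hy⟩ : B⟮h⟯).1 = y := rfl
    exact (IsIntegral.of_finite B (⟨y, hy⟩ : B⟮h⟯)).map (B⟮h⟯).val
  have hyrank : dedekindPsi M ≤ Module.finrank B B⟮y⟯ := by
    rw [IntermediateField.adjoin.finrank hyint]
    exact hlow _ (minpoly.monic hyint) (minpoly.aeval _ _)
  have hle : B⟮y⟯ ≤ B⟮h⟯ := adjoin_simple_le_iff.mpr hy
  have heq : B⟮y⟯ = B⟮h⟯ := eq_of_le_of_finrank_le hle (hupper.trans hyrank)
  have hmin : ∀ q : B[X], q ≠ 0 → aeval h q = 0 → dedekindPsi M ≤ q.natDegree := by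
    intro q hq hq0
    refine le_trans ?_ (natDegree_le_of_dvd (minpoly.dvd _ _ hq0) hq)
    rw [← IntermediateField.adjoin.finrank hint, ← heq]
    exact hyrank
  refine ⟨?_, P, ?_, fun i hi ↦ ?_, hrel⟩
  · have hh : h ∈ (B⟮y⟯).restrictScalars K := by
      rw [heq]; exact mem_adjoin_simple_self B h
    have hmap : (modularFunctionFieldC K M).map (substAlg (1 : Kˣ) N') =
        (B⟮y⟯).restrictScalars K := by
      rw [modularFunctionFieldC, adjoin_map, Set.image_pair, scale_jq, hxS, ← Set.singleton_union]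
      exact (adjoin_adjoin_left K {J} {y}).symm
    rw [← hmap] at hh
    exact hh
  · by_contra hne
    obtain ⟨q, hq0, hqh, hqdeg⟩ := hpoly P _ (monic_qJ (cK φ L)) hrel
    have := hmin q hq0 hqh
    omega
  · obtain ⟨P₁, rfl⟩ := dvd_iff_isRoot.mpr hi
    have hdvd : X - C (cK φ L i) ∣ qJ (cK φ L) := by
      refine dvd_trans ?_ (Finset.dvd_prod_of_mem _ (Finset.mem_univ i))
      exact dvd_pow_self _ (wJ_pos i).ne'
    obtain ⟨Q₁, hQ₁⟩ := hdvd
    have hQ₁m : Q₁.Monic := (monic_X_sub_C (cK φ L i)).of_mul_monic_left (hQ₁ ▸ monic_qJ _)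
    have hne : aeval h (X - C (cK φ L i)) ≠ 0 := fun h0 ↦
      hser_transcendental φ L ⟨_, X_sub_C_ne_zero _, h0⟩
    have he : J * aeval h Q₁ = aeval h P₁ := by
      rw [hQ₁, map_mul, map_mul] at hrel
      exact mul_left_cancel₀ hne (by linear_combination hrel)
    obtain ⟨q, hq0, hqh, hqdeg⟩ := hpoly P₁ Q₁ hQ₁m he
    have := hmin q hq0 hqh
    have h1 : (qJ (cK φ L)).natDegree = 1 + Q₁.natDegree := by
      rw [hQ₁, (monic_X_sub_C _).natDegree_mul hQ₁m, natDegree_X_sub_C]
    rcases eq_or_ne P₁ 0 with rfl | hP₁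
    · rw [natDegree_zero] at hqdeg; omega
    rw [natDegree_mul (X_sub_C_ne_zero _) hP₁, natDegree_X_sub_C] at hPdeg
    omega

end Main

end FLTAgent.GoodModel
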