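import Fermat.Agent.GoodModel.Wp
import Fermat.Agent.ModEq.Exp

/-!
Expansions of differences of torsion values of `℘`, over a subring of `ℂ`.
-/

set_option autoImplicit false

noncomputable section

open UpperHalfPlane hiding I I_re I_im
open Filter Topology Complex Function FLTAgent.ModEq ModularCurve
open scoped MatrixGroups Manifold

namespace FLTAgent.GoodModel

section Ser

variable {R : Type*} [CommRing R]

/-- The coefficient of `x^n` in `∑_{e ≡ a (N)} U(w^{±1} x^{|e|})`, `U(u) = u/(1-u)²`. -/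
def wcoef (N : ℕ) (a : ℤ) (w : Rˣ) (n : ℕ) : R :=
  ∑ k ∈ n.divisors, (k : R) * ((if (N : ℤ) ∣ ((n / k : ℕ) : ℤ) - a then ((w ^ k : Rˣ) : R) else 0) +
    (if (N : ℤ) ∣ ((n / k : ℕ) : ℤ) + a then ((w⁻¹ ^ k : Rˣ) : R) else 0))

/-- `∑_{e ≡ a (N)} U(w^{±1} x^{|e|})` as a power series. -/
def wser (N : ℕ) (a : ℤ) (w : Rˣ) : PowerSeries R :=
  PowerSeries.mk fun n ↦ if n = 0 then
    (if (N : ℤ) ∣ a then (w : R) * Ring.inverse (1 - (w : R)) ^ 2 else 0) else wcoef N a w n

lemma wser_coeff_zero (N : ℕ) (a : ℤ) (w : Rˣ) :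
    PowerSeries.coeff 0 (wser N a w) =
      if (N : ℤ) ∣ a then (w : R) * Ring.inverse (1 - (w : R)) ^ 2 else 0 := by
  simp [wser]

lemma wser_coeff_pos (N : ℕ) (a : ℤ) (w : Rˣ) {n : ℕ} (hn : n ≠ 0) :
    PowerSeries.coeff n (wser N a w) = wcoef N a w n := by
  simp [wser, hn]

lemma wcoef_eq_zero_of_lt {N : ℕ} {a n : ℕ} (w : Rˣ) (h2 : 2 * a ≤ N) (hn : n < a) :
    wcoef N (a : ℤ) w n = 0 := by
  refine Finset.sum_eq_zero fun k hk ↦ ?_
  obtain ⟨hkn, hn0⟩ := Nat.mem_divisors.mp hk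
  have he : n / k ≤ n := Nat.div_le_self n k
  have he0 : 0 < n / k := Nat.div_pos (Nat.le_of_dvd (Nat.pos_of_ne_zero hn0) hkn)
    (Nat.pos_of_dvd_of_pos hkn (Nat.pos_of_ne_zero hn0))
  rw [if_neg, if_neg, add_zero, mul_zero]
  · intro hd
    have := Int.le_of_dvd (by omega) hd
    omega
  · intro hd
    have := Int.le_of_dvd (a := (N : ℤ)) (b := -((((n / k : ℕ) : ℤ)) - a)) (by omega) (dvd_neg.mpr hd)
    omega

lemma wcoef_self {N : ℕ} {a : ℕ} (w : Rˣ) (ha : 0 < a) (h2 : 2 * a ≤ N) :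
    wcoef N (a : ℤ) w a = (w : R) + if 2 * a = N then ((w⁻¹ : Rˣ) : R) else 0 := by
  rw [wcoef, Finset.sum_eq_single 1]
  · simp only [Nat.cast_one, one_mul, Nat.div_one, sub_self, dvd_zero, if_true, pow_one]
    congr 1
    by_cases h : 2 * a = N
    · rw [if_pos h, if_pos]
      exact ⟨1, by rw [← h]; push_cast; ring⟩
    · rw [if_neg h, if_neg]
      intro hd
      have := Int.le_of_dvd (by omega) hd
      omega
  · intro k hk hk1
    obtain ⟨hka, -⟩ := Nat.mem_divisors.mp hk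
    have hk0 := Nat.pos_of_dvd_of_pos hka ha
    have hlt : a / k < a := Nat.div_lt_self ha (by omega)
    have hpos : 0 < a / k := Nat.div_pos (Nat.le_of_dvd ha hka) hk0
    rw [if_neg, if_neg, add_zero, mul_zero]
    · intro hd
      have := Int.le_of_dvd (by omega) hd
      omega
    · intro hd
      have := Int.le_of_dvd (a := (N : ℤ)) (b := -((((a / k : ℕ) : ℤ)) - a)) (by omega) (dvd_neg.mpr hd)
      omega
  · intro h
    exact absurd (Nat.one_mem_divisors.mpr ha.ne') h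

variable {N : ℕ} {ζ : Rˣ}

lemma map_wser {S : Type*} [CommRing S] (f : R →+* S) (a : ℤ) (w : Rˣ)
    (h : (N : ℤ) ∣ a → IsUnit (1 - (w : R))) :
    (wser N a w).map f = wser N a (Units.map (f : R →* S) w) := by
  ext n
  rw [PowerSeries.coeff_map]
  rcases eq_or_ne n 0 with rfl | hn
  · simp only [wser_coeff_zero]
    split_ifs with hd
    · obtain ⟨u, hu⟩ := h hd
      have e : (1 : S) - f w = ((Units.map (f : R →* S) u : Sˣ) : S) := by
        rw [Units.coe_map, MonoidHom.coe_coe, hu, map_sub, map_one]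
      rw [← hu, Ring.inverse_unit, map_mul, map_pow, Units.coe_map, MonoidHom.coe_coe, e,
        Ring.inverse_unit, ← map_inv, Units.coe_map, MonoidHom.coe_coe]
    · simp
  · simp only [wser_coeff_pos _ _ _ hn, wcoef, map_sum, map_mul, map_natCast, map_add]
    refine Finset.sum_congr rfl fun k _ ↦ ?_
    congr 2 <;> split_ifs <;> simp [← map_inv, ← map_pow]

/-- The leading coefficient of a difference is a unit. -/
theorem exists_unit_coeff [NeZero N] (hζ : ζ ^ N = 1)
    (hu : ∀ i : ℤ, ¬ (N : ℤ) ∣ i → IsUnit (1 - ((ζ ^ i : Rˣ) : R)))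
    {a a' : ℕ} {b b' : ℤ} (h : 2 * a ≤ N) (h' : 2 * a' ≤ N)
    (hv : a ≠ 0 ∨ ¬ (N : ℤ) ∣ b) (hv' : a' ≠ 0 ∨ ¬ (N : ℤ) ∣ b')
    (hne : a ≠ a' ∨ ¬ (N : ℤ) ∣ b - b' ∧ ((a ≠ 0 ∧ 2 * a ≠ N) ∨ ¬ (N : ℤ) ∣ b + b')) :
    ∃ n, n = min a a' ∧ (∀ i < n, PowerSeries.coeff i (wser N (a : ℤ) (ζ ^ b) - wser N (a' : ℤ) (ζ ^ b')) = 0) ∧
      IsUnit (PowerSeries.coeff n (wser N (a : ℤ) (ζ ^ b) - wser N (a' : ℤ) (ζ ^ b'))) := by
  classical
  have hN : 0 < N := Nat.pos_of_ne_zero (NeZero.ne N)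
  have hlow : ∀ {a : ℕ} (w : Rˣ), 2 * a ≤ N → ∀ i < a,
      PowerSeries.coeff i (wser N (a : ℤ) w) = 0 := by
    intro a w h2 i hi
    rcases eq_or_ne i 0 with rfl | hi0
    · rw [wser_coeff_zero, if_neg]
      intro hd
      have := Int.le_of_dvd (by omega) hd
      omega
    · rw [wser_coeff_pos _ _ _ hi0, wcoef_eq_zero_of_lt w h2 hi]
  have hpow : ∀ i : ℤ, (N : ℤ) ∣ i → ζ ^ i = 1 := by
    rintro i ⟨k, rfl⟩
    rw [zpow_mul, zpow_natCast, hζ, one_zpow]
  -- the leading term of a single series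
  have hlead : ∀ {a : ℕ} {b : ℤ}, 2 * a ≤ N → (a ≠ 0 ∨ ¬ (N : ℤ) ∣ b) → (2 * a ≠ N) →
      IsUnit (PowerSeries.coeff a (wser N (a : ℤ) (ζ ^ b))) := by
    intro a b h2 hab hhalf
    rcases Nat.eq_zero_or_pos a with rfl | ha
    · rw [wser_coeff_zero, Nat.cast_zero, if_pos (dvd_zero _)]
      obtain ⟨u, hu'⟩ := hu b (hab.resolve_left fun e ↦ e rfl)
      rw [← hu', Ring.inverse_unit]
      exact (Units.isUnit _).mul ((Units.isUnit _).pow 2)
    · rw [wser_coeff_pos _ _ _ ha.ne', wcoef_self _ ha h2, if_neg hhalf, add_zero]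
      exact Units.isUnit _
  rcases lt_trichotomy a a' with hlt | heq | hgt
  · refine ⟨a, (min_eq_left hlt.le).symm, fun i hi ↦ ?_, ?_⟩
    · rw [map_sub, hlow _ h i hi, hlow _ h' i (by omega), sub_zero]
    · rw [map_sub, hlow _ h' a hlt, sub_zero]
      exact hlead h hv (by omega)
  · subst heq
    obtain ⟨hne1, hne2⟩ := hne.resolve_left fun e ↦ e rfl
    refine ⟨a, (min_self a).symm, fun i hi ↦ by rw [map_sub, hlow _ h i hi, hlow _ h' i hi, sub_zero], ?_⟩
    rw [map_sub]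
    rcases Nat.eq_zero_or_pos a with rfl | ha
    · rw [wser_coeff_zero, wser_coeff_zero, Nat.cast_zero, if_pos (dvd_zero _), if_pos (dvd_zero _)]
      have hb := hv.resolve_left fun e ↦ e rfl
      have hb' := hv'.resolve_left fun e ↦ e rfl
      obtain ⟨u, hu1⟩ := hu b hb
      obtain ⟨v, hv1⟩ := hu b' hb'
      obtain ⟨r, hr⟩ := hu (b' - b) (fun hd ↦ hne1 (by simpa using dvd_neg.mpr hd))
      obtain ⟨s, hs⟩ := hu (b + b') (hne2.resolve_left fun e ↦ e.1 rfl)
      rw [← hu1, ← hv1, Ring.inverse_unit, Ring.inverse_unit]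
      refine ⟨ζ ^ b * r * s * (u⁻¹) ^ 2 * (v⁻¹) ^ 2, ?_⟩
      have e1 : ((ζ ^ b' : Rˣ) : R) = ((ζ ^ b : Rˣ) : R) * (ζ ^ (b' - b) : Rˣ) := by
        rw [← Units.val_mul, ← zpow_add, add_sub_cancel]
      have e2 : ((ζ ^ (b + b') : Rˣ) : R) = ((ζ ^ b : Rˣ) : R) * (ζ ^ b' : Rˣ) := by
        rw [zpow_add, Units.val_mul]
      have i1 : (u : R) * ((u⁻¹ : Rˣ) : R) = 1 := by simp
      have i2 : (v : R) * ((v⁻¹ : Rˣ) : R) = 1 := by simp
      push_cast
      rw [hr, hs, e2]
      set z := ((ζ ^ b : Rˣ) : R)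
      set z' := ((ζ ^ b' : Rˣ) : R)
      set y := ((ζ ^ (b' - b) : Rˣ) : R)
      set ui := ((u⁻¹ : Rˣ) : R)
      set vi := ((v⁻¹ : Rˣ) : R)
      rw [hu1] at i1
      rw [hv1] at i2
      rw [e1] at i2 ⊢
      linear_combination (z * ui ^ 2 * ((1 - z * y) * vi + 1)) * i2 -
        (z * y * vi ^ 2 * ((1 - z) * ui + 1)) * i1
    · rw [wser_coeff_pos _ _ _ ha.ne', wser_coeff_pos _ _ _ ha.ne', wcoef_self _ ha h,
        wcoef_self _ ha h]
      obtain ⟨r, hr⟩ := hu (b' - b) (fun hd ↦ hne1 (by simpa using dvd_neg.mpr hd))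
      by_cases hhalf : 2 * a = N
      · rw [if_pos hhalf, if_pos hhalf]
        obtain ⟨s, hs⟩ := hu (-(b + b')) (fun hd ↦
          (hne2.resolve_left fun e ↦ e.2 hhalf) (by simpa using dvd_neg.mpr hd))
        refine ⟨ζ ^ b * r * s, ?_⟩
        have e1 : ((ζ ^ b' : Rˣ) : R) = ((ζ ^ b : Rˣ) : R) * (ζ ^ (b' - b) : Rˣ) := by
          rw [← Units.val_mul, ← zpow_add, add_sub_cancel]
        have e2 : ((ζ ^ (-(b + b')) : Rˣ) : R) =
            (((ζ ^ b)⁻¹ : Rˣ) : R) * (((ζ ^ b')⁻¹ : Rˣ) : R) := by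
          rw [← Units.val_mul, ← zpow_neg, ← zpow_neg, ← zpow_add, neg_add]
        have i1 : ((ζ ^ b : Rˣ) : R) * (((ζ ^ b)⁻¹ : Rˣ) : R) = 1 := by simp
        have i2 : ((ζ ^ b' : Rˣ) : R) * (((ζ ^ b')⁻¹ : Rˣ) : R) = 1 := by simp
        push_cast
        rw [hr, hs, e2, e1]
        rw [e1] at i2
        linear_combination (-(((ζ ^ b')⁻¹ : Rˣ) : R)) * i1 + (((ζ ^ b)⁻¹ : Rˣ) : R) * i2
      · rw [if_neg hhalf, if_neg hhalf, add_zero, add_zero]
        refine ⟨ζ ^ b * r, ?_⟩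
        rw [Units.val_mul, hr, mul_sub, mul_one, ← Units.val_mul, ← zpow_add, add_sub_cancel]
  · refine ⟨a', (min_eq_right hgt.le).symm, fun i hi ↦ ?_, ?_⟩
    · rw [map_sub, hlow _ h i (by omega), hlow _ h' i hi, sub_zero]
    · rw [map_sub, hlow _ h a' hgt, zero_sub]
      exact (hlead h' hv' (by omega)).neg

end Ser

section Analytic

variable {N : ℕ} [NeZero N]

/-- The primitive root `exp(2πi/N)`. -/
def zetaN (N : ℕ) : ℂˣ := Units.mk0 (exp (2 * Real.pi * I / N)) (exp_ne_zero _)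

lemma zetaN_primitive : IsPrimitiveRoot (zetaN N) N := by
  refine IsPrimitiveRoot.of_map_of_injective (f := Units.coeHom ℂ) ?_ Units.val_injective
  exact Complex.isPrimitiveRoot_exp N (NeZero.ne N)

lemma exp_point (a b m : ℤ) (τ : ℍ) :
    exp (2 * Real.pi * I * (((a : ℂ) * τ + b) / N - m * τ)) =
      ((zetaN N ^ b : ℂˣ) : ℂ) * qp N τ ^ (a - m * N) := by
  have hN : (N : ℂ) ≠ 0 := Nat.cast_ne_zero.mpr (NeZero.ne N)
  rw [Units.val_zpow_eq_zpow_val, zetaN, Units.val_mk0, qp, Periodic.qParam, ← Complex.exp_int_mul,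
    ← Complex.exp_int_mul, ← Complex.exp_add]
  congr 1
  push_cast
  field_simp
  ring

/-- The terms of a single series. -/
theorem hasExp_rowSum (a b : ℤ) :
    (∀ τ : ℍ, Summable fun m : ℤ ↦ ufun (((zetaN N ^ b : ℂˣ) : ℂ) * qp N τ ^ (a - m * N))) ∧
    (∀ τ : ℍ, HasSum (fun n : ℕ ↦ PowerSeries.coeff n (wser N a (zetaN N ^ b)) * qp N τ ^ n)
      (∑' m : ℤ, ufun (((zetaN N ^ b : ℂˣ) : ℂ) * qp N τ ^ (a - m * N)))) ∧
    HasExp N (fun τ ↦ ∑' m : ℤ, ufun (((zetaN N ^ b : ℂˣ) : ℂ) * qp N τ ^ (a - m * N)))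
      (HahnSeries.ofPowerSeries ℤ ℂ (wser N a (zetaN N ^ b))) := by
  classical
  set w : ℂˣ := zetaN N ^ b with hw
  have hwn : ‖(w : ℂ)‖ = 1 := by
    have h1 := (zetaN_primitive (N := N)).pow_eq_one
    have h2 : ‖(zetaN N : ℂ)‖ = 1 :=
      Complex.norm_eq_one_of_pow_eq_one (by simpa using congrArg Units.val h1) (NeZero.ne N)
    rw [hw, Units.val_zpow_eq_zpow_val, norm_zpow, h2, one_zpow]
  suffices key : ∀ τ : ℍ,
      ∃ s, HasSum (fun m : ℤ ↦ ufun ((w : ℂ) * qp N τ ^ (a - m * N))) s ∧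
        HasSum (fun n : ℕ ↦ PowerSeries.coeff n (wser N a w) * qp N τ ^ n) s by
    have hall : ∀ τ : ℍ, HasSum (fun n : ℕ ↦ PowerSeries.coeff n (wser N a w) * qp N τ ^ n)
        (∑' m : ℤ, ufun ((w : ℂ) * qp N τ ^ (a - m * N))) := fun τ ↦ by
      obtain ⟨s, h1, h2⟩ := key τ
      rw [h1.tsum_eq]
      exact h2
    exact ⟨fun τ ↦ (key τ).choose_spec.1.summable, hall, HasExp.of_nat (Eventually.of_forall hall)⟩
  intro τ
  set x := qp N τ with hx
  have hx0 : x ≠ 0 := qp_ne_zero N τ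
  set r := ‖x‖ with hr
  have hr0 : 0 < r := norm_pos_iff.mpr hx0
  have hr1 : r < 1 := by
    rw [hr, hx]
    exact Periodic.norm_qParam_lt_one (by exact_mod_cast Nat.pos_of_ne_zero (NeZero.ne N)) τ.im_pos
  -- exponents and terms
  let e : ℤ → ℤ := fun m ↦ a - m * N
  have hinj : Injective e := fun m m' h ↦ by
    have : (m - m') * (N : ℤ) = 0 := by simp only [e] at h; linear_combination -h
    simpa [sub_eq_zero, NeZero.ne N] using this
  let c : ℤ → ℂ := fun j ↦ if 0 < j then (w : ℂ) else ((w⁻¹ : ℂˣ) : ℂ)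
  let f : ℤ × ℕ → ℂ := fun p ↦
    if e p.1 = 0 then 0 else (p.2 : ℂ) * c (e p.1) ^ p.2 * x ^ ((e p.1).natAbs * p.2)
  -- absolute convergence
  have hsum : Summable fun p : ℤ × ℕ ↦ ‖f p‖ := by
    have hA : Summable fun m : ℤ ↦ r ^ (e m).natAbs := by
      have h := summable_geometric_of_lt_one hr0.le hr1
      have : Summable fun j : ℤ ↦ r ^ j.natAbs :=
        Summable.of_nat_of_neg (by simpa using h) (by simpa using h)
      exact this.comp_injective hinj
    have hB : Summable fun k : ℕ ↦ (k : ℝ) * r ^ k / r := by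
      exact ((hasSum_coe_mul_geometric_of_norm_lt_one (r := r) (by
        rwa [Real.norm_eq_abs, abs_of_pos hr0])).summable).div_const r
    refine Summable.of_nonneg_of_le (fun _ ↦ norm_nonneg _) (fun p ↦ ?_)
      (hA.mul_of_nonneg hB (fun m ↦ by positivity) fun k ↦ by positivity)
    simp only [f]
    split_ifs with h0
    · simp only [norm_zero]; positivity
    have hc : ‖c (e p.1)‖ = 1 := by
      simp only [c]; split_ifs <;> simp [hwn]
    rw [norm_mul, norm_mul, norm_pow, norm_pow, hc, one_pow, mul_one, Complex.norm_natCast, ← hr]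
    rcases Nat.eq_zero_or_pos p.2 with hk | hk
    · simp [hk]
    obtain ⟨k, hk'⟩ : ∃ k, p.2 = k + 1 := ⟨p.2 - 1, by omega⟩
    have he : 1 ≤ (e p.1).natAbs := Nat.one_le_iff_ne_zero.mpr (Int.natAbs_ne_zero.mpr h0)
    rw [hk', mul_div_assoc, mul_left_comm]
    gcongr ((k + 1 : ℕ) : ℝ) * ?_
    rw [pow_succ r k, mul_div_cancel_right₀ _ hr0.ne', ← pow_add]
    exact pow_le_pow_of_le_one hr0.le hr1.le (by nlinarith)
  have hf := hsum.of_norm.hasSum
  -- the constant term
  set C0 : ℂ := if (N : ℤ) ∣ a then ufun w else 0 with hC0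
  refine ⟨C0 + ∑' p, f p, ?_, ?_⟩
  · -- summing each row
    have hrow : ∀ m, HasSum (fun k ↦ f (m, k))
        (if e m = 0 then 0 else ufun ((w : ℂ) * x ^ e m)) := by
      intro m
      simp only [f]
      rcases eq_or_ne (e m) 0 with h0 | h0
      · simp only [h0, if_true]; exact hasSum_zero
      simp only [h0, if_false]
      have hu : ‖c (e m) * x ^ (e m).natAbs‖ < 1 := by
        have hc : ‖c (e m)‖ = 1 := by simp only [c]; split_ifs <;> simp [hwn]
        rw [norm_mul, norm_pow, hc, one_mul]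
        exact pow_lt_one₀ (norm_nonneg _) hr1 (Int.natAbs_ne_zero.mpr h0)
      have h := hasSum_coe_mul_geometric_of_norm_lt_one hu
      have e1 : c (e m) * x ^ (e m).natAbs / (1 - c (e m) * x ^ (e m).natAbs) ^ 2 =
          ufun ((w : ℂ) * x ^ e m) := by
        rcases lt_or_gt_of_ne h0 with hneg | hpos
        · rw [← ufun_inv ((w : ℂ) * x ^ e m), mul_inv, ← zpow_neg,
            show -e m = (((e m).natAbs : ℕ) : ℤ) by omega, zpow_natCast]
          simp only [c, if_neg (not_lt.mpr hneg.le), Units.val_inv_eq_inv_val, ufun]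
        · conv_rhs => rw [show e m = (((e m).natAbs : ℕ) : ℤ) by omega, zpow_natCast]
          simp only [c, if_pos hpos, ufun]
      rw [e1] at h
      refine h.congr_fun fun k ↦ ?_
      rw [mul_pow, ← pow_mul]
      ring
    have h1 := hf.prod_fiberwise hrow
    have h2 : HasSum (fun m : ℤ ↦ if e m = 0 then ufun w else 0) C0 := by
      rw [hC0]
      by_cases hd : (N : ℤ) ∣ a
      · obtain ⟨m₀, hm₀⟩ := hd
        have he0 : e m₀ = 0 := by simp only [e]; rw [hm₀]; ring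
        rw [if_pos ⟨m₀, hm₀⟩]
        refine (hasSum_ite_eq m₀ (ufun (w : ℂ))).congr_fun fun m ↦ ?_
        exact if_congr ⟨fun h ↦ hinj (h.trans he0.symm), fun h ↦ by subst h; exact he0⟩ rfl rfl
      · rw [if_neg hd]
        have : (fun m : ℤ ↦ if e m = 0 then ufun (w : ℂ) else 0) = 0 :=
          funext fun m ↦ if_neg fun h ↦ hd ⟨m, by simp only [e] at h; linear_combination h⟩
        rw [this]; exact hasSum_zero
    refine (h2.add h1).congr_fun fun m ↦ ?_
    show ufun ((w : ℂ) * x ^ e m) = _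
    split_ifs with h0
    · rw [h0]; simp
    · rw [zero_add]
  · -- collecting by exponent
    let g : ℕ × (ℤ × ℕ) → ℂ := fun q ↦ if (e q.2.1).natAbs * q.2.2 = q.1 then f q.2 else 0
    have hg1 : ∀ p, HasSum (fun n ↦ g (n, p)) (f p) := fun p ↦ by
      simpa [g, eq_comm] using hasSum_ite_eq ((e p.1).natAbs * p.2) (f p)
    have hgn : Summable fun q : ℕ × (ℤ × ℕ) ↦ ‖g q‖ := by
      have hswap : Summable fun q : (ℤ × ℕ) × ℕ ↦ ‖g (q.2, q.1)‖ := by
        refine (summable_prod_of_nonneg fun _ ↦ norm_nonneg _).mpr ⟨fun p ↦ ?_, hsum.congr fun p ↦ ?_⟩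
        · exact summable_of_ne_finset_zero (s := {(e p.1).natAbs * p.2})
            fun n hn ↦ by simp [g, Ne.symm (Finset.notMem_singleton.mp hn)]
        · rw [tsum_eq_single ((e p.1).natAbs * p.2) fun n hn ↦ by simp [g, Ne.symm hn]]
          simp [g]
      simpa [comp_def] using (Equiv.prodComm ℕ (ℤ × ℕ)).summable_iff.mpr hswap
    have hg := hgn.of_norm.hasSum
    have htot : ∑' q, g q = ∑' p, f p :=
      (((Equiv.prodComm (ℤ × ℕ) ℕ).hasSum_iff.mpr hg).prod_fiberwise hg1).unique hf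
    -- the fibre over `n`
    have hfib : ∀ n : ℕ, HasSum (fun p ↦ g (n, p))
        (if n = 0 then 0 else wcoef N a w n * x ^ n) := by
      intro n
      rcases eq_or_ne n 0 with rfl | hn
      · have : (fun p ↦ g (0, p)) = 0 := by
          funext p
          simp only [g, f, Pi.zero_apply]
          split_ifs with h h0
          · rfl
          · rcases Nat.mul_eq_zero.mp h with h | h
            · exact absurd (Int.natAbs_eq_zero.mp h) h0
            · simp [h]
          · rfl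
        rw [if_pos rfl, this]; exact hasSum_zero
      rw [if_neg hn]
      -- one summand for each divisor
      have hk : ∀ k ∈ n.divisors, HasSum (fun p : ℤ × ℕ ↦ if p.2 = k then g (n, p) else 0)
          ((k : ℂ) * ((if (N : ℤ) ∣ ((n / k : ℕ) : ℤ) - a then ((w ^ k : ℂˣ) : ℂ) else 0) +
            (if (N : ℤ) ∣ ((n / k : ℕ) : ℤ) + a then ((w⁻¹ ^ k : ℂˣ) : ℂ) else 0)) * x ^ n) := by
        intro k hk
        obtain ⟨hkn, -⟩ := Nat.mem_divisors.mp hk
        obtain ⟨j, rfl⟩ := hkn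
        have hk0 : k ≠ 0 := fun h ↦ hn (by simp [h])
        have hj0 : j ≠ 0 := fun h ↦ hn (by simp [h])
        rw [Nat.mul_div_cancel_left j (Nat.pos_of_ne_zero hk0)]
        have hsplit : ∀ (ε : ℤ) (u : ℂˣ), HasSum
            (fun p : ℤ × ℕ ↦ if p.2 = k ∧ e p.1 = ε then ((k : ℂ) * ((u ^ k : ℂˣ) : ℂ) * x ^ (k * j)) else 0)
            (if (N : ℤ) ∣ ε - a then ((k : ℂ) * ((u ^ k : ℂˣ) : ℂ) * x ^ (k * j)) else 0) := by
          intro ε u
          by_cases hd : (N : ℤ) ∣ ε - a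
          · obtain ⟨m₀, hm₀⟩ := hd
            have he0 : e (-m₀) = ε := by simp only [e]; linear_combination -hm₀
            rw [if_pos ⟨m₀, hm₀⟩]
            refine (hasSum_ite_eq ((-m₀, k) : ℤ × ℕ) _).congr_fun fun p ↦ ?_
            exact if_congr ⟨fun h ↦ Prod.ext (hinj (h.2.trans he0.symm)) h.1,
              fun h ↦ by subst h; exact ⟨rfl, he0⟩⟩ rfl rfl
          · rw [if_neg hd]
            have : ∀ p : ℤ × ℕ, ¬ (p.2 = k ∧ e p.1 = ε) := fun p h ↦ hd
              ⟨-p.1, by rw [← h.2]; simp only [e]; ring⟩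
            simp only [this, if_false]
            exact hasSum_zero
        have h1 := hsplit j w
        have h2 := hsplit (-(j : ℤ)) w⁻¹
        rw [show -(j : ℤ) - a = -((j : ℤ) + a) by ring] at h2
        simp only [dvd_neg] at h2
        convert (h1.add h2).congr_fun (g := fun p : ℤ × ℕ ↦ if p.2 = k then g ((k * j), p) else 0)
          (fun p ↦ ?_) using 1
        · split_ifs <;> ring
        · simp only [g, f]
          by_cases hpk : p.2 = k
          · subst hpk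
            simp only [if_true, true_and]
            rcases lt_trichotomy (e p.1) 0 with hneg | h0 | hpos
            · simp only [if_neg hneg.ne, show e p.1 ≠ (j : ℤ) by omega, if_false, zero_add]
              by_cases hej : e p.1 = -(j : ℤ)
              · rw [if_pos hej, if_pos (by rw [hej]; simp; ring)]
                simp only [c, hej, show ¬ (0 : ℤ) < -(j : ℤ) by omega, if_false, Int.natAbs_neg, Int.natAbs_natCast]
                rw [mul_comm j p.2, Units.val_pow_eq_pow_val]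
              · rw [if_neg hej, if_neg]
                intro h
                apply hej
                have := Nat.eq_of_mul_eq_mul_right (Nat.pos_of_ne_zero hk0) (h.trans (mul_comm _ _))
                omega
            · simp [h0, show (0 : ℤ) ≠ j by omega, show (0 : ℤ) ≠ -j by omega]
            · simp only [if_neg hpos.ne', show e p.1 ≠ -(j : ℤ) by omega, if_false, add_zero]
              by_cases hej : e p.1 = (j : ℤ)
              · rw [if_pos hej, if_pos (by rw [hej]; simp; ring)]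
                simp only [c, hej, show (0 : ℤ) < j by omega, if_true, Int.natAbs_natCast]
                rw [mul_comm j p.2, Units.val_pow_eq_pow_val]
              · rw [if_neg hej, if_neg]
                intro h
                apply hej
                have := Nat.eq_of_mul_eq_mul_right (Nat.pos_of_ne_zero hk0) (h.trans (mul_comm _ _))
                omega
          · simp [hpk]
      have hs := hasSum_sum hk
      rw [wcoef, Finset.sum_mul]
      refine hs.congr_fun fun p ↦ ?_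
      rw [Finset.sum_ite_eq]
      split_ifs with hmem
      · rfl
      · simp only [g, f]
        split_ifs with h h0
        · rfl
        · exact absurd (Nat.mem_divisors.mpr ⟨⟨_, h.symm.trans (mul_comm _ _)⟩, hn⟩) hmem
        · rfl
    have h1 : HasSum (fun n : ℕ ↦ if n = 0 then 0 else wcoef N a w n * x ^ n) (∑' p, f p) :=
      htot ▸ hg.prod_fiberwise hfib
    refine ((hasSum_ite_eq 0 C0).add h1).congr_fun fun n ↦ ?_
    rcases eq_or_ne n 0 with rfl | hn
    · simp only [wser_coeff_zero, if_true, pow_zero, mul_one, add_zero, hC0]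
      split_ifs with hd
      · rw [Ring.inverse_eq_inv, ufun, inv_pow, div_eq_mul_inv]
      · rfl
    · simp [wser_coeff_pos _ _ _ hn, hn]

/-- The sum of a series converging on the whole half plane is holomorphic. -/
theorem mdiff_of_hasSum {φ : ℍ → ℂ} {G : PowerSeries ℂ}
    (h : ∀ τ : ℍ, HasSum (fun n : ℕ ↦ PowerSeries.coeff n G * qp N τ ^ n) (φ τ)) : MDiff φ := by
  have hN : (0 : ℝ) < N := by exact_mod_cast Nat.pos_of_ne_zero (NeZero.ne N)
  rw [UpperHalfPlane.mdifferentiable_iff]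
  intro z hz
  have hx : ‖Periodic.qParam (N : ℝ) z‖ < 1 := Periodic.norm_qParam_lt_one hN hz
  obtain ⟨r, hxr, hr1⟩ := exists_between hx
  obtain ⟨s, hrs, hs1⟩ := exists_between hr1
  have hr0 : 0 ≤ r := (norm_nonneg _).trans hxr.le
  have hs0 : 0 < s := hr0.trans_lt hrs
  have hτ : 0 < (Periodic.invQParam (N : ℝ) (s : ℂ)).im :=
    Periodic.im_invQParam_pos_of_norm_lt_one hN (by simpa [abs_of_pos hs0] using hs1)
      (by exact_mod_cast hs0.ne')
  have hb := (h ⟨_, hτ⟩).summable.tendsto_atTop_zero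
  rw [qp, show ((⟨_, hτ⟩ : ℍ) : ℂ) = Periodic.invQParam (N : ℝ) (s : ℂ) from rfl,
    Periodic.qParam_right_inv hN.ne' (by exact_mod_cast hs0.ne')] at hb
  obtain ⟨B, hB⟩ := hb.norm.bddAbove_range
  have hgeo : Summable fun n : ℕ ↦ B * (r / s) ^ n :=
    (summable_geometric_of_lt_one (div_nonneg hr0 hs0.le) ((div_lt_one hs0).mpr hrs)).mul_left _
  have hd : DifferentiableOn ℂ (fun w : ℂ ↦ ∑' n, PowerSeries.coeff n G * w ^ n)
      (Metric.ball 0 r) := by
    refine differentiableOn_tsum_of_summable_norm hgeo (fun n ↦ by fun_prop) Metric.isOpen_ball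
      fun n w hw ↦ ?_
    have h1 : ‖PowerSeries.coeff n G‖ * s ^ n ≤ B := by
      have := hB ⟨n, rfl⟩
      simpa [abs_of_pos hs0] using this
    calc ‖PowerSeries.coeff n G * w ^ n‖ ≤ ‖PowerSeries.coeff n G‖ * r ^ n := by
          rw [norm_mul, norm_pow]
          gcongr
          exact (mem_ball_zero_iff.mp hw).le
      _ = ‖PowerSeries.coeff n G‖ * s ^ n * (r / s) ^ n := by rw [div_pow]; field_simp
      _ ≤ B * (r / s) ^ n := by gcongr
  have hxd : DifferentiableAt ℂ (fun w : ℂ ↦ Periodic.qParam (N : ℝ) w) z := by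
    show DifferentiableAt ℂ (fun w ↦ exp (2 * Real.pi * I * w / (N : ℝ))) z
    fun_prop
  refine (((hd.differentiableAt (Metric.isOpen_ball.mem_nhds (mem_ball_zero_iff.mpr hxr))).comp z
    hxd).congr_of_eventuallyEq ?_).differentiableWithinAt
  filter_upwards [isOpen_upperHalfPlaneSet.mem_nhds hz] with w hw
  simp only [comp_apply, ofComplex_apply_of_im_pos hw]
  exact (h ⟨w, hw⟩).tsum_eq.symm

/-- The difference of two torsion values as a power series. -/
theorem hasExp_wv_sub {a b a' b' : ℤ} (h : (a : ZMod N) ≠ 0 ∨ (b : ZMod N) ≠ 0)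
    (h' : (a' : ZMod N) ≠ 0 ∨ (b' : ZMod N) ≠ 0) :
    HasExp N (fun τ ↦ (wv N a b τ - wv N a' b' τ) / (2 * Real.pi * I) ^ 2)
      (HahnSeries.ofPowerSeries ℤ ℂ (wser N a (zetaN N ^ b) - wser N a' (zetaN N ^ b'))) := by
  obtain ⟨hs, -, hE⟩ := hasExp_rowSum (N := N) a b
  obtain ⟨hs', -, hE'⟩ := hasExp_rowSum (N := N) a' b'
  rw [map_sub, sub_eq_add_neg]
  refine (hE.add hE'.neg).congr (Eventually.of_forall fun τ ↦ ?_)
  simp only [Pi.add_apply, Pi.neg_apply, ← sub_eq_add_neg]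
  rw [← (hs τ).tsum_sub (hs' τ)]
  simp only [← exp_point]
  exact (hasSum_wp_sub τ (point_not_mem h τ) (point_not_mem h' τ)).tsum_eq

theorem mdiff_wv_sub {a b a' b' : ℤ} (h : (a : ZMod N) ≠ 0 ∨ (b : ZMod N) ≠ 0)
    (h' : (a' : ZMod N) ≠ 0 ∨ (b' : ZMod N) ≠ 0) :
    MDiff (fun τ : ℍ ↦ ((wv N a b τ - wv N a' b' τ) / (2 * Real.pi * I) ^ 2 : ℂ)) := by
  obtain ⟨hs, hA, -⟩ := hasExp_rowSum (N := N) a b
  obtain ⟨hs', hA', -⟩ := hasExp_rowSum (N := N) a' b'
  refine mdiff_of_hasSum (N := N) (G := wser N a (zetaN N ^ b) - wser N a' (zetaN N ^ b')) fun τ ↦ ?_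
  have e : (wv N a b τ - wv N a' b' τ) / (2 * Real.pi * I) ^ 2 =
      (∑' m : ℤ, ufun (((zetaN N ^ b : ℂˣ) : ℂ) * qp N τ ^ (a - m * N))) -
      ∑' m : ℤ, ufun (((zetaN N ^ b' : ℂˣ) : ℂ) * qp N τ ^ (a' - m * N)) := by
    rw [← (hs τ).tsum_sub (hs' τ)]
    simp only [← exp_point]
    exact (hasSum_wp_sub τ (point_not_mem h τ) (point_not_mem h' τ)).tsum_eq.symm
  rw [e]
  refine ((hA τ).sub (hA' τ)).congr_fun fun n ↦ ?_
  rw [map_sub, sub_mul]

end Analytic

end FLTAgent.GoodModel
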