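import Fermat.Agent.ModEq.PrimeAnalytic

/-!
Supplements on Laurent expansions at `i∞`, and expansions with coefficients in a subring of `ℂ`.
-/

set_option autoImplicit false

noncomputable section

open UpperHalfPlane hiding I I_re I_im
open Filter Topology Complex Function FLTAgent.ModEq ModularCurve
open scoped MatrixGroups Manifold

namespace FLTAgent.GoodModel

variable {n : ℕ} {φ ψ : ℍ → ℂ} {F H : LaurentSeries ℂ}

lemma hasExp_sub (hφ : HasExp n φ F) (hψ : HasExp n ψ H) : HasExp n (φ - ψ) (F - H) := by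
  simpa [sub_eq_add_neg] using hφ.add hψ.neg

lemma hasExp_prod {ι : Type*} (s : Finset ι) {f : ι → ℍ → ℂ} {Fs : ι → LaurentSeries ℂ}
    (h : ∀ i ∈ s, HasExp n (f i) (Fs i)) : HasExp n (∏ i ∈ s, f i) (∏ i ∈ s, Fs i) := by
  classical
  induction s using Finset.induction_on with
  | empty => simpa using HasExp.one (n := n)
  | insert a s ha ih =>
    rw [Finset.prod_insert ha, Finset.prod_insert ha]
    exact (h a (Finset.mem_insert_self a s)).mul (ih fun i hi ↦ h i (Finset.mem_insert_of_mem hi))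

lemma hasExp_sum {ι : Type*} (s : Finset ι) {f : ι → ℍ → ℂ} {Fs : ι → LaurentSeries ℂ}
    (h : ∀ i ∈ s, HasExp n (f i) (Fs i)) : HasExp n (∑ i ∈ s, f i) (∑ i ∈ s, Fs i) := by
  classical
  induction s using Finset.induction_on with
  | empty => simpa using HasExp.zero (n := n)
  | insert a s ha ih =>
    rw [Finset.sum_insert ha, Finset.sum_insert ha]
    exact (h a (Finset.mem_insert_self a s)).add (ih fun i hi ↦ h i (Finset.mem_insert_of_mem hi))

/-- A finer uniformiser. -/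
lemma hasExp_refine [NeZero n] (hφ : HasExp n φ F) (k m : ℕ) [NeZero k] [NeZero m]
    (h : n * k = m) : HasExp m φ (qExpand ℂ k F) := by
  rw [← substHom_one]
  exact HasExp.comp_affine (φ := id) hφ k 1 (fun τ ↦ by simp [qp_mul n k h τ]) tendsto_id

/-- The reciprocal of a function with a nonzero expansion. -/
lemma hasExp_inv [NeZero n] (hφ : HasExp n φ F) (hF : F ≠ 0) :
    HasExp n (fun τ ↦ (φ τ)⁻¹) F⁻¹ := by
  set a := F.order with ha
  obtain ⟨P, hP⟩ : ∃ P : PowerSeries ℂ,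
      HahnSeries.single (-a) 1 * F = HahnSeries.ofPowerSeries ℤ ℂ P := by
    refine GeOrd.exists_powerSeries fun k hk ↦ ?_
    rw [HahnSeries.coeff_single_mul, one_mul]
    exact HahnSeries.coeff_eq_zero_of_lt_order (by omega)
  have hP0 : PowerSeries.constantCoeff P ≠ 0 := by
    rw [← PowerSeries.coeff_zero_eq_constantCoeff, ← HahnSeries.ofPowerSeries_apply_coeff
      (Γ := ℤ), ← hP, HahnSeries.coeff_single_mul, one_mul]
    simpa [ha] using fun e ↦ hF (HahnSeries.coeff_order_eq_zero.mp e)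
  have h1 := HasExp.inv (hP ▸ hφ.mul_single (-a)) (PowerSeries.mul_inv_cancel P hP0)
  have h2 := h1.mul_single (-a)
  have hne : (HahnSeries.single (-a) (1 : ℂ)) ≠ 0 := HahnSeries.single_ne_zero one_ne_zero
  have e : HahnSeries.single (-a) (1 : ℂ) * HahnSeries.ofPowerSeries ℤ ℂ P⁻¹ = F⁻¹ := by
    symm
    refine inv_eq_of_mul_eq_one_right ?_
    rw [← mul_assoc, mul_comm F, hP, ← map_mul, PowerSeries.mul_inv_cancel P hP0, map_one]
  rw [← e]
  refine h2.congr (Eventually.of_forall fun τ ↦ ?_)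
  show qp n τ ^ (-a) * (qp n τ ^ (-a) * φ τ)⁻¹ = (φ τ)⁻¹
  rw [mul_inv, ← mul_assoc, mul_inv_cancel₀ (zpow_ne_zero _ (qp_ne_zero n τ)), one_mul]

/-- `τ ↦ (Aτ + B)/D`. -/
def affPt (A : ℕ) (B : ℤ) (D : ℕ) [NeZero A] [NeZero D] (τ : ℍ) : ℍ :=
  ⟨((A : ℂ) * τ + B) / D, by
    have hA : 0 < (A : ℝ) := by exact_mod_cast Nat.pos_of_ne_zero (NeZero.ne A)
    have hD : 0 < (D : ℝ) := by exact_mod_cast Nat.pos_of_ne_zero (NeZero.ne D)
    simpa [Complex.div_natCast_im] using div_pos (mul_pos hA τ.im_pos) hD⟩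

section Aff

variable (A : ℕ) (B : ℤ) (D : ℕ) [NeZero A] [NeZero D]

lemma coe_affPt (τ : ℍ) : (affPt A B D τ : ℂ) = ((A : ℂ) * τ + B) / D := rfl

lemma tendsto_affPt : Tendsto (affPt A B D) atImInfty atImInfty := by
  have hA : 0 < (A : ℝ) := by exact_mod_cast Nat.pos_of_ne_zero (NeZero.ne A)
  have hD : 0 < (D : ℝ) := by exact_mod_cast Nat.pos_of_ne_zero (NeZero.ne D)
  rw [atImInfty, tendsto_comap_iff]
  refine ((tendsto_div_const_atTop_of_pos hD).mpr
    ((tendsto_const_mul_atTop_of_pos hA).mpr (tendsto_comap (f := UpperHalfPlane.im)))).congr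
      fun τ ↦ ?_
  rw [Function.comp_apply, ← UpperHalfPlane.coe_im, ← UpperHalfPlane.coe_im]
  simp [coe_affPt, Complex.div_natCast_im]

lemma mdiff_comp_affPt {f : ℍ → ℂ} (hf : MDiff f) : MDiff (fun τ ↦ f (affPt A B D τ)) := by
  have hA : 0 < (A : ℝ) := by exact_mod_cast Nat.pos_of_ne_zero (NeZero.ne A)
  have hD : 0 < (D : ℝ) := by exact_mod_cast Nat.pos_of_ne_zero (NeZero.ne D)
  rw [UpperHalfPlane.mdifferentiable_iff] at hf ⊢
  refine (hf.comp (f := fun z : ℂ => ((A : ℂ) * z + B) / D) (by fun_prop) (fun z hz => ?_)).congr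
    fun z hz => ?_
  · simpa [Complex.div_natCast_im] using div_pos (mul_pos hA hz) hD
  · have : (0 : ℝ) < (((A : ℂ) * z + B) / D).im := by
      simpa [Complex.div_natCast_im] using div_pos (mul_pos hA hz) hD
    simp only [Function.comp_apply, ofComplex_apply_of_im_pos hz, ofComplex_apply_of_im_pos this,
      affPt]

lemma qp_affPt (l : ℕ) [NeZero l] (τ : ℍ) :
    qp l (affPt A B D τ) =
      Complex.exp (2 * Real.pi * I * B / (D * l : ℕ)) * qp (D * l) τ ^ A := by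
  have hD : (D : ℂ) ≠ 0 := Nat.cast_ne_zero.mpr (NeZero.ne D)
  have hl : (l : ℂ) ≠ 0 := Nat.cast_ne_zero.mpr (NeZero.ne l)
  rw [qp, qp, Periodic.qParam, Periodic.qParam, ← Complex.exp_nat_mul, ← Complex.exp_add, coe_affPt]
  congr 1
  push_cast
  field_simp
  ring

end Aff

/-- The expansion after an affine substitution. -/
lemma hasExp_comp_affPt (A : ℕ) (B : ℤ) (D : ℕ) [NeZero A] [NeZero D] {l : ℕ} [NeZero l]
    (hφ : HasExp l φ F) : ∃ u : ℂˣ, HasExp (D * l) (φ ∘ affPt A B D) (substHom u A F) := by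
  have : NeZero (D * l) := ⟨Nat.mul_ne_zero (NeZero.ne D) (NeZero.ne l)⟩
  exact ⟨Units.mk0 _ (Complex.exp_ne_zero _), hφ.comp_affine A _ _
    (fun τ ↦ by rw [qp_affPt, Units.val_mk0]) (tendsto_affPt A B D)⟩

/-- `φ` has some Laurent expansion at `i∞`. -/
def MeroInf (φ : ℍ → ℂ) : Prop := ∃ (n : ℕ) (_ : NeZero n) (F : LaurentSeries ℂ), HasExp n φ F

lemma meroInf_of_hasExp [NeZero n] (hφ : HasExp n φ F) : MeroInf φ := ⟨n, inferInstance, F, hφ⟩

lemma MeroInf.common (hφ : MeroInf φ) (hψ : MeroInf ψ) :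
    ∃ (n : ℕ) (_ : NeZero n) (F H : LaurentSeries ℂ), HasExp n φ F ∧ HasExp n ψ H := by
  obtain ⟨a, ha, F, hF⟩ := hφ
  obtain ⟨b, hb, H, hH⟩ := hψ
  have : NeZero (a * b) := ⟨Nat.mul_ne_zero (NeZero.ne a) (NeZero.ne b)⟩
  exact ⟨a * b, this, _, _, hasExp_refine hF b _ rfl, hasExp_refine hH a _ (mul_comm b a)⟩

lemma MeroInf.const (c : ℂ) : MeroInf (fun _ ↦ c) := meroInf_of_hasExp (n := 1) (HasExp.const c)

lemma MeroInf.add (hφ : MeroInf φ) (hψ : MeroInf ψ) : MeroInf (φ + ψ) := by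
  obtain ⟨n, hn, F, H, hF, hH⟩ := hφ.common hψ
  exact meroInf_of_hasExp (hF.add hH)

lemma MeroInf.mul (hφ : MeroInf φ) (hψ : MeroInf ψ) : MeroInf (φ * ψ) := by
  obtain ⟨n, hn, F, H, hF, hH⟩ := hφ.common hψ
  exact meroInf_of_hasExp (hF.mul hH)

lemma MeroInf.neg (hφ : MeroInf φ) : MeroInf (-φ) := by
  obtain ⟨n, hn, F, hF⟩ := hφ
  exact meroInf_of_hasExp hF.neg

lemma MeroInf.sub (hφ : MeroInf φ) (hψ : MeroInf ψ) : MeroInf (φ - ψ) := by
  simpa [sub_eq_add_neg] using hφ.add hψ.neg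

lemma MeroInf.inv (hφ : MeroInf φ) (h0 : ∀ τ, φ τ ≠ 0) : MeroInf (fun τ ↦ (φ τ)⁻¹) := by
  obtain ⟨n, hn, F, hF⟩ := hφ
  refine meroInf_of_hasExp (hasExp_inv hF ?_)
  rintro rfl
  have h := hF.exists
  obtain ⟨τ, hτ⟩ := h
  simp only [HahnSeries.coeff_zero, zero_mul] at hτ
  exact h0 τ (hτ.unique hasSum_zero)

/-- Multiplying by a high power of a function vanishing at `i∞` makes a function bounded. -/
lemma MeroInf.exists_pow_bounded (hφ : MeroInf φ) [NeZero n] (hψ : HasExp n ψ H) (hH : GeOrd H 1) :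
    ∃ m : ℕ, ∀ m', m ≤ m' → IsBoundedAtImInfty (φ * ψ ^ m') := by
  obtain ⟨a, ha, F, hF⟩ := hφ
  have hk : NeZero (n * a) := ⟨Nat.mul_ne_zero (NeZero.ne n) (NeZero.ne a)⟩
  have hF' := hasExp_refine hF n (n * a) (mul_comm a n)
  have hH' := hasExp_refine hψ a (n * a) rfl
  obtain ⟨m, hm⟩ := exists_geOrd (qExpand ℂ n F)
  have hH1 : GeOrd (qExpand ℂ a H) 1 := by
    intro k hk'
    by_cases hdvd : (a : ℤ) ∣ k
    · obtain ⟨i, rfl⟩ := hdvd
      rw [qExpand_coeff_mul]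
      refine hH i ?_
      nlinarith [Nat.pos_of_ne_zero (NeZero.ne a)]
    · exact qExpand_coeff_of_not_dvd a H hdvd
  refine ⟨m, fun m' hm' ↦ (hF'.mul (hH'.pow m')).isBoundedAtImInfty ((hm.mul (hH1.pow m')).mono ?_)⟩
  simp; omega

/-- Periodicity kills the exponents not divisible by the period. -/
lemma coeff_eq_zero_of_periodic {M k : ℕ} [NeZero n] (hn : M * k = n) (hφ : HasExp n φ F)
    (hper : ∀ τ, φ ((M : ℝ) +ᵥ τ) = φ τ) {i : ℤ} (hi : ¬ (k : ℤ) ∣ i) : F.coeff i = 0 := by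
  have hM : (M : ℂ) ≠ 0 := by
    rintro h
    rw [Nat.cast_eq_zero] at h
    exact NeZero.ne n (by rw [← hn, h, zero_mul])
  have hk : (k : ℂ) ≠ 0 := by
    rintro h
    rw [Nat.cast_eq_zero] at h
    exact NeZero.ne n (by rw [← hn, h, mul_zero])
  set u : ℂˣ := Units.mk0 (Complex.exp (2 * Real.pi * I / k)) (Complex.exp_ne_zero _)
  have hq : ∀ τ : ℍ, qp n ((M : ℝ) +ᵥ τ) = (u : ℂ) * qp n τ ^ 1 := by
    intro τ
    rw [pow_one, qp, qp, Periodic.qParam, Periodic.qParam, Units.val_mk0, ← Complex.exp_add,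
      UpperHalfPlane.coe_vadd, ← hn]
    congr 1
    push_cast
    field_simp
  have ht : Tendsto (fun τ : ℍ ↦ (M : ℝ) +ᵥ τ) atImInfty atImInfty := by
    rw [atImInfty, tendsto_comap_iff]
    refine (tendsto_comap (f := UpperHalfPlane.im)).congr fun τ ↦ ?_
    simp [vadd_im]
  have h := (hφ.comp_affine 1 u _ hq ht).congr (g := φ) (Eventually.of_forall fun τ ↦ hper τ)
  have he := congrArg (fun G : LaurentSeries ℂ ↦ G.coeff i) (h.unique hφ)
  rw [show i = ((1 : ℕ) : ℤ) * i by simp] at he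
  simp only [substHom_coeff_mul] at he
  simp only [Nat.cast_one, one_mul] at he
  by_contra h0
  have hu : ((u ^ i : ℂˣ) : ℂ) = 1 := by
    have : (((u ^ i : ℂˣ) : ℂ) - 1) * F.coeff i = 0 := by linear_combination he
    exact sub_eq_zero.mp ((mul_eq_zero.mp this).resolve_right h0)
  apply hi
  rw [Units.val_zpow_eq_zpow_val, Units.val_mk0, ← Complex.exp_int_mul, Complex.exp_eq_one_iff] at hu
  obtain ⟨j, hj⟩ := hu
  refine ⟨j, ?_⟩
  have h2 : (2 : ℂ) * Real.pi * I ≠ 0 := by simp [Real.pi_ne_zero, I_ne_zero]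
  field_simp at hj
  have : (i : ℂ) = ((k : ℤ) * j : ℤ) := by
    push_cast
    linear_combination hj
  exact_mod_cast this

section SExp

variable {S : Subring ℂ}

/-- Coefficientwise inclusion. -/
abbrev sIncl (S : Subring ℂ) : LaurentSeries S →+* LaurentSeries ℂ := coeffMap S.subtype

lemma sIncl_injective : Function.Injective (sIncl S) :=
  coeffMap_injective _ Subtype.val_injective

/-- Holomorphic functions with an expansion over `S`. -/
def sPairs (S : Subring ℂ) (n : ℕ) : Subring ((ℍ → ℂ) × LaurentSeries S) :=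
  (expPairs n).comap ((RingHom.id (ℍ → ℂ)).prodMap (sIncl S))

lemma mem_sPairs {n : ℕ} {x : (ℍ → ℂ) × LaurentSeries S} :
    x ∈ sPairs S n ↔ MDiff x.1 ∧ HasExp n x.1 (sIncl S x.2) := Iff.rfl

lemma sPairs_const {n : ℕ} (c : S) :
    ((fun _ ↦ (c : ℂ)), HahnSeries.C c) ∈ sPairs S n := by
  refine mem_sPairs.mpr ⟨mdifferentiable_const, ?_⟩
  convert HasExp.const (n := n) (c : ℂ) using 1
  rw [HahnSeries.C_apply, coeffMap_single]
  rfl

lemma mdiff_inv' (hφ : MDiff φ) (h0 : ∀ τ, φ τ ≠ 0) : MDiff (fun τ : ℍ ↦ ((φ τ)⁻¹ : ℂ)) := by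
  rw [UpperHalfPlane.mdifferentiable_iff] at hφ ⊢
  exact hφ.inv fun z _ ↦ h0 (ofComplex z)

/-- Reciprocals. -/
lemma sPairs_inv {n : ℕ} [NeZero n] {φ : ℍ → ℂ} (u : (LaurentSeries S)ˣ)
    (h : (φ, (u : LaurentSeries S)) ∈ sPairs S n) (h0 : ∀ τ, φ τ ≠ 0) :
    ((fun τ ↦ (φ τ)⁻¹), ((u⁻¹ : (LaurentSeries S)ˣ) : LaurentSeries S)) ∈ sPairs S n := by
  refine mem_sPairs.mpr ⟨mdiff_inv' h.1 h0, ?_⟩
  rw [map_units_inv]
  exact hasExp_inv h.2 (u.isUnit.map (sIncl S)).ne_zero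

/-- A power series with unit lowest coefficient is a unit as Laurent series. -/
lemma isUnit_ofPowerSeries {R : Type*} [CommRing R] {P : PowerSeries R} {m : ℕ}
    (h0 : ∀ i < m, PowerSeries.coeff i P = 0) (hu : IsUnit (PowerSeries.coeff m P)) :
    IsUnit (HahnSeries.ofPowerSeries ℤ R P) := by
  obtain ⟨Q, rfl⟩ := PowerSeries.X_pow_dvd_iff.mpr h0
  have hQ : IsUnit Q := by
    rw [PowerSeries.isUnit_iff_constantCoeff]
    rwa [PowerSeries.coeff_X_pow_mul', if_pos le_rfl, Nat.sub_self,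
      PowerSeries.coeff_zero_eq_constantCoeff] at hu
  rw [map_mul, map_pow, HahnSeries.ofPowerSeries_X]
  refine IsUnit.mul (IsUnit.pow _ ?_) (hQ.map _)
  exact IsUnit.of_mul_eq_one (HahnSeries.single (-1 : ℤ) (1 : R)) (by
    rw [HahnSeries.single_mul_single, add_neg_cancel, one_mul, HahnSeries.single_zero_one])

lemma sIncl_ofPowerSeries (P : PowerSeries S) :
    sIncl S (HahnSeries.ofPowerSeries ℤ S P) =
      HahnSeries.ofPowerSeries ℤ ℂ (P.map S.subtype) := by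
  ext k
  rw [coeffMap_coeff]
  rcases lt_or_ge k 0 with hk | hk
  · rw [ofPowerSeries_coeff_of_neg _ hk, ofPowerSeries_coeff_of_neg _ hk, map_zero]
  · lift k to ℕ using hk
    rw [HahnSeries.ofPowerSeries_apply_coeff, HahnSeries.ofPowerSeries_apply_coeff,
      PowerSeries.coeff_map]

end SExp

end FLTAgent.GoodModel
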