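import Fermat.Agent.GoodModel.TorsionSeries
import Fermat.Agent.GoodModel.Expansion

/-!
Differences of torsion values of `℘`, with unit expansions over a subring of `ℂ`.
-/

set_option autoImplicit false

noncomputable section

open UpperHalfPlane hiding I I_re I_im
open Filter Topology Complex Function FLTAgent.ModEq ModularCurve
open scoped MatrixGroups Manifold

namespace FLTAgent.GoodModel

/-- Integer row vectors. -/
abbrev Vec : Type := ℤ × ℤ

/-- `v γ`. -/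
def vmul (v : Vec) (γ : SL(2, ℤ)) : Vec :=
  (v.1 * γ 0 0 + v.2 * γ 1 0, v.1 * γ 0 1 + v.2 * γ 1 1)

lemma vmul_mul (v : Vec) (γ δ : SL(2, ℤ)) : vmul v (γ * δ) = vmul (vmul v γ) δ := by
  ext <;> simp only [vmul, Matrix.SpecialLinearGroup.coe_mul, Matrix.mul_apply, Fin.sum_univ_two] <;>
    ring

lemma vmul_one (v : Vec) : vmul v 1 = v := by
  ext <;> simp [vmul]

lemma vmul_neg (v : Vec) (γ : SL(2, ℤ)) : vmul (-v) γ = -vmul v γ := by
  ext <;> simp [vmul] <;> ring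

/-- Congruence modulo `n`. -/
def VEq (n : ℕ) (v v' : Vec) : Prop := (v.1 : ZMod n) = v'.1 ∧ (v.2 : ZMod n) = v'.2

/-- Congruence up to sign. -/
def PMEq (n : ℕ) (v v' : Vec) : Prop := VEq n v v' ∨ VEq n v (-v')

/-- A vector nonzero modulo `n`. -/
def Nz (n : ℕ) (v : Vec) : Prop := (v.1 : ZMod n) ≠ 0 ∨ (v.2 : ZMod n) ≠ 0

variable {n : ℕ}

lemma VEq.vmul {v v' : Vec} (h : VEq n v v') (γ : SL(2, ℤ)) :
    VEq n (GoodModel.vmul v γ) (GoodModel.vmul v' γ) := by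
  constructor <;> simp only [GoodModel.vmul] <;> push_cast <;> rw [h.1, h.2]

lemma PMEq.vmul {v v' : Vec} (h : PMEq n v v') (γ : SL(2, ℤ)) :
    PMEq n (GoodModel.vmul v γ) (GoodModel.vmul v' γ) := by
  rcases h with h | h
  · exact Or.inl (h.vmul γ)
  · exact Or.inr (by rw [← vmul_neg]; exact h.vmul γ)

lemma PMEq.vmul_iff {v v' : Vec} (γ : SL(2, ℤ)) :
    PMEq n (GoodModel.vmul v γ) (GoodModel.vmul v' γ) ↔ PMEq n v v' := by
  refine ⟨fun h ↦ ?_, fun h ↦ h.vmul γ⟩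
  simpa [← vmul_mul, vmul_one] using h.vmul γ⁻¹

lemma Nz.vmul {v : Vec} (h : Nz n v) (γ : SL(2, ℤ)) : Nz n (GoodModel.vmul v γ) := by
  rw [Nz, ← not_and_or] at h ⊢
  intro h0
  apply h
  have h1 : VEq n (GoodModel.vmul v γ) 0 := ⟨by simpa using h0.1, by simpa using h0.2⟩
  have h2 := h1.vmul γ⁻¹
  rw [← vmul_mul, mul_inv_cancel, vmul_one] at h2
  simpa [VEq, GoodModel.vmul] using h2

variable [NeZero n]

/-- `(℘_v - ℘_{v'}) / (2πi)²`. -/
def wdiff (n : ℕ) (v v' : Vec) (τ : ℍ) : ℂ :=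
  (wv n v.1 v.2 τ - wv n v'.1 v'.2 τ) / (2 * Real.pi * I) ^ 2

lemma wdiff_smul (v v' : Vec) (γ : SL(2, ℤ)) (τ : ℍ) :
    wdiff n v v' (γ • τ) =
      ((γ 1 0 : ℂ) * τ + γ 1 1) ^ 2 * wdiff n (vmul v γ) (vmul v' γ) τ := by
  simp only [wdiff, wv_smul, vmul]
  ring

lemma wv_pmEq {v v' : Vec} (h : PMEq n v v') (τ : ℍ) : wv n v.1 v.2 τ = wv n v'.1 v'.2 τ := by
  rcases h with h | h
  · exact wv_congr n h.1 h.2 τ
  · rw [wv_congr n h.1 h.2 τ]
    simp

lemma wdiff_congr {v v' w w' : Vec} (h : PMEq n v w) (h' : PMEq n v' w') :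
    wdiff n v v' = wdiff n w w' := by
  funext τ
  simp only [wdiff, wv_pmEq h, wv_pmEq h']

lemma wdiff_eq_zero_iff {v v' : Vec} (h : Nz n v) (h' : Nz n v') (τ : ℍ) :
    wdiff n v v' τ = 0 ↔ PMEq n v v' := by
  rw [wdiff, div_eq_zero_iff, sub_eq_zero, or_iff_left (by simp [Real.pi_ne_zero, I_ne_zero]),
    wv_eq_iff h h']
  simp [PMEq, VEq]

lemma mdiff_wdiff {v v' : Vec} (h : Nz n v) (h' : Nz n v') : MDiff (wdiff n v v') :=
  mdiff_wv_sub h h'

variable {S : Subring ℂ} (ζ : Sˣ)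

lemma map_zeta (hζ : ((ζ : S) : ℂ) = zetaN n) (b : ℤ) :
    Units.map (S.subtype : S →* ℂ) (ζ ^ b) = zetaN n ^ b := by
  rw [map_zpow]
  congr 1
  exact Units.ext hζ

lemma zeta_pow (hζ : ((ζ : S) : ℂ) = zetaN n) : ζ ^ n = 1 := by
  refine Units.map_injective (f := (S.subtype : S →* ℂ)) Subtype.val_injective ?_
  rw [← zpow_natCast, map_zeta ζ hζ, map_one, zpow_natCast, (zetaN_primitive (N := n)).pow_eq_one]

lemma isUnit_one_sub (hζ : ((ζ : S) : ℂ) = zetaN n) (hu : IsUnit ((n : ℕ) : S)) (i : ℤ)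
    (hi : ¬ (n : ℤ) ∣ i) : IsUnit (1 - ((ζ ^ i : Sˣ) : S)) := by
  obtain ⟨m, hm⟩ : ∃ m, n = m + 1 := ⟨n - 1, by have := NeZero.ne n; omega⟩
  have hprim : IsPrimitiveRoot ζ n := by
    refine IsPrimitiveRoot.of_map_of_injective (f := Units.map (S.subtype : S →* ℂ)) ?_
      (Units.map_injective Subtype.val_injective)
    have := map_zeta ζ hζ 1
    rw [zpow_one, zpow_one] at this
    rw [this]
    exact zetaN_primitive
  have hprimS : IsPrimitiveRoot (ζ : S) n := hprim.map_of_injective (f := Units.coeHom S)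
    Units.val_injective
  subst hm
  have hprod := IsPrimitiveRoot.prod_one_sub_pow_eq_order hprimS
  rw [← Nat.cast_succ] at hprod
  rw [← hprod] at hu
  -- reduce the exponent
  obtain ⟨k, hk⟩ : ∃ k : ℕ, (k : ℤ) = i % ((m + 1 : ℕ) : ℤ) :=
    ⟨(i % ((m + 1 : ℕ) : ℤ)).toNat, Int.toNat_of_nonneg (Int.emod_nonneg _ (by omega))⟩
  have hlt : (k : ℤ) < ((m + 1 : ℕ) : ℤ) := hk ▸ Int.emod_lt_of_pos _ (by omega)
  have hk0 : k ≠ 0 := fun h ↦ hi (Int.dvd_of_emod_eq_zero (by rw [← hk, h]; rfl))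
  have he : ζ ^ i = ζ ^ k := by
    rw [← zpow_natCast, hk]
    conv_lhs => rw [← Int.emod_add_mul_ediv i ((m + 1 : ℕ) : ℤ)]
    rw [zpow_add, zpow_mul, zpow_natCast, zeta_pow ζ hζ, one_zpow, mul_one]
  rw [he, Units.val_pow_eq_pow_val]
  have := (IsUnit.prod_iff.mp hu) (k - 1) (Finset.mem_range.mpr (by omega))
  rwa [show k - 1 + 1 = k by omega] at this

/-- Canonical vectors. -/
def Canon (n : ℕ) (a : ℕ) (b : ℤ) : Prop := 2 * a ≤ n ∧ (a ≠ 0 ∨ ¬ (n : ℤ) ∣ b)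

lemma Canon.nz {a : ℕ} {b : ℤ} (h : Canon n a b) : Nz n ((a : ℤ), b) := by
  rcases h.2 with ha | hb
  · refine Or.inl fun e ↦ ?_
    rw [ZMod.intCast_zmod_eq_zero_iff_dvd] at e
    have := Int.le_of_dvd (by omega) e
    have := h.1
    omega
  · exact Or.inr fun e ↦ hb ((ZMod.intCast_zmod_eq_zero_iff_dvd _ _).mp e)

/-- The expansion of a difference at canonical vectors, with its lowest term. -/
theorem exists_wdiff_canon (hζ : ((ζ : S) : ℂ) = zetaN n) (hu : IsUnit ((n : ℕ) : S))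
    {a a' : ℕ} {b b' : ℤ} (h : Canon n a b) (h' : Canon n a' b') (hne : ¬ PMEq n (a, b) (a', b')) :
    ∃ P : PowerSeries S,
      (wdiff n ((a : ℤ), b) ((a' : ℤ), b'), HahnSeries.ofPowerSeries ℤ S P) ∈ sPairs S n ∧
      (∀ i < min a a', PowerSeries.coeff i P = 0) ∧ IsUnit (PowerSeries.coeff (min a a') P) := by
  have hu' := isUnit_one_sub ζ hζ hu
  refine ⟨wser n a (ζ ^ b) - wser n a' (ζ ^ b'), mem_sPairs.mpr ⟨mdiff_wdiff h.nz h'.nz, ?_⟩, ?_⟩
  · rw [sIncl_ofPowerSeries, map_sub (PowerSeries.map S.subtype)]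
    have hd : ∀ {a : ℕ} {b : ℤ}, Canon n a b →
        ((n : ℤ) ∣ (a : ℤ) → IsUnit (1 - ((ζ ^ b : Sˣ) : S))) := by
      intro a b hc hd
      refine hu' b (hc.2.resolve_left fun ha ↦ ?_)
      have := Int.le_of_dvd (by omega) hd
      have := hc.1
      omega
    rw [map_wser S.subtype _ _ (hd h), map_wser S.subtype _ _ (hd h'), map_zeta ζ hζ, map_zeta ζ hζ]
    exact hasExp_wv_sub h.nz h'.nz
  · have hne' : a ≠ a' ∨ ¬ (n : ℤ) ∣ b - b' ∧ ((a ≠ 0 ∧ 2 * a ≠ n) ∨ ¬ (n : ℤ) ∣ b + b') := by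
      by_cases ha : a = a'
      · subst ha
        refine Or.inr ⟨fun hd ↦ hne (Or.inl ⟨rfl, ?_⟩), ?_⟩
        · simpa [ZMod.intCast_eq_intCast_iff_dvd_sub] using dvd_neg.mpr hd
        · by_cases hd : (n : ℤ) ∣ b + b'
          · refine Or.inl ⟨fun ha ↦ hne (Or.inr ?_), fun ha ↦ hne (Or.inr ?_)⟩
            all_goals
              refine ⟨?_, ?_⟩
              · simp only [Prod.neg_mk]
                rw [ZMod.intCast_eq_intCast_iff_dvd_sub]
                first | (subst ha; simp; done) | exact ⟨-1, by rw [← ha]; push_cast; ring⟩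
              · simp only [Prod.neg_mk]
                rw [ZMod.intCast_eq_intCast_iff_dvd_sub]
                simpa [sub_eq_add_neg, add_comm] using dvd_neg.mpr hd
          · exact Or.inr hd
      · exact Or.inl ha
    obtain ⟨k, rfl, h1, h2⟩ :=
      exists_unit_coeff (zeta_pow ζ hζ) hu' h.1 h'.1 h.2 h'.2 hne'
    exact ⟨h1, h2⟩

lemma exists_canon {v : Vec} (h : Nz n v) :
    ∃ (a : ℕ) (b : ℤ), Canon n a b ∧ PMEq n v ((a : ℤ), b) := by
  have hn : (0 : ℤ) < n := by exact_mod_cast Nat.pos_of_ne_zero (NeZero.ne n)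
  obtain ⟨r, hr⟩ : ∃ r : ℕ, (r : ℤ) = v.1 % n :=
    ⟨(v.1 % n).toNat, Int.toNat_of_nonneg (Int.emod_nonneg _ hn.ne')⟩
  have hrn : (r : ℤ) < n := hr ▸ Int.emod_lt_of_pos _ hn
  have hv1 : ((v.1 : ℤ) : ZMod n) = ((r : ℤ) : ZMod n) := by
    rw [hr, ZMod.intCast_mod]
  by_cases h2 : 2 * r ≤ n
  · refine ⟨r, v.2, ⟨h2, ?_⟩, Or.inl ⟨hv1, rfl⟩⟩
    by_contra hc
    push Not at hc
    rcases h with h | h
    · rw [hv1, hc.1] at h; simp at h
    · exact h ((ZMod.intCast_zmod_eq_zero_iff_dvd _ _).mpr hc.2)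
  · refine ⟨n - r, -v.2, ⟨by omega, Or.inl (by omega)⟩, Or.inr ⟨?_, by simp⟩⟩
    rw [hv1]
    simp [Nat.cast_sub (by omega : r ≤ n)]

/-- A difference of two inequivalent values has a unit expansion. -/
theorem exists_wdiff_unit (hζ : ((ζ : S) : ℂ) = zetaN n) (hu : IsUnit ((n : ℕ) : S))
    {v v' : Vec} (h : Nz n v) (h' : Nz n v') (hne : ¬ PMEq n v v') :
    ∃ G : (LaurentSeries S)ˣ, (wdiff n v v', (G : LaurentSeries S)) ∈ sPairs S n := by
  obtain ⟨a, b, hc, hp⟩ := exists_canon h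
  obtain ⟨a', b', hc', hp'⟩ := exists_canon h'
  have hne' : ¬ PMEq n ((a : ℤ), b) ((a' : ℤ), b') := fun he ↦ by
    refine hne ((wdiff_eq_zero_iff h h' UpperHalfPlane.I).mp ?_)
    rw [wdiff_congr hp hp']
    exact (wdiff_eq_zero_iff hc.nz hc'.nz _).mpr he
  obtain ⟨P, hP, h1, h2⟩ := exists_wdiff_canon ζ hζ hu hc hc' hne'
  refine ⟨(isUnit_ofPowerSeries h1 h2).unit, ?_⟩
  rw [IsUnit.unit_spec, wdiff_congr hp hp']
  exact hP

/-- Any difference has some expansion. -/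
theorem exists_wdiff_series (hζ : ((ζ : S) : ℂ) = zetaN n) (hu : IsUnit ((n : ℕ) : S))
    {v v' : Vec} (h : Nz n v) (h' : Nz n v') :
    ∃ G : LaurentSeries S, (wdiff n v v', G) ∈ sPairs S n := by
  by_cases hne : PMEq n v v'
  · refine ⟨0, ?_⟩
    rw [show wdiff n v v' = 0 from funext fun τ ↦ (wdiff_eq_zero_iff h h' τ).mpr hne]
    exact (sPairs S n).zero_mem
  · exact (exists_wdiff_unit ζ hζ hu h h' hne).elim fun G hG ↦ ⟨_, hG⟩

omit ζ in
/-- Every difference is meromorphic at infinity. -/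
theorem meroInf_wdiff {v v' : Vec} (h : Nz n v) (h' : Nz n v') : MeroInf (wdiff n v v') :=
  meroInf_of_hasExp (hasExp_wv_sub h h')

end FLTAgent.GoodModel
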