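import Fermat.Agent.GoodModel.Line
import Fermat.Agent.Kronecker.Cover
import Fermat.Agent.Specialization.Cover

/-!
The ramification of the auxiliary coordinate and the dimensions of the multiples of the poles
of `j`, uniformly in the field of constants.
-/

set_option autoImplicit false
set_option linter.style.haveILetI false
set_option synthInstance.maxHeartbeats 400000
set_option maxHeartbeats 3000000

noncomputable section

open ModularCurve IntermediateField Polynomial AlgebraicCurve FLTAgent.ModEq FLTAgent.Curves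

namespace FLTAgent.GoodModel

section Helpers

variable {K Λ : Type*} [Field K] [Field Λ] [Algebra K Λ]

lemma coe_mem_adjoin_iff {E : IntermediateField K Λ} (x y : E) :
    (y : Λ) ∈ K⟮(x : Λ)⟯ ↔ y ∈ K⟮x⟯ := by
  have hmap : K⟮x⟯.map E.val = K⟮(x : Λ)⟯ := by rw [adjoin_map, Set.image_singleton]; rfl
  rw [← hmap]
  refine ⟨fun ⟨z, hz, h⟩ ↦ ?_, fun h ↦ ⟨y, h, rfl⟩⟩
  exact (Subtype.ext h : z = y) ▸ hz

lemma exists_lift_poly {E : IntermediateField K Λ} (x : E) {p : Λ[X]}
    (hp : ∀ k, p.coeff k ∈ K⟮(x : Λ)⟯) :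
    ∃ q : E[X], q.map (E.val : E →+* Λ) = p ∧ ∀ k, q.coeff k ∈ K⟮x⟯ := by
  have hle : K⟮(x : Λ)⟯ ≤ E := adjoin_simple_le_iff.mpr x.2
  obtain ⟨q, hq⟩ : ∃ q : E[X], q.map (E.val : E →+* Λ) = p :=
    (Polynomial.mem_lifts p).1 ((Polynomial.lifts_iff_coeff_lifts p).2 fun k ↦ ⟨⟨_, hle (hp k)⟩, rfl⟩)
  refine ⟨q, hq, fun k ↦ (coe_mem_adjoin_iff x _).1 ?_⟩
  have h := hp k
  rw [← hq, coeff_map] at h
  exact h

variable {F : Type*} [Field F] [Algebra K F] [IsAlgClosed K] [Curves.IsFunctionField K F]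

lemma ord_aeval_prod_sub {x : F} (hx : Transcendental K x) (v : Place K F) {ι : Type*}
    (s : Finset ι) (c : ι → K) (w : ι → ℕ) :
    aeval x (∏ i ∈ s, (X - C (c i)) ^ w i) ≠ 0 ∧
      v.ord (aeval x (∏ i ∈ s, (X - C (c i)) ^ w i)) =
        ∑ i ∈ s, (w i : ℤ) * v.ord (x - algebraMap K F (c i)) := by
  classical
  induction s using Finset.induction_on with
  | empty => simp
  | insert i s hi ih =>
    have h0 : x - algebraMap K F (c i) ≠ 0 := ne_zero_of_transcendental (transcendental_sub hx _)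
    rw [Finset.prod_insert hi, Finset.sum_insert hi, map_mul, map_pow, map_sub, aeval_X, aeval_C]
    refine ⟨mul_ne_zero (pow_ne_zero _ h0) ih.1, ?_⟩
    rw [v.ord_mul (pow_ne_zero _ h0) ih.1, Curves.ord_pow, ih.2]

lemma ord_sub_eq_zero {x : F} (hx : Transcendental K x) {v : Place K F} (hv : 0 ≤ v.ord x) {a : K}
    (ha : ¬ 0 < v.ord (x - algebraMap K F a)) : v.ord (x - algebraMap K F a) = 0 :=
  le_antisymm (not_lt.1 ha) (((ordGE_of_le hv).sub (ordGE_algebraMap v a)).le_ord
    (ne_zero_of_transcendental (transcendental_sub hx a)))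

end Helpers

section Abstract

/-- The dimension count for a coordinate in which `j` is rational of degree `M₀² + M₀`. -/
theorem poles_formula {K F : Type*} [Field K] [IsAlgClosed K] [Field F] [Algebra K F]
    [Curves.IsFunctionField K F] {M0 : ℕ} [NeZero M0] (hM : M0 = 2 ∨ M0 = 3) {x j : F}
    (hx : Transcendental K x) (hjtr : Transcendental K j) [Algebra.IsSeparable K⟮x⟯ F]
    {c : Fin M0 → K} (hcinj : Function.Injective c) {P : K[X]}
    (hPdeg : P.natDegree = (qJ c).natDegree + 1) (hPc : ∀ i, P.eval (c i) ≠ 0)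
    (hrel : j * aeval x (qJ c) = aeval x P)
    (hunr : ∀ v : Place K F, 0 ≤ v.ord x →
      (∀ i, ¬ 0 < v.ord (x - algebraMap K F (c i))) → ramIdx x v = 1)
    {N : ℕ} (hN : (N : K) ≠ 0) (hdvd : ∀ v : Place K F, v.ord j < 0 → v.ord j ∣ (N : ℤ))
    {ψ : ℕ} (hψ : Module.finrank K⟮j⟯ F = ψ) :
    ∃ m₀ : ℕ, ∀ m : ℕ, m₀ ≤ m →
      2 * ((M0 * M0 + M0 : ℕ) : ℤ) *
          Module.finrank K (riemannRochSpace ((m : ℤ) • poleDiv K j)) =
        2 * ((M0 * M0 + M0 : ℕ) : ℤ) * ψ * m + (1 - (M0 : ℤ)) * ψ +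
          ((M0 * M0 + M0 : ℕ) : ℤ) * Nat.card {v : Place K F // v.ord j < 0} := by
  classical
  have hP0 : P ≠ 0 := fun h ↦ by simp [h] at hPdeg
  have hQdeg : (qJ c).natDegree = ∑ i : Fin M0, wJ i := natDegree_qJ c
  have hQ : ∀ v : Place K F, aeval x (qJ c) ≠ 0 ∧
      v.ord (aeval x (qJ c)) = ∑ i, (wJ i : ℤ) * v.ord (x - algebraMap K F (c i)) :=
    fun v ↦ ord_aeval_prod_sub hx v Finset.univ c wJ
  have hordj : ∀ v : Place K F,
      v.ord j + v.ord (aeval x (qJ c)) = v.ord (aeval x P) := fun v ↦ by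
    rw [← v.ord_mul (ne_zero_of_transcendental hjtr) (hQ v).1, hrel]
  -- the three kinds of places
  have hinf : ∀ v : Place K F, v.ord x < 0 → v.ord j = v.ord x := by
    intro v hv
    have h1 := hordj v
    rw [(ord_aeval_of_neg hv hP0).1, (ord_aeval_of_neg hv (monic_qJ c).ne_zero).1, hPdeg] at h1
    push_cast at h1
    linarith
  have hother : ∀ (v : Place K F) i, 0 < v.ord (x - algebraMap K F (c i)) → ∀ k, k ≠ i →
      v.ord (x - algebraMap K F (c k)) = 0 := by
    intro v i hi k hk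
    refine ord_sub_eq_zero hx (ord_nonneg_of_sub hi) fun hk' ↦ hk (hcinj ?_)
    have h := (ordGE_of_le (show (1 : ℤ) ≤ _ from hk')).sub (ordGE_of_le (show (1 : ℤ) ≤ _ from hi))
    rw [sub_sub_sub_cancel_left, ← map_sub] at h
    rcases h with h | h
    · exact (sub_eq_zero.1 ((map_eq_zero_iff _ (algebraMap K F).injective).1 h)).symm
    · rw [ord_algebraMap] at h; omega
  have hcusp : ∀ (v : Place K F) i, 0 < v.ord (x - algebraMap K F (c i)) →
      v.ord j = -((wJ i : ℤ) * v.ord (x - algebraMap K F (c i))) := by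
    intro v i hi
    have h1 := hordj v
    have hP : v.ord (aeval x P) = 0 := by
      have e : aeval x P = aeval (x - algebraMap K F (c i)) (P.comp (X + C (c i))) := by
        rw [aeval_comp]; simp
      rw [e]
      exact (ord_aeval_eq_zero hi (p := P.comp (X + C (c i)))
        (by rw [coeff_zero_eq_eval_zero, eval_comp]; simpa using hPc i)).1
    rw [hP, (hQ v).2, Finset.sum_eq_single i (fun k _ hk ↦ by rw [hother v i hi k hk, mul_zero])
      (by simp)] at h1
    linarith
  have hfin : ∀ v : Place K F, 0 ≤ v.ord x → (∀ i, ¬ 0 < v.ord (x - algebraMap K F (c i))) →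
      0 ≤ v.ord j := by
    intro v hv hc'
    have h1 := hordj v
    have h2 := ordGE_aeval hv P
    rw [(hQ v).2, Finset.sum_eq_zero fun i _ ↦ by rw [ord_sub_eq_zero hx hv (hc' i), mul_zero]] at h1
    have h3 := h2.le_ord (aeval_ne_zero hx hP0)
    linarith
  have hclass : ∀ v : Place K F,
      v.ord x < 0 ∨ (0 ≤ v.ord x ∧ ∃ i, 0 < v.ord (x - algebraMap K F (c i))) ∨
        (0 ≤ v.ord x ∧ ∀ i, ¬ 0 < v.ord (x - algebraMap K F (c i))) := by
    intro v
    rcases lt_or_ge (v.ord x) 0 with h | h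
    · exact Or.inl h
    by_cases hc' : ∃ i, 0 < v.ord (x - algebraMap K F (c i))
    · exact Or.inr (Or.inl ⟨h, hc'⟩)
    · exact Or.inr (Or.inr ⟨h, not_exists.1 hc'⟩)
  -- divisors
  have hPc' : ∀ i (v : Place K F), poleDiv K (x - algebraMap K F (c i))⁻¹ v =
      max (v.ord (x - algebraMap K F (c i))) 0 := fun i v ↦ by
    rw [poleDiv_apply, v.ord_inv, neg_neg]
  have hPj : poleDiv K j =
      poleDiv K x + ∑ i, (wJ i : ℤ) • poleDiv K (x - algebraMap K F (c i))⁻¹ := by
    refine Finsupp.ext fun v ↦ ?_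
    rw [Finsupp.add_apply, Finsupp.finsetSum_apply]
    simp only [Finsupp.smul_apply, hPc', smul_eq_mul, poleDiv_apply]
    rcases hclass v with hv | ⟨hv, i, hi⟩ | ⟨hv, hn⟩
    · rw [hinf v hv, Finset.sum_eq_zero fun i _ ↦ ?_, add_zero]
      have hne : ¬ 0 < v.ord (x - algebraMap K F (c i)) := fun hpos ↦ by
        have := ord_nonneg_of_sub hpos; omega
      rw [max_eq_right (not_lt.1 hne), mul_zero]
    · rw [hcusp v i hi, Finset.sum_eq_single i
        (fun k _ hk ↦ by rw [hother v i hi k hk, max_self, mul_zero]) (by simp),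
        max_eq_right (by omega : -v.ord x ≤ 0), zero_add, neg_neg, max_eq_left hi.le,
        max_eq_left (mul_nonneg (Int.natCast_nonneg _) hi.le)]
    · rw [max_eq_right (by linarith [hfin v hv hn]), max_eq_right (by omega : -v.ord x ≤ 0),
        Finset.sum_eq_zero fun i _ ↦ by rw [max_eq_right (not_lt.1 (hn i)), mul_zero], add_zero]
  have hdeg : ∀ i, Divisor.degree (poleDiv K (x - algebraMap K F (c i))⁻¹) =
      Module.finrank K⟮x⟯ F := fun i ↦ by
    rw [degree_poleDiv (transcendental_inv (transcendental_sub hx _)), adjoin_simple_inv_eq,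
      adjoin_simple_sub_eq]
  set n := Module.finrank K⟮x⟯ F with hn
  have hψn : (ψ : ℤ) = ((M0 * M0 + M0 : ℕ) : ℤ) * n := by
    have h1 := congrArg Divisor.degree hPj
    rw [degree_poleDiv hjtr, hψ, map_add, degree_poleDiv hx, map_sum] at h1
    rw [h1, ← sum_wJ hM]
    simp only [map_zsmul, hdeg, smul_eq_mul, ← Finset.sum_mul]
    push_cast
    ring
  -- tameness
  have hbranch : ∀ v : Place K F, ¬ v.ord j < 0 → ramIdx x v = 1 := by
    intro v hv
    rcases hclass v with hv' | ⟨hv', i, hi⟩ | ⟨hv', hn'⟩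
    · exact absurd (hinf v hv' ▸ hv') hv
    · refine absurd ?_ hv
      rw [hcusp v i hi]
      have := mul_pos (show (0 : ℤ) < wJ i by exact_mod_cast wJ_pos i) hi
      linarith
    · exact hunr v hv' hn'
  have hram : ∀ v : Place K F, v.ord j < 0 → ramIdx x v ∣ v.ord j := by
    intro v hv
    rcases hclass v with hv' | ⟨hv', i, hi⟩ | ⟨hv', hn'⟩
    · rw [ramIdx, if_pos hv', hinf v hv']
      exact neg_dvd.2 dvd_rfl
    · rw [ramIdx_eq hx hi, hcusp v i hi]
      exact dvd_neg.2 (dvd_mul_left _ _)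
    · linarith [hfin v hv' hn']
  have htame : ∀ v : Place K F, ((ramIdx x v : ℤ) : K) ≠ 0 := by
    intro v
    by_cases hv : v.ord j < 0
    · obtain ⟨k, hk⟩ := (hram v hv).trans (hdvd v hv)
      intro h0
      apply hN
      have h1 := congrArg (fun z : ℤ ↦ (z : K)) hk
      simp only [Int.cast_natCast, Int.cast_mul, h0, zero_mul] at h1
      exact h1
    · rw [hbranch v hv, Int.cast_one]; exact one_ne_zero
  -- the ramification divisor
  obtain ⟨B⟩ := nonempty_reducedBasis (K := K) hx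
  obtain ⟨-, R, hR, -, -⟩ := exists_genus_of_tame hx htame
  have hRdeg := degree_ram_of_tame hx htame B hR
  set s := zerosOf K j⁻¹
  have hs : ∀ v : Place K F, v ∈ s ↔ v.ord j < 0 := fun v ↦ by
    rw [mem_zerosOf, v.ord_inv]; omega
  have hscard : (s.card : ℤ) = Nat.card {v : Place K F // v.ord j < 0} := by
    rw [← Nat.card_eq_finsetCard, Nat.cast_inj]
    exact Nat.card_congr (Equiv.subtypeEquivRight hs)
  have hsumR : Divisor.degree R = ∑ v ∈ s, ramIdx x v - (s.card : ℤ) := by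
    rw [degree_eq_sum (s := s) fun v hv ↦ ?_]
    · simp only [hR, Finset.sum_sub_distrib, Finset.sum_const, nsmul_eq_mul, mul_one]
    rw [Finsupp.mem_support_iff, hR] at hv
    rw [hs]
    by_contra hh
    exact hv (by rw [hbranch v hh, sub_self])
  set T : Divisor K F := poleDiv K x + ∑ i, poleDiv K (x - algebraMap K F (c i))⁻¹ with hT
  have hTv : ∀ v, T v = max (-v.ord x) 0 + ∑ i, max (v.ord (x - algebraMap K F (c i))) 0 := fun v ↦ by
    rw [hT, Finsupp.add_apply, Finsupp.finsetSum_apply, poleDiv_apply]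
    simp only [hPc']
  have hsumT : Divisor.degree T = ∑ v ∈ s, ramIdx x v := by
    rw [degree_eq_sum (s := s) fun v hv ↦ ?_]
    · refine Finset.sum_congr rfl fun v hv ↦ ?_
      rw [hTv]
      rcases hclass v with hv' | ⟨hv', i, hi⟩ | ⟨hv', hn'⟩
      · rw [ramIdx, if_pos hv', max_eq_left (by omega), Finset.sum_eq_zero fun i _ ↦ ?_, add_zero]
        rw [max_eq_right (not_lt.1 fun hpos ↦ by have := ord_nonneg_of_sub hpos; omega)]
      · rw [ramIdx_eq hx hi, max_eq_right (by omega : -v.ord x ≤ 0), zero_add,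
          Finset.sum_eq_single i (fun k _ hk ↦ by rw [hother v i hi k hk, max_self]) (by simp),
          max_eq_left hi.le]
      · have := hfin v hv' hn'
        have := (hs v).1 hv
        omega
    rw [Finsupp.mem_support_iff, hTv] at hv
    rw [hs]
    by_contra hh
    rcases hclass v with hv' | ⟨hv', i, hi⟩ | ⟨hv', hn'⟩
    · exact hh (hinf v hv' ▸ hv')
    · refine hh ?_
      rw [hcusp v i hi]
      have := mul_pos (show (0 : ℤ) < wJ i by exact_mod_cast wJ_pos i) hi
      linarith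
    · exact hv (by
        rw [max_eq_right (by omega : -v.ord x ≤ 0),
          Finset.sum_eq_zero fun i _ ↦ max_eq_right (not_lt.1 (hn' i)), add_zero])
  have hTdeg : Divisor.degree T = ((M0 : ℤ) + 1) * n := by
    rw [hT, map_add, degree_poleDiv hx, map_sum]
    simp only [hdeg, Finset.sum_const, Finset.card_univ, Fintype.card_fin, nsmul_eq_mul, ← hn]
    ring
  -- dimensions
  refine ⟨Finset.univ.sup B.k, fun m hm ↦ ?_⟩
  have hle : ∀ v, ((m : ℤ) • poleDiv K x) v ≤ ((m : ℤ) • poleDiv K j) v := fun v ↦ by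
    rw [Finsupp.smul_apply, Finsupp.smul_apply, smul_eq_mul, smul_eq_mul, hPj, Finsupp.add_apply,
      Finsupp.finsetSum_apply]
    refine mul_le_mul_of_nonneg_left (le_add_of_nonneg_right (Finset.sum_nonneg fun i _ ↦ ?_))
      (Int.natCast_nonneg _)
    rw [Finsupp.smul_apply, smul_eq_mul, poleDiv_apply]
    exact mul_nonneg (Int.natCast_nonneg _) (le_max_right _ _)
  haveI := finiteDimensional_rrSpace ((m : ℤ) • poleDiv K j)
  have h1 := riemann_le B hx ((m : ℤ) • poleDiv K j)
  have h2 := finrank_rrSpace_le hle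
  rw [finrank_rrSpace_poles_of_le B hx fun i ↦ by
    exact_mod_cast (Finset.le_sup (f := B.k) (Finset.mem_univ i)).trans hm] at h2
  rw [map_zsmul, degree_poleDiv hjtr, hψ, smul_eq_mul] at h1 h2
  rw [map_zsmul, degree_poleDiv hx, smul_eq_mul] at h2
  have hell : (Module.finrank K (riemannRochSpace ((m : ℤ) • poleDiv K j)) : ℤ) =
      m * ψ + n - ∑ i, (B.k i : ℤ) := le_antisymm (by linarith) (by linarith)
  rw [hell]
  rw [hsumR, ← hsumT, hTdeg, hscard] at hRdeg
  push_cast at hψn hRdeg ⊢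
  linear_combination (((M0 : ℤ) * M0 + M0)) * hRdeg - (1 - (M0 : ℤ)) * hψn

end Abstract

section Ramification

variable {K : Type*} [Field K] [IsAlgClosed K] {S : Subring ℂ} {M0 N' : ℕ} [NeZero M0] [NeZero N']
  [NeZero (M0 * M0 * N')] (φ : S →+* K) (L : LevelSeries S M0 N')
  [Curves.IsFunctionField K (modularFunctionFieldFullC K (M0 * M0 * N'))]

/-- The coordinate in the field of level `M₀² N'`, with what is needed about it. -/
theorem exists_coordinate (hM : M0 = 2 ∨ M0 = 3) (hN : ((M0 * M0 * N' : ℕ) : K) ≠ 0) :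
    ∃ x : modularFunctionFieldFullC K (M0 * M0 * N'), Transcendental K x ∧
      Algebra.IsSeparable K⟮x⟯ (modularFunctionFieldFullC K (M0 * M0 * N')) ∧
      (∃ P : K[X], P.natDegree = (qJ (cK φ L)).natDegree + 1 ∧ (∀ i, P.eval (cK φ L i) ≠ 0) ∧
        jbarEl K (M0 * M0 * N') * aeval x (qJ (cK φ L)) = aeval x P) ∧
      ∀ v : Place K (modularFunctionFieldFullC K (M0 * M0 * N')), 0 ≤ v.ord x →
        (∀ i, ¬ 0 < v.ord (x - algebraMap K _ (cK φ L i))) → ramIdx x v = 1 := by
  classical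
  set N := M0 * M0 * N' with hNdef
  haveI : NeZero (M0 * M0) := ⟨Nat.mul_ne_zero (NeZero.ne M0) (NeZero.ne M0)⟩
  have hK : ((M0 * M0 : ℕ) : K) ≠ 0 := fun h ↦ hN (by rw [hNdef, Nat.cast_mul, h, zero_mul])
  obtain ⟨⟨z, hz, hzh⟩, P, hPdeg, hPc, hrel⟩ := hser_mem_and_degree φ L hM hK
  set h := hser φ L with hh
  set f : LaurentSeries K := coeffMap φ L.F with hf
  let ι : modularFunctionFieldFullC K N →ₐ[K] LaurentSeries K :=
    (substAlg (1 : Kˣ) N').comp (modularFunctionFieldFullC K N).val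
  set x : modularFunctionFieldFullC K N :=
    ⟨z, full_degeneracyC_le K (dvd_mul_right (M0 * M0) N') (modularFunctionFieldC_le_full K _ hz)⟩
  have hιx : ι x = h := hzh
  have hιj : ι (jbarEl K N) = jAt (1 : Kˣ) N' := scale_jq N'
  have hxtr : Transcendental K x :=
    (transcendental_algebraMap_iff (R := K) (algebraMap (modularFunctionFieldFullC K N)
      (LaurentSeries K)).injective).mp fun ⟨p, hp, h0⟩ ↦ hser_transcendental φ L
      ⟨p, hp, by rw [← hh, ← hzh, aeval_algHom_apply]; exact (congrArg _ h0).trans (map_zero _)⟩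
  have hrelF : jbarEl K N * aeval x (qJ (cK φ L)) = aeval x P := ι.injective (by
    show ι _ = ι _
    rw [map_mul, hιj, ← aeval_algHom_apply, ← aeval_algHom_apply, hιx, hrel])
  -- the covering field
  set E : IntermediateField K (LaurentSeries K) := IntermediateField.adjoin K {h, f}
  have hhE : h ∈ E := subset_adjoin K _ (Set.mem_insert _ _)
  have hfE : f ∈ E := subset_adjoin K _ (Set.mem_insert_of_mem _ rfl)
  have hcoef : ∀ {p : Polynomial (LaurentSeries S)}, (∀ k, RatIn L.H L.c (p.coeff k)) →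
      ∀ k, (p.map (coeffMap φ)).coeff k ∈ K⟮h⟯ := fun hp k ↦ by
    rw [coeff_map]
    exact mem_line_of_ratIn φ L (ratIn_map φ (hp k))
  have hle : K⟮h⟯ ≤ E := adjoin_simple_le_iff.mpr hhE
  have hιE : ∀ y, ι y ∈ E := by
    intro y
    have hF : (modularFunctionFieldFullC K N).map (substAlg (1 : Kˣ) N') ≤ E := by
      rw [modularFunctionFieldFullC, adjoin_map, adjoin_le_iff]
      rintro _ ⟨_, ⟨d, hne, hd, rfl⟩, rfl⟩
      haveI := hne
      obtain ⟨G, hG, hGe⟩ := L.param d hne.ne hd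
      have h1 : (G.map (coeffMap φ)).eval f = jAt (1 : Kˣ) (d * N') := by
        rw [eval_map, hf, eval₂_at_apply, hGe, coeffMap_jAt, map_one]
      show substAlg (1 : Kˣ) N' _ ∈ E
      rw [scale_jqN, xS, ← h1, eval_eq_sum_range]
      exact sum_mem fun i _ ↦ mul_mem (hle (hcoef hG i)) (pow_mem hfE i)
    exact hF ⟨y, y.2, rfl⟩
  let ι' : modularFunctionFieldFullC K N →ₐ[K] E := ι.codRestrict E.toSubalgebra hιE
  set hE : E := ⟨h, hhE⟩ with hhEdef
  set fE : E := ⟨f, hfE⟩
  have hι'x : ι' x = hE := Subtype.ext hιx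
  have hEtr : Transcendental K hE :=
    (transcendental_algebraMap_iff (R := K) (algebraMap E (LaurentSeries K)).injective).mp
      (hser_transcendental φ L)
  have hlift : ∀ {p : Polynomial (LaurentSeries S)}, (∀ k, RatIn L.H L.c (p.coeff k)) →
      ∃ q : E[X], q.map (E.val : E →+* LaurentSeries K) = p.map (coeffMap φ) ∧
        ∀ k, q.coeff k ∈ K⟮hE⟯ := fun hp ↦ exists_lift_poly hE (hcoef hp)
  obtain ⟨g, hg, hgmem⟩ := hlift L.rat_g
  obtain ⟨l, hl, hlmem⟩ := hlift L.rat_left
  obtain ⟨r, hr, hrmem⟩ := hlift L.rat_right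
  have hvinj : Function.Injective (E.val : E →+* LaurentSeries K) := RingHom.injective _
  have hgm : g.Monic := monic_of_injective hvinj (hg ▸ L.monic.map _)
  have hbez : l * g + r * derivative g = 1 := Polynomial.map_injective _ hvinj (by
    rw [Polynomial.map_add, Polynomial.map_mul, Polynomial.map_mul, ← derivative_map, hg, hl, hr,
      derivative_map, ← Polynomial.map_mul, ← Polynomial.map_mul, ← Polynomial.map_add, L.bez,
      Polynomial.map_one, Polynomial.map_one])
  have hroot : g.eval fE = 0 := hvinj (by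
    rw [← eval₂_at_apply, ← eval_map, hg, map_zero]
    show (L.g.map (coeffMap φ)).eval f = 0
    rw [eval_map, hf, eval₂_at_apply, L.root, map_zero])
  -- lift to the line
  have toLine : ∀ {p : E[X]}, (∀ k, p.coeff k ∈ K⟮hE⟯) →
      ∃ q : K⟮hE⟯[X], q.map (algebraMap K⟮hE⟯ E) = p := fun {p} hp ↦
    (Polynomial.mem_lifts p).1 ((Polynomial.lifts_iff_coeff_lifts p).2 fun k ↦ ⟨⟨_, hp k⟩, rfl⟩)
  obtain ⟨gB, hgB⟩ := toLine hgmem
  have hgBm : gB.Monic := monic_of_injective (algebraMap K⟮hE⟯ E).injective (hgB ▸ hgm)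
  have hgBsep : gB.Separable := by
    rw [← Polynomial.separable_map (algebraMap K⟮hE⟯ E), hgB]
    exact ⟨l, r, hbez⟩
  have hfint : IsIntegral K⟮hE⟯ fE := ⟨gB, hgBm, by rw [← eval_map, hgB]; exact hroot⟩
  have hgen : ∀ y : E, ∃ p : E[X], (∀ k, p.coeff k ∈ K⟮hE⟯) ∧ p.eval fE = y := by
    intro y
    have hfB : IsIntegral K⟮h⟯ f := by
      obtain ⟨q, hq⟩ : ∃ q : K⟮h⟯[X], q.map (algebraMap K⟮h⟯ (LaurentSeries K)) =
          L.g.map (coeffMap φ) :=
        (Polynomial.mem_lifts _).1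
          ((Polynomial.lifts_iff_coeff_lifts _).2 fun k ↦ ⟨⟨_, hcoef L.rat_g k⟩, rfl⟩)
      refine ⟨q, monic_of_injective (algebraMap K⟮h⟯ (LaurentSeries K)).injective
        (hq ▸ L.monic.map _), ?_⟩
      rw [← eval_map, hq, eval_map, hf, eval₂_at_apply, L.root, map_zero]
    have hy : (y : LaurentSeries K) ∈ (K⟮h⟯⟮f⟯).restrictScalars K := by
      rw [adjoin_adjoin_left K {h} {f}, Set.singleton_union]
      exact y.2
    rw [mem_restrictScalars, ← IntermediateField.mem_toSubalgebra,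
      adjoin_simple_toSubalgebra_of_isAlgebraic hfB.isAlgebraic,
      Algebra.adjoin_singleton_eq_range_aeval] at hy
    obtain ⟨q, hq⟩ := hy
    obtain ⟨p, hp, hpmem⟩ := exists_lift_poly hE
      (p := q.map (algebraMap K⟮h⟯ (LaurentSeries K))) fun k ↦ by
        rw [coeff_map]; exact (q.coeff k).2
    refine ⟨p, hpmem, Subtype.ext ?_⟩
    show (E.val : E →+* LaurentSeries K) (p.eval fE) = y
    rw [← eval₂_at_apply, ← eval_map, hp, eval_map]
    exact hq
  have htop : K⟮hE⟯⟮fE⟯ = ⊤ := by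
    rw [eq_top_iff]
    intro y _
    obtain ⟨p, hp, rfl⟩ := hgen y
    rw [eval_eq_sum_range]
    exact sum_mem fun i _ ↦ mul_mem (IntermediateField.algebraMap_mem K⟮hE⟯⟮fE⟯ (⟨_, hp i⟩ : K⟮hE⟯))
      (pow_mem (mem_adjoin_simple_self _ _) i)
  haveI := IntermediateField.adjoin.finiteDimensional hfint
  haveI hfdE : FiniteDimensional K⟮hE⟯ E := by
    rw [htop] at this
    exact Module.Finite.equiv (IntermediateField.topEquiv (F := K⟮hE⟯) (E := E)).toLinearEquiv
  haveI : Curves.IsFunctionField K E := IsFunctionField.mk_of hE hEtr hfdE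
  have hsepE : Algebra.IsSeparable K⟮hE⟯ E := by
    have h1 : Algebra.IsSeparable K⟮hE⟯ K⟮hE⟯⟮fE⟯ :=
      isSeparable_adjoin_simple_iff_isSeparable _ _ |>.mpr
        (hgBsep.of_dvd (minpoly.dvd _ _ (by rw [aeval_def, ← eval_map, hgB]; exact hroot)))
    rw [htop] at h1
    exact AlgEquiv.Algebra.isSeparable (IntermediateField.topEquiv (F := K⟮hE⟯) (E := E))
  have hsepF : Algebra.IsSeparable K⟮x⟯ (modularFunctionFieldFullC K N) :=
    isSeparable_of_algHom ι' (hι'x ▸ hsepE)
  refine ⟨x, hxtr, hsepF, ⟨P, hPdeg, hPc, hrelF⟩, fun v hv hc ↦ ?_⟩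
  letI : Algebra (modularFunctionFieldFullC K N) E := ι'.toRingHom.toAlgebra
  haveI : IsScalarTower K (modularFunctionFieldFullC K N) E :=
    IsScalarTower.of_algebraMap_eq fun c ↦ (ι'.commutes c).symm
  haveI : Module.Finite (modularFunctionFieldFullC K N) E :=
    Kronecker.moduleFinite_of_functionField K
  obtain ⟨w, hw⟩ := Specialization.exists_restrict_eq (F' := E) v
  have hord : ∀ a : K, w.ord (hE - algebraMap K E a) =
      w.ramificationIndex (modularFunctionFieldFullC K N) *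
        v.ord (x - algebraMap K _ a) := fun a ↦ by
    rw [← hw, ← w.ord_restrict, map_sub, ← IsScalarTower.algebraMap_apply]
    show w.ord (hE - _) = w.ord (ι' x - _)
    rw [hι'x]
  have hpos := ord_sub_placeValue_pos hxtr hv
  set a := placeValue x v
  have hwpos : 0 < w.ord (hE - algebraMap K E a) := by
    rw [hord]
    refine mul_pos ?_ hpos
    by_contra h0
    rw [not_lt] at h0
    have h1 := hord a
    rw [le_antisymm h0 (Int.natCast_nonneg _), zero_mul] at h1
    obtain ⟨u, -, hu⟩ := exists_uniformizer (w.restrict (modularFunctionFieldFullC K N))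
    obtain ⟨g, hg0, hge⟩ := w.exists_ord_eq_ramificationIndex (F := modularFunctionFieldFullC K N)
    have h2 : (w.ramificationIndex (modularFunctionFieldFullC K N) : ℤ) = 0 :=
      le_antisymm h0 (Int.natCast_nonneg _)
    exact absurd (Int.natCast_eq_zero.1 h2) (Place.ramificationIndex_pos w).ne'
  have hreg : ∀ {p : Polynomial (LaurentSeries S)} {q : E[X]},
      q.map (E.val : E →+* LaurentSeries K) = p.map (coeffMap φ) →
      (∀ k, RatIn L.H L.c (p.coeff k)) → ∀ k, OrdGE w 0 (q.coeff k) := by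
    intro p q hpq hrat k
    obtain ⟨P', e, he⟩ := ratIn_map φ (hrat k)
    rw [eval₂_C_eq_aeval, eval₂_C_eq_aeval] at he
    have he' : q.coeff k * aeval hE (∏ i, (X - C (cK φ L i)) ^ e i) = aeval hE P' := hvinj (by
      rw [map_mul, RingHom.coe_coe, ← aeval_algHom_apply, ← aeval_algHom_apply,
        show E.val (q.coeff k) = coeffMap φ (p.coeff k) by
          rw [← coeff_map, ← hpq, coeff_map]; rfl]
      exact he)
    obtain ⟨hne, ho⟩ := ord_aeval_prod_sub hEtr w Finset.univ (cK φ L) e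
    have h0 : 0 ≤ w.ord hE := by
      have := ord_nonneg_of_sub hwpos
      exact this
    have hz0 : ∑ i, (e i : ℤ) * w.ord (hE - algebraMap K E (cK φ L i)) = 0 :=
      Finset.sum_eq_zero fun i _ ↦ by
        rw [hord, ord_sub_eq_zero hxtr hv (hc i), mul_zero, mul_zero]
    have h1 : q.coeff k = aeval hE P' * (aeval hE (∏ i, (X - C (cK φ L i)) ^ e i))⁻¹ := by
      rw [← he', mul_inv_cancel_right₀ hne]
    rw [h1]
    exact ((ordGE_aeval h0 P').mul (ordGE_of_le (w.ord_inv _).ge)).mono (by rw [ho, hz0]; simp)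
  have h1 := ord_sub_eq_one_of_bezout hEtr hwpos hgen hgmem (hreg hg L.rat_g) (hreg hl L.rat_left)
    (hreg hr L.rat_right) hgm hbez hroot
  rw [hord] at h1
  have h2 := Int.eq_one_of_mul_eq_one_left hpos.le h1
  rw [ramIdx_eq hxtr hpos, h2]

/-- The dimension of the multiples of the poles of `j`, from the monodromy at infinity alone. -/
theorem finrank_poles_formula (hM : M0 = 2 ∨ M0 = 3) (hN : ((M0 * M0 * N' : ℕ) : K) ≠ 0)
    (φ : S →+* K) (L : LevelSeries S M0 N') :
    ∃ m₀ : ℕ, ∀ m : ℕ, m₀ ≤ m →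
      2 * ((M0 * M0 + M0 : ℕ) : ℤ) *
          Module.finrank K (riemannRochSpace ((m : ℤ) • poleDiv K (jbarEl K (M0 * M0 * N')))) =
        2 * ((M0 * M0 + M0 : ℕ) : ℤ) * dedekindPsi (M0 * M0 * N') * m +
          (1 - (M0 : ℤ)) * dedekindPsi (M0 * M0 * N') +
          ((M0 * M0 + M0 : ℕ) : ℤ) * numCusps (M0 * M0 * N') := by
  obtain ⟨x, hx, hsep, ⟨P, hPdeg, hPc, hrel⟩, hunr⟩ := exists_coordinate φ L hM hN
  haveI := hsep
  obtain ⟨hcard, hdvd⟩ := poles_jbarEl (K := K) (N := M0 * M0 * N') hN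
  obtain ⟨m₀, h⟩ := poles_formula hM hx transcendental_jbarEl (cK_injective φ L) hPdeg hPc hrel hunr
    hN hdvd (finrank_adjoin_jbarEl hN)
  refine ⟨m₀, fun m hm ↦ ?_⟩
  rw [h m hm, hcard]

end Ramification

end FLTAgent.GoodModel
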