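import Fermat.Agent.GoodModel.Hauptmodul

/-!
Invariant functions of level `M₀ ∈ {2, 3}` are rational in the auxiliary function.
-/

set_option autoImplicit false

noncomputable section

open UpperHalfPlane hiding I I_re I_im
open Filter Topology Complex Function FLTAgent.ModEq ModularCurve
open scoped MatrixGroups Manifold ModularForm

namespace FLTAgent.GoodModel

/-- An invariant holomorphic function bounded at all cusps is constant. -/
theorem invariant_const {Γ : Subgroup SL(2, ℤ)} [Γ.FiniteIndex] {g : ℍ → ℂ}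
    (hinv : ∀ γ ∈ Γ, ∀ τ : ℍ, g (γ • τ) = g τ) (hhol : MDiff g)
    (hbdd : ∀ σ : SL(2, ℤ), IsBoundedAtImInfty fun τ ↦ g (σ • τ)) : ∃ c, g = Function.const _ c := by
  have hsl : ∀ γ ∈ Γ, g ∣[(0 : ℤ)] γ = g := fun γ hγ ↦ by
    ext z; rw [ModularForm.SL_slash_apply, neg_zero, zpow_zero, mul_one, hinv γ hγ]
  let f : ModularForm (Γ : Subgroup (GL (Fin 2) ℝ)) 0 :=
    { toFun := g
      slash_action_eq' := fun A hA => by
        obtain ⟨A, hA', rfl⟩ := hA
        exact hsl A hA'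
      holo' := hhol
      bdd_at_cusps' := fun {c} hc => by
        rw [Subgroup.IsArithmetic.isCusp_iff_isCusp_SL2Z] at hc
        rw [OnePoint.isBoundedAt_iff_forall_SL2Z hc]
        intro γ _
        refine (hbdd γ).congr_left fun z ↦ ?_
        rw [ModularForm.SL_slash_apply, neg_zero, zpow_zero, mul_one] }
  exact ModularForm.eq_const_of_weight_zero f

lemma tendsto_T_zpow (k : ℤ) :
    Tendsto (fun τ : ℍ ↦ (ModularGroup.T ^ k) • τ) atImInfty atImInfty := by
  rw [atImInfty, tendsto_comap_iff]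
  refine tendsto_comap.congr fun τ => ?_
  rw [Function.comp_apply, UpperHalfPlane.modular_T_zpow_smul, UpperHalfPlane.vadd_im]

section Pairs

variable {S : Subring ℂ}

lemma sPairs_refine {a k n : ℕ} [NeZero a] [NeZero k] [NeZero n] (hk : a * k = n)
    {φ : ℍ → ℂ} {G : LaurentSeries S} (h : (φ, G) ∈ sPairs S a) :
    (φ, qExpand S k G) ∈ sPairs S n := by
  refine mem_sPairs.mpr ⟨h.1, ?_⟩
  rw [coeffMap_qExpand]
  exact hasExp_refine h.2 k n hk

/-- Constants. -/
def constS (S : Subring ℂ) : S →+* (ℍ → ℂ) × LaurentSeries S :=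
  ((Pi.constRingHom ℍ ℂ).comp S.subtype).prod HahnSeries.C

/-- Evaluation of a polynomial at a pair. -/
def evalP (x : (ℍ → ℂ) × LaurentSeries S) : Polynomial S →+* (ℍ → ℂ) × LaurentSeries S :=
  Polynomial.eval₂RingHom (constS S) x

lemma evalP_mem {n : ℕ} {x : (ℍ → ℂ) × LaurentSeries S} (hx : x ∈ sPairs S n) (P : Polynomial S) :
    evalP x P ∈ sPairs S n := by
  rw [evalP, Polynomial.coe_eval₂RingHom, Polynomial.eval₂_eq_sum_range]
  exact Subring.sum_mem _ fun i _ ↦ Subring.mul_mem _ (sPairs_const _) (Subring.pow_mem _ hx i)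

lemma evalP_fst (x : (ℍ → ℂ) × LaurentSeries S) (P : Polynomial S) (τ : ℍ) :
    (evalP x P).1 τ = (P.map S.subtype).eval (x.1 τ) := by
  rw [Polynomial.eval_map, evalP, Polynomial.coe_eval₂RingHom]
  exact Polynomial.hom_eval₂ P (constS S)
    ((Pi.evalRingHom (fun _ : ℍ ↦ ℂ) τ).comp (RingHom.fst _ _)) x

lemma evalP_snd (x : (ℍ → ℂ) × LaurentSeries S) (P : Polynomial S) :
    (evalP x P).2 = P.eval₂ HahnSeries.C x.2 :=
  Polynomial.hom_eval₂ P (constS S) (RingHom.snd _ _) x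

end Pairs

section BaseLevel

variable {M0 : ℕ} [NeZero M0] {S : Subring ℂ} {N' n : ℕ} [NeZero N'] [NeZero n]

/-- Functions invariant under `Γ(M₀)` and bounded at the other cusps are polynomials in `h`. -/
theorem exists_poly_of_bounded (hM : M0 = 2 ∨ M0 = 3) (hk : M0 * N' = n) {H : LaurentSeries S}
    (hH : (hh M0, H) ∈ sPairs S M0) (hlead : LeadAt H (-1)) (D : ℕ) {ψ : ℍ → ℂ}
    {G : LaurentSeries S} (hψ : (ψ, G) ∈ sPairs S n)
    (hinv : ∀ γ ∈ CongruenceSubgroup.Gamma M0, ∀ τ : ℍ, ψ (γ • τ) = ψ τ)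
    (hb : ∀ i, IsBoundedAtImInfty fun τ ↦ ψ (cuspRep0 M0 i • τ))
    (hhb : ∀ i, IsBoundedAtImInfty fun τ ↦ hh M0 (cuspRep0 M0 i • τ))
    (hD : GeOrd G (-((N' * D : ℕ) : ℤ))) :
    ∃ P : Polynomial S, P.natDegree ≤ D ∧ evalP (hh M0, qExpand S N' H) P = (ψ, G) := by
  have hper : ∀ {ψ : ℍ → ℂ} {G : LaurentSeries S}, (ψ, G) ∈ sPairs S n →
      (∀ γ ∈ CongruenceSubgroup.Gamma M0, ∀ τ : ℍ, ψ (γ • τ) = ψ τ) →
      ∀ i : ℤ, ¬ (N' : ℤ) ∣ i → G.coeff i = 0 := by
    intro ψ G hψ hinv i hi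
    refine Subtype.val_injective ?_
    have := coeff_eq_zero_of_periodic hk (mem_sPairs.mp hψ).2 (fun τ ↦ ?_) hi
    · simpa [coeffMap_coeff] using this
    have hT : ModularGroup.T ^ (M0 : ℤ) ∈ CongruenceSubgroup.Gamma M0 := by
      rw [CongruenceSubgroup.Gamma_mem]
      simp only [ModularGroup.coe_T_zpow]
      simp
    show ψ _ = ψ τ
    rw [← hinv _ hT τ, UpperHalfPlane.modular_T_zpow_smul, Int.cast_natCast]
  set H' := qExpand S N' H with hH'
  have hxH : (hh M0, H') ∈ sPairs S n := sPairs_refine hk hH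
  induction D generalizing ψ G with
  | zero =>
    simp only [mul_zero, Nat.cast_zero, neg_zero] at hD
    have h0 : IsBoundedAtImInfty ψ := (mem_sPairs.mp hψ).2.isBoundedAtImInfty fun k hk ↦ by
      rw [coeffMap_coeff, hD k hk, map_zero]
    have hall : ∀ σ : SL(2, ℤ), IsBoundedAtImInfty fun τ ↦ ψ (σ • τ) := by
      intro σ
      obtain ⟨γ, hγ, r, hr, k, hσ⟩ := exists_cusp_decomp hM σ
      have hbr : IsBoundedAtImInfty fun τ ↦ ψ (r • τ) := by
        rcases hr with rfl | ⟨i, rfl⟩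
        · simpa using h0
        · exact hb i
      refine (hbr.comp_tendsto (tendsto_T_zpow k)).congr_left fun τ ↦ ?_
      show ψ (r • (ModularGroup.T ^ k) • τ) = ψ (σ • τ)
      rw [hσ, hinv γ hγ]
    obtain ⟨c, hc⟩ := invariant_const hinv hψ.1 hall
    refine ⟨Polynomial.C (G.coeff 0), by simp, ?_⟩
    have h1 := (mem_sPairs.mp hψ).2
    rw [show ((ψ, G) : (ℍ → ℂ) × LaurentSeries S).1 = Function.const _ c from hc] at h1
    have h2 := h1.unique (HasExp.const c)
    have hcoef : ∀ i, ((G.coeff i : S) : ℂ) = (HahnSeries.C c : LaurentSeries ℂ).coeff i := fun i ↦ by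
      rw [← h2, coeffMap_coeff]; rfl
    have hG : G = HahnSeries.C (G.coeff 0) := by
      ext i
      rcases eq_or_ne i 0 with rfl | hi
      · simp
      · simpa [HahnSeries.C_apply, HahnSeries.coeff_single_of_ne hi] using hcoef i
    simp only [evalP, Polynomial.coe_eval₂RingHom, Polynomial.eval₂_C, constS, RingHom.prod_apply]
    refine Prod.ext ?_ hG.symm
    rw [hc]
    funext τ
    simpa [HahnSeries.C_apply] using hcoef 0
  | succ D ih =>
    obtain ⟨u, hu⟩ := hlead.2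
    set a : S := G.coeff (-((N' * (D + 1) : ℕ) : ℤ)) * ((u⁻¹ ^ (D + 1) : Sˣ) : S)
    have hx : evalP (hh M0, H') (Polynomial.C a * Polynomial.X ^ (D + 1)) ∈ sPairs S n :=
      evalP_mem hxH _
    set y := evalP (hh M0, H') (Polynomial.C a * Polynomial.X ^ (D + 1)) with hy
    have hy1 : ∀ τ, y.1 τ = (a : ℂ) * hh M0 τ ^ (D + 1) := fun τ ↦ by
      simp [hy, evalP_fst]
    have hy2 : y.2 = HahnSeries.C a * H' ^ (D + 1) := by simp [hy, evalP_snd]
    have hsub := (sPairs S n).sub_mem hψ hx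
    have hinv' : ∀ γ ∈ CongruenceSubgroup.Gamma M0, ∀ τ : ℍ, (ψ - y.1) (γ • τ) = (ψ - y.1) τ := by
      intro γ hγ τ
      simp only [Pi.sub_apply, hy1]
      rw [hinv γ hγ, hh_invariant hγ]
    have hb' : ∀ i, IsBoundedAtImInfty fun τ ↦ (ψ - y.1) (cuspRep0 M0 i • τ) := by
      intro i
      refine ((hb i).sub (?_ : IsBoundedAtImInfty fun τ ↦ y.1 (cuspRep0 M0 i • τ))).congr_left
        fun τ ↦ by simp
      simp only [hy1]
      exact ((Asymptotics.IsBigO.pow (hhb i) (D + 1)).congr_right fun _ ↦ by simp).const_mul_left _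
    have hN : (0 : ℤ) < N' := by exact_mod_cast Nat.pos_of_ne_zero (NeZero.ne N')
    have hH'g : GeOrd H' (-(N' : ℤ)) := by
      intro k hk
      by_cases hd : (N' : ℤ) ∣ k
      · obtain ⟨j, rfl⟩ := hd
        rw [hH', qExpand_coeff_mul]
        exact hlead.1 j (by nlinarith)
      · rw [hH']; exact qExpand_coeff_of_not_dvd N' H hd
    have hH'c : H'.coeff (-(N' : ℤ)) = u := by
      rw [hH', show -(N' : ℤ) = (N' : ℤ) * (-1) by ring, qExpand_coeff_mul, hu]
    have hG' : GeOrd (G - y.2) (-((N' * D : ℕ) : ℤ)) := by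
      intro k hk
      by_cases hd : (N' : ℤ) ∣ k
      swap
      · exact hper hsub hinv' k hd
      obtain ⟨j, rfl⟩ := hd
      have hj : j ≤ -((D + 1 : ℕ) : ℤ) := by
        push_cast at hk ⊢
        nlinarith
      have hp := geOrd_C a
      rw [HahnSeries.coeff_sub, hy2]
      rcases eq_or_lt_of_le hj with rfl | hj
      · rw [show (N' : ℤ) * -((D + 1 : ℕ) : ℤ) = 0 + ((D + 1 : ℕ) : ℤ) * -(N' : ℤ) by ring,
          hp.coeff_mul_add (hH'g.pow _), hH'g.coeff_pow, hH'c,
          show (0 : ℤ) + ((D + 1 : ℕ) : ℤ) * -(N' : ℤ) = -((N' * (D + 1) : ℕ) : ℤ) by push_cast; ring,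
          HahnSeries.C_apply, HahnSeries.coeff_single_same]
        simp only [a, Units.val_pow_eq_pow_val, mul_assoc, ← mul_pow, Units.inv_mul, one_pow, mul_one,
          sub_self]
      · rw [(hp.mul (hH'g.pow (D + 1))) _ (by push_cast at hj ⊢; nlinarith),
          hD _ (by push_cast at hj ⊢; nlinarith), sub_zero]
    obtain ⟨P, hP1, hP2⟩ := ih hsub hinv' hb' hG'
    refine ⟨P + Polynomial.C a * Polynomial.X ^ (D + 1), ?_, ?_⟩
    · refine (Polynomial.natDegree_add_le _ _).trans (max_le (hP1.trans (by omega)) ?_)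
      exact Polynomial.natDegree_C_mul_X_pow_le a _
    · rw [map_add, hP2, ← hy]
      exact sub_add_cancel _ y

/-- The main statement: clear the poles at the other cusps first. -/
theorem exists_poly_of_invariant (hM : M0 = 2 ∨ M0 = 3) (hk : M0 * N' = n) {H : LaurentSeries S}
    (hH : (hh M0, H) ∈ sPairs S M0) (hlead : LeadAt H (-1)) (c : Fin M0 → S)
    (hhb : ∀ i, IsBoundedAtImInfty fun τ ↦ hh M0 (cuspRep0 M0 i • τ))
    {φ : ℍ → ℂ} {G : LaurentSeries S} (hφ : (φ, G) ∈ sPairs S n)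
    (hinv : ∀ γ ∈ CongruenceSubgroup.Gamma M0, ∀ τ : ℍ, φ (γ • τ) = φ τ) (w : Fin M0 → ℕ)
    (hb : ∀ i, IsBoundedAtImInfty fun τ ↦
      φ (cuspRep0 M0 i • τ) * (hh M0 (cuspRep0 M0 i • τ) - (c i : ℂ)) ^ w i)
    {d : ℕ} (hd : GeOrd G (-((N' * d : ℕ) : ℤ))) :
    ∃ P : Polynomial S, P.natDegree ≤ d + ∑ i, w i ∧ evalP (hh M0, qExpand S N' H) P =
      (φ, G) * evalP (hh M0, qExpand S N' H) (∏ i, (Polynomial.X - Polynomial.C (c i)) ^ w i) := by
  set x : (ℍ → ℂ) × LaurentSeries S := (hh M0, qExpand S N' H)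
  have hx : x ∈ sPairs S n := sPairs_refine hk hH
  set Q := ∏ i, (Polynomial.X - Polynomial.C (c i)) ^ w i
  have hQ1 : ∀ τ, (evalP x Q).1 τ = ∏ i, (hh M0 τ - (c i : ℂ)) ^ w i := fun τ ↦ by
    rw [evalP_fst]; simp [Q, x, Polynomial.map_prod, Polynomial.eval_prod]
  have hmem := (sPairs S n).mul_mem hφ (evalP_mem hx Q)
  refine exists_poly_of_bounded hM hk hH hlead _ (ψ := φ * (evalP x Q).1) hmem ?_ ?_ hhb ?_
  · intro γ hγ τ
    simp only [Pi.mul_apply, hQ1]
    rw [hinv γ hγ, hh_invariant hγ]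
  · intro i
    have hrest : IsBoundedAtImInfty fun τ ↦
        ∏ k ∈ Finset.univ.erase i, (hh M0 (cuspRep0 M0 i • τ) - (c k : ℂ)) ^ w k := by
      refine Finset.induction_on (motive := fun s ↦ IsBoundedAtImInfty fun τ ↦
        ∏ k ∈ s, (hh M0 (cuspRep0 M0 i • τ) - (c k : ℂ)) ^ w k) _ ?_ fun k s hk ih ↦ ?_
      · exact (Filter.const_boundedAtFilter atImInfty (1 : ℂ)).congr_left fun τ ↦ by simp
      · simp only [Finset.prod_insert hk]
        refine Filter.BoundedAtFilter.mul ?_ ih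
        exact (Asymptotics.IsBigO.pow
          ((hhb i).sub (Filter.const_boundedAtFilter atImInfty (c k : ℂ))) (w k)).congr_right
          fun _ ↦ by simp
    refine ((hb i).mul hrest).congr_left fun τ ↦ ?_
    simp only [Pi.mul_apply, hQ1]
    rw [mul_assoc, Finset.mul_prod_erase _ (fun k ↦ (hh M0 (cuspRep0 M0 i • τ) - (c k : ℂ)) ^ w k)
      (Finset.mem_univ i)]
  · have hQ2 : GeOrd (evalP x Q).2 (-((N' * ∑ i, w i : ℕ) : ℤ)) := by
      rw [evalP_snd, Polynomial.eval₂_finsetProd, Finset.mul_sum, Nat.cast_sum, ← Finset.sum_neg_distrib]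
      refine Finset.induction_on (motive := fun s ↦ GeOrd (∏ i ∈ s, Polynomial.eval₂ HahnSeries.C x.2
        ((Polynomial.X - Polynomial.C (c i)) ^ w i)) (∑ i ∈ s, -((N' * w i : ℕ) : ℤ))) _ ?_ fun k s hk ih ↦ ?_
      · simpa using geOrd_one
      · rw [Finset.prod_insert hk, Finset.sum_insert hk]
        refine GeOrd.mul ?_ ih
        rw [Polynomial.eval₂_pow, Polynomial.eval₂_sub, Polynomial.eval₂_X, Polynomial.eval₂_C]
        have h1 : GeOrd (x.2 - HahnSeries.C (c k)) (-(N' : ℤ)) := by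
          intro j hj
          have hx2 : GeOrd x.2 (-(N' : ℤ)) := by
            intro j hj
            by_cases hd : (N' : ℤ) ∣ j
            · obtain ⟨l, rfl⟩ := hd
              simp only [x, qExpand_coeff_mul]
              refine hlead.1 l ?_
              nlinarith [Nat.pos_of_ne_zero (NeZero.ne N')]
            · exact qExpand_coeff_of_not_dvd N' H hd
          have := Nat.pos_of_ne_zero (NeZero.ne N')
          rw [HahnSeries.coeff_sub, hx2 j hj, geOrd_C (c k) j (by omega), sub_zero]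
        exact (h1.pow (w k)).mono (by push_cast; ring_nf; rfl)
    exact (hd.mul hQ2).mono (by push_cast; ring_nf; rfl)

end BaseLevel

end FLTAgent.GoodModel
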