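import Fermat.Agent.GoodModel.WDiff

/-!
The auxiliary modular function of level `M₀ ∈ {2, 3}` and its values at the cusps.
-/

set_option autoImplicit false
set_option linter.unreachableTactic false
set_option linter.unusedTactic false

noncomputable section

open UpperHalfPlane hiding I I_re I_im
open Filter Topology Complex Function FLTAgent.ModEq ModularCurve CongruenceSubgroup
open scoped MatrixGroups Manifold

namespace FLTAgent.GoodModel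

/-- Exact order with unit coefficient. -/
def LeadAt {R : Type*} [CommRing R] (G : LaurentSeries R) (k : ℤ) : Prop :=
  GeOrd G k ∧ IsUnit (G.coeff k)

section LeadAt

variable {R : Type*} [CommRing R]

lemma LeadAt.exists_eq {G : LaurentSeries R} {k : ℤ} (h : LeadAt G k) :
    ∃ Q : (PowerSeries R)ˣ,
      G = HahnSeries.single k 1 * HahnSeries.ofPowerSeries ℤ R (Q : PowerSeries R) := by
  obtain ⟨Q, hQ⟩ : ∃ Q : PowerSeries R,
      HahnSeries.single (-k) 1 * G = HahnSeries.ofPowerSeries ℤ R Q :=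
    GeOrd.exists_powerSeries fun i hi ↦ by
      rw [HahnSeries.coeff_single_mul, one_mul]
      exact h.1 _ (by omega)
  have hu : IsUnit Q := by
    rw [PowerSeries.isUnit_iff_constantCoeff, ← PowerSeries.coeff_zero_eq_constantCoeff,
      ← HahnSeries.ofPowerSeries_apply_coeff (Γ := ℤ), ← hQ, HahnSeries.coeff_single_mul, one_mul]
    simpa using h.2
  refine ⟨hu.unit, ?_⟩
  rw [IsUnit.unit_spec, ← hQ, ← mul_assoc, HahnSeries.single_mul_single, add_neg_cancel, one_mul,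
    HahnSeries.single_zero_one, one_mul]

lemma leadAt_single_mul (k : ℤ) (Q : (PowerSeries R)ˣ) :
    LeadAt (HahnSeries.single k 1 * HahnSeries.ofPowerSeries ℤ R (Q : PowerSeries R)) k := by
  refine ⟨fun i hi ↦ ?_, ?_⟩
  · rw [HahnSeries.coeff_single_mul, one_mul, ofPowerSeries_coeff_of_neg _ (by omega)]
  · rw [HahnSeries.coeff_single_mul, one_mul, sub_self, show (0 : ℤ) = ((0 : ℕ) : ℤ) from rfl,
      HahnSeries.ofPowerSeries_apply_coeff, PowerSeries.coeff_zero_eq_constantCoeff]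
    exact Q.isUnit.map _

lemma LeadAt.mul {G H : LaurentSeries R} {a b : ℤ} (hG : LeadAt G a) (hH : LeadAt H b) :
    LeadAt (G * H) (a + b) := by
  obtain ⟨P, rfl⟩ := hG.exists_eq
  obtain ⟨Q, rfl⟩ := hH.exists_eq
  rw [mul_mul_mul_comm, HahnSeries.single_mul_single, one_mul, ← map_mul, ← Units.val_mul]
  exact leadAt_single_mul _ _

lemma LeadAt.exists_inv {G : LaurentSeries R} {a : ℤ} (hG : LeadAt G a) :
    ∃ u : (LaurentSeries R)ˣ, (u : LaurentSeries R) = G ∧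
      LeadAt ((u⁻¹ : (LaurentSeries R)ˣ) : LaurentSeries R) (-a) := by
  obtain ⟨Q, rfl⟩ := hG.exists_eq
  refine ⟨⟨_, HahnSeries.single (-a) 1 * HahnSeries.ofPowerSeries ℤ R ((Q⁻¹ : (PowerSeries R)ˣ) :
    PowerSeries R), ?_, ?_⟩, rfl, leadAt_single_mul _ _⟩
  · rw [mul_mul_mul_comm, HahnSeries.single_mul_single, one_mul, add_neg_cancel, ← map_mul,
      ← Units.val_mul, mul_inv_cancel, Units.val_one, (map_one (HahnSeries.ofPowerSeries ℤ R)), HahnSeries.single_zero_one, one_mul]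
  · rw [mul_mul_mul_comm, HahnSeries.single_mul_single, one_mul, neg_add_cancel, ← map_mul,
      ← Units.val_mul, inv_mul_cancel, Units.val_one, (map_one (HahnSeries.ofPowerSeries ℤ R)), HahnSeries.single_zero_one, one_mul]

lemma leadAt_ofPowerSeries {P : PowerSeries R} {m : ℕ}
    (h0 : ∀ i < m, PowerSeries.coeff i P = 0) (hu : IsUnit (PowerSeries.coeff m P)) :
    LeadAt (HahnSeries.ofPowerSeries ℤ R P) m := by
  refine ⟨fun i hi ↦ ?_, by rwa [HahnSeries.ofPowerSeries_apply_coeff]⟩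
  rcases lt_or_ge i 0 with h | h
  · exact ofPowerSeries_coeff_of_neg _ h
  · lift i to ℕ using h
    rw [HahnSeries.ofPowerSeries_apply_coeff]
    exact h0 i (by omega)

end LeadAt

section Cusps

/-- Lower triangular unipotent matrices. -/
def lowT (i : ℤ) : SL(2, ℤ) := ⟨!![1, 0; i, 1], by simp [Matrix.det_fin_two]⟩

/-- Representatives of the cusps other than `∞`. -/
def cuspRep0 (M0 : ℕ) (i : Fin M0) : SL(2, ℤ) :=
  if (i : ℕ) = 0 then ModularGroup.S else lowT i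

/-- Every matrix is a representative times a translation, up to `±Γ(M₀)`. -/
lemma exists_cusp_decomp {M0 : ℕ} (hM : M0 = 2 ∨ M0 = 3) (σ : SL(2, ℤ)) :
    ∃ γ ∈ CongruenceSubgroup.Gamma M0, ∃ r : SL(2, ℤ), (r = 1 ∨ ∃ i : Fin M0, r = cuspRep0 M0 i) ∧ ∃ k : ℤ,
      ∀ τ : ℍ, σ • τ = γ • r • (ModularGroup.T ^ k) • τ := by
  have key : ∀ a b c d : ZMod M0, a * d - b * c = 1 → ∃ k s : ZMod M0, (s = 1 ∨ s = -1) ∧
      ((a = s ∧ b = s * k ∧ c = 0 ∧ d = s) ∨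
       (a = 0 ∧ b = -s ∧ c = s ∧ d = s * k) ∨
       ∃ i : Fin M0, (i : ℕ) ≠ 0 ∧
        (a = s ∧ b = s * k ∧ c = s * (i : ℕ) ∧ d = s * ((i : ℕ) * k + 1))) := by
    rcases hM with rfl | rfl <;> decide
  have hdet := congrArg (fun x : ℤ ↦ (x : ZMod M0)) (det_eq σ)
  push_cast at hdet
  obtain ⟨k, s, hs, hcase⟩ := key _ _ _ _ hdet
  obtain ⟨k, rfl⟩ := ZMod.intCast_surjective k
  have main : ∀ r : SL(2, ℤ),
      ((σ 0 0 : ℤ) : ZMod M0) = s * (r 0 0 : ℤ) →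
      ((σ 0 1 : ℤ) : ZMod M0) = s * (((r 0 0 : ℤ) : ZMod M0) * k + (r 0 1 : ℤ)) →
      ((σ 1 0 : ℤ) : ZMod M0) = s * (r 1 0 : ℤ) →
      ((σ 1 1 : ℤ) : ZMod M0) = s * (((r 1 0 : ℤ) : ZMod M0) * k + (r 1 1 : ℤ)) →
      ∃ γ ∈ CongruenceSubgroup.Gamma M0, ∀ τ : ℍ, σ • τ = γ • r • (ModularGroup.T ^ k) • τ := by
    intro r h00 h01 h10 h11
    obtain ⟨ε, hε, hεs⟩ : ∃ ε : SL(2, ℤ), (ε = 1 ∨ ε = -1) ∧
        ∀ (m : SL(2, ℤ)) (i j : Fin 2), (((ε * m) i j : ℤ) : ZMod M0) = s * ((m i j : ℤ) : ZMod M0) := by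
      rcases hs with rfl | rfl
      · exact ⟨1, Or.inl rfl, fun m i j ↦ by simp⟩
      · exact ⟨-1, Or.inr rfl, fun m i j ↦ by simp⟩
    set ρ := ε * (r * ModularGroup.T ^ k)
    have hmap : Matrix.SpecialLinearGroup.map (Int.castRingHom (ZMod M0)) σ =
        Matrix.SpecialLinearGroup.map (Int.castRingHom (ZMod M0)) ρ := by
      refine Subtype.ext (Matrix.ext fun i j ↦ ?_)
      change ((σ i j : ℤ) : ZMod M0) = ((ρ i j : ℤ) : ZMod M0)
      simp only [ρ, hεs]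
      fin_cases i <;> fin_cases j <;>
        simp [Matrix.SpecialLinearGroup.coe_mul, Matrix.mul_apply, Fin.sum_univ_two,
          ModularGroup.coe_T_zpow, h00, h01, h10, h11]
    refine ⟨σ * ρ⁻¹, CongruenceSubgroup.Gamma_mem'.mpr ?_, fun τ ↦ ?_⟩
    · rw [map_mul, map_inv, hmap, mul_inv_cancel]
    · have hρ : r • ModularGroup.T ^ k • τ = ρ • τ := by
        rcases hε with rfl | rfl <;> simp [ρ, mul_smul]
      rw [hρ, ← mul_smul, inv_mul_cancel_right]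
  rcases hcase with ⟨e1, e2, e3, e4⟩ | ⟨e1, e2, e3, e4⟩ | ⟨i, hi, e1, e2, e3, e4⟩
  · obtain ⟨γ, hγ, h⟩ := main 1 (by simp [e1]) (by simp [e2]) (by simp [e3]) (by simp [e4])
    exact ⟨γ, hγ, 1, Or.inl rfl, k, h⟩
  · have h0 : 0 < M0 := by omega
    obtain ⟨γ, hγ, h⟩ := main ModularGroup.S (by simp [ModularGroup.S, e1])
      (by simp [ModularGroup.S, e2]) (by simp [ModularGroup.S, e3]) (by simp [ModularGroup.S, e4])
    exact ⟨γ, hγ, _, Or.inr ⟨⟨0, h0⟩, by simp [cuspRep0]⟩, k, h⟩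
  · obtain ⟨γ, hγ, h⟩ := main (lowT i) (by simp [lowT, e1]) (by simp [lowT, e2])
      (by simp [lowT, e3]) (by simp [lowT, e4])
    exact ⟨γ, hγ, _, Or.inr ⟨i, by simp [cuspRep0, hi]⟩, k, h⟩

end Cusps

/-- The auxiliary function. -/
def hh (M0 : ℕ) (τ : ℍ) : ℂ := wdiff M0 (0, 1) (1, 1) τ / wdiff M0 (1, 0) (1, 1) τ

variable {M0 : ℕ} [NeZero M0]

lemma base_nz (hM : M0 = 2 ∨ M0 = 3) :
    Nz M0 (0, 1) ∧ Nz M0 (1, 1) ∧ Nz M0 (1, 0) ∧ ¬ PMEq M0 (1, 0) (1, 1) := by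
  rcases hM with rfl | rfl <;> simp [Nz, PMEq, VEq] <;> decide

lemma hden_ne (hM : M0 = 2 ∨ M0 = 3) (σ : SL(2, ℤ)) (τ : ℍ) :
    wdiff M0 (vmul (1, 0) σ) (vmul (1, 1) σ) τ ≠ 0 := by
  obtain ⟨-, h2, h3, h4⟩ := base_nz hM
  rw [Ne, wdiff_eq_zero_iff (h3.vmul σ) (h2.vmul σ), PMEq.vmul_iff]
  exact h4

lemma hh_smul (σ : SL(2, ℤ)) (τ : ℍ) :
    hh M0 (σ • τ) = wdiff M0 (vmul (0, 1) σ) (vmul (1, 1) σ) τ /
      wdiff M0 (vmul (1, 0) σ) (vmul (1, 1) σ) τ := by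
  simp only [hh, wdiff_smul]
  exact mul_div_mul_left _ _ (pow_ne_zero 2 (den_ne_zero σ τ))

omit [NeZero M0] in
lemma mem_Gamma_vEq {γ : SL(2, ℤ)} (hγ : γ ∈ CongruenceSubgroup.Gamma M0) (v : Vec) : VEq M0 (vmul v γ) v := by
  obtain ⟨h00, h01, h10, h11⟩ := CongruenceSubgroup.Gamma_mem.mp hγ
  constructor <;> simp [vmul, h00, h01, h10, h11]

lemma hh_invariant {γ : SL(2, ℤ)} (hγ : γ ∈ CongruenceSubgroup.Gamma M0) (τ : ℍ) : hh M0 (γ • τ) = hh M0 τ := by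
  rw [hh_smul, hh]
  congr 1 <;> exact congrFun (wdiff_congr (Or.inl (mem_Gamma_vEq hγ _)) (Or.inl (mem_Gamma_vEq hγ _))) τ

lemma mdiff_hh (hM : M0 = 2 ∨ M0 = 3) : MDiff (hh M0) := by
  obtain ⟨h1, h2, h3, -⟩ := base_nz hM
  have hne : ∀ τ, wdiff M0 (1, 0) (1, 1) τ ≠ 0 := fun τ ↦ by simpa [vmul_one] using hden_ne hM 1 τ
  have := mdiff_wdiff h1 h2
  have hd := mdiff_inv' (mdiff_wdiff h3 h2) hne
  rw [UpperHalfPlane.mdifferentiable_iff] at this hd ⊢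
  exact (this.mul hd).congr fun z _ ↦ by simp [hh, div_eq_mul_inv]

variable {S : Subring ℂ} (ζ : Sˣ)

/-- A quotient of differences at canonical vectors. -/
theorem exists_ratio (hζ : ((ζ : S) : ℂ) = zetaN M0) (hu : IsUnit ((M0 : ℕ) : S))
    {a₁ a₂ a₃ a₄ : ℕ} {b₁ b₂ b₃ b₄ : ℤ} (h₁ : Canon M0 a₁ b₁) (h₂ : Canon M0 a₂ b₂)
    (h₃ : Canon M0 a₃ b₃) (h₄ : Canon M0 a₄ b₄)
    (hne : ¬ PMEq M0 ((a₁ : ℤ), b₁) ((a₂ : ℤ), b₂)) (hne' : ¬ PMEq M0 ((a₃ : ℤ), b₃) ((a₄ : ℤ), b₄)) :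
    ∃ G : LaurentSeries S,
      ((fun τ ↦ wdiff M0 ((a₁ : ℤ), b₁) ((a₂ : ℤ), b₂) τ / wdiff M0 ((a₃ : ℤ), b₃) ((a₄ : ℤ), b₄) τ),
        G) ∈ sPairs S M0 ∧
      LeadAt G ((min a₁ a₂ : ℕ) - (min a₃ a₄ : ℕ) : ℤ) := by
  obtain ⟨P, hP, hP1, hP2⟩ := exists_wdiff_canon ζ hζ hu h₁ h₂ hne
  obtain ⟨Q, hQ, hQ1, hQ2⟩ := exists_wdiff_canon ζ hζ hu h₃ h₄ hne'
  obtain ⟨u, hu', hlead⟩ := (leadAt_ofPowerSeries hQ1 hQ2).exists_inv
  have h0 : ∀ τ, wdiff M0 ((a₃ : ℤ), b₃) ((a₄ : ℤ), b₄) τ ≠ 0 := fun τ h ↦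
    hne' ((wdiff_eq_zero_iff h₃.nz h₄.nz τ).mp h)
  refine ⟨HahnSeries.ofPowerSeries ℤ S P * (u⁻¹ : (LaurentSeries S)ˣ), ?_, ?_⟩
  · have := (sPairs S M0).mul_mem hP (sPairs_inv u (hu' ▸ hQ) h0)
    simpa [div_eq_mul_inv, Pi.mul_def] using this
  · rw [sub_eq_add_neg]
    exact (leadAt_ofPowerSeries hP1 hP2).mul hlead

/-- A translate of `h` through canonical vectors. -/
theorem exists_hh_translate (hζ : ((ζ : S) : ℂ) = zetaN M0) (hu : IsUnit ((M0 : ℕ) : S))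
    {σ : SL(2, ℤ)} {a₁ a₂ a₃ : ℕ} {b₁ b₂ b₃ : ℤ}
    (h₁ : Canon M0 a₁ b₁) (h₂ : Canon M0 a₂ b₂) (h₃ : Canon M0 a₃ b₃)
    (e₁ : PMEq M0 (vmul (0, 1) σ) ((a₁ : ℤ), b₁)) (e₂ : PMEq M0 (vmul (1, 1) σ) ((a₂ : ℤ), b₂))
    (e₃ : PMEq M0 (vmul (1, 0) σ) ((a₃ : ℤ), b₃))
    (n₁₂ : ¬ PMEq M0 ((a₁ : ℤ), b₁) ((a₂ : ℤ), b₂)) (n₁₃ : ¬ PMEq M0 ((a₁ : ℤ), b₁) ((a₃ : ℤ), b₃))
    (n₃₂ : ¬ PMEq M0 ((a₃ : ℤ), b₃) ((a₂ : ℤ), b₂)) :
    ∃ G : LaurentSeries S, ((fun τ ↦ hh M0 (σ • τ)), G) ∈ sPairs S M0 ∧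
      LeadAt G ((min a₁ a₂ : ℕ) - (min a₃ a₂ : ℕ) : ℤ) ∧
      LeadAt (G - 1) ((min a₁ a₃ : ℕ) - (min a₃ a₂ : ℕ) : ℤ) := by
  obtain ⟨G, hG, hG'⟩ := exists_ratio ζ hζ hu h₁ h₂ h₃ h₂ n₁₂ n₃₂
  obtain ⟨H, hH, hH'⟩ := exists_ratio ζ hζ hu h₁ h₃ h₃ h₂ n₁₃ n₃₂
  have hf : (fun τ ↦ hh M0 (σ • τ)) =
      fun τ ↦ wdiff M0 ((a₁ : ℤ), b₁) ((a₂ : ℤ), b₂) τ / wdiff M0 ((a₃ : ℤ), b₃) ((a₂ : ℤ), b₂) τ := by
    funext τ
    rw [hh_smul, wdiff_congr e₁ e₂, wdiff_congr e₃ e₂]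
  have hGH : sIncl S H = sIncl S (G - 1) := by
    refine (mem_sPairs.mp hH).2.unique ?_
    rw [map_sub, map_one]
    refine (hasExp_sub (mem_sPairs.mp hG).2 HasExp.one).congr (Eventually.of_forall fun τ ↦ ?_)
    simp only [Pi.sub_apply, Pi.one_apply]
    have h0 : wdiff M0 ((a₃ : ℤ), b₃) ((a₂ : ℤ), b₂) τ ≠ 0 := fun h ↦
      n₃₂ ((wdiff_eq_zero_iff h₃.nz h₂.nz τ).mp h)
    rw [div_sub_one h0, wdiff, wdiff, wdiff, ← sub_div, sub_sub_sub_cancel_right]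
  exact ⟨G, hf ▸ hG, hG', sIncl_injective hGH ▸ hH'⟩

/-- The expansion of `h` at `∞`: a simple pole. -/
theorem exists_hh_series (hM : M0 = 2 ∨ M0 = 3) (hζ : ((ζ : S) : ℂ) = zetaN M0)
    (hu : IsUnit ((M0 : ℕ) : S)) :
    ∃ H : LaurentSeries S, (hh M0, H) ∈ sPairs S M0 ∧ LeadAt H (-1) := by
  obtain ⟨G, hG, h1, -⟩ := exists_hh_translate ζ hζ hu (σ := 1)
    (a₁ := 0) (b₁ := 1) (a₂ := 1) (b₂ := 1) (a₃ := 1) (b₃ := 0)
    (by rcases hM with rfl | rfl <;> simp [Canon]) (by rcases hM with rfl | rfl <;> simp [Canon])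
    (by rcases hM with rfl | rfl <;> simp [Canon])
    (Or.inl (by simp [vmul_one, VEq])) (Or.inl (by simp [vmul_one, VEq]))
    (Or.inl (by simp [vmul_one, VEq]))
    (by rcases hM with rfl | rfl <;> simp [PMEq, VEq] <;> decide)
    (by rcases hM with rfl | rfl <;> simp [PMEq, VEq] <;> decide)
    (by rcases hM with rfl | rfl <;> simp [PMEq, VEq] <;> decide)
  exact ⟨G, by simpa using hG, by simpa using h1⟩

/-- The values of `h` at the other cusps. -/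
theorem exists_cuspValues (hM : M0 = 2 ∨ M0 = 3) (hζ : ((ζ : S) : ℂ) = zetaN M0)
    (hu : IsUnit ((M0 : ℕ) : S)) :
    ∃ c : Fin M0 → S, (∀ i j, i ≠ j → IsUnit (c i - c j)) ∧
      ∀ i, ∃ G : LaurentSeries S,
        ((fun τ ↦ hh M0 (cuspRep0 M0 i • τ) - (c i : ℂ)), G) ∈ sPairs S M0 ∧ GeOrd G 1 := by
  have sub_const : ∀ {f : ℍ → ℂ} {G : LaurentSeries S} (d : S), (f, G) ∈ sPairs S M0 →
      ((fun τ ↦ f τ - (d : ℂ)), G - HahnSeries.C d) ∈ sPairs S M0 := fun d h ↦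
    (sPairs S M0).sub_mem h (sPairs_const d)
  rcases hM with rfl | rfl
  · refine ⟨![0, 1], fun i j hij ↦ ?_, fun i ↦ ?_⟩
    · fin_cases i <;> fin_cases j <;> simp_all
    fin_cases i
    · obtain ⟨G, hG, h1, -⟩ := exists_hh_translate ζ hζ hu (σ := cuspRep0 2 0)
        (a₁ := 1) (b₁ := 0) (a₂ := 1) (b₂ := 1) (a₃ := 0) (b₃ := 1)
        (by simp [Canon]) (by simp [Canon]) (by simp [Canon])
        (Or.inl (by simp [VEq, vmul, cuspRep0, ModularGroup.S] <;> decide))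
        (Or.inl (by simp [VEq, vmul, cuspRep0, ModularGroup.S] <;> decide))
        (Or.inl (by simp [VEq, vmul, cuspRep0, ModularGroup.S] <;> decide))
        (by simp [PMEq, VEq] <;> decide) (by simp [PMEq, VEq] <;> decide) (by simp [PMEq, VEq] <;> decide)
      exact ⟨G, by simpa using hG, by simpa using h1.1⟩
    · obtain ⟨G, hG, -, h1⟩ := exists_hh_translate ζ hζ hu (σ := cuspRep0 2 1)
        (a₁ := 1) (b₁ := 1) (a₂ := 0) (b₂ := 1) (a₃ := 1) (b₃ := 0)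
        (by simp [Canon]) (by simp [Canon]) (by simp [Canon])
        (Or.inl (by simp [VEq, vmul, cuspRep0, lowT] <;> decide))
        (Or.inl (by simp [VEq, vmul, cuspRep0, lowT] <;> decide))
        (Or.inl (by simp [VEq, vmul, cuspRep0, lowT] <;> decide))
        (by simp [PMEq, VEq] <;> decide) (by simp [PMEq, VEq] <;> decide) (by simp [PMEq, VEq] <;> decide)
      exact ⟨G - HahnSeries.C 1, sub_const 1 hG, by simpa using h1.1⟩
  · obtain ⟨G, hG, h1, h2⟩ := exists_hh_translate ζ hζ hu (σ := cuspRep0 3 1)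
        (a₁ := 1) (b₁ := 1) (a₂ := 1) (b₂ := -1) (a₃ := 1) (b₃ := 0)
        (by simp [Canon]) (by simp [Canon]) (by simp [Canon])
        (Or.inl (by simp [VEq, vmul, cuspRep0, lowT] <;> decide))
        (Or.inr (by simp [VEq, vmul, cuspRep0, lowT] <;> decide))
        (Or.inl (by simp [VEq, vmul, cuspRep0, lowT] <;> decide))
        (by simp [PMEq, VEq] <;> decide) (by simp [PMEq, VEq] <;> decide) (by simp [PMEq, VEq] <;> decide)
    simp only [min_self, sub_self] at h1 h2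
    set e := G.coeff 0 with he
    have he1 : IsUnit (e - 1) := by simpa [he] using h2.2
    refine ⟨![0, e, 1], fun i j hij ↦ ?_, fun i ↦ ?_⟩
    · fin_cases i <;> fin_cases j <;> simp_all [h1.2]
      exact IsUnit.sub_iff.mp he1
    fin_cases i
    · obtain ⟨G', hG', h1', -⟩ := exists_hh_translate ζ hζ hu (σ := cuspRep0 3 0)
        (a₁ := 1) (b₁ := 0) (a₂ := 1) (b₂ := -1) (a₃ := 0) (b₃ := -1)
        (by simp [Canon]) (by simp [Canon]) (by simp [Canon])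
        (Or.inl (by simp [VEq, vmul, cuspRep0, ModularGroup.S] <;> decide))
        (Or.inl (by simp [VEq, vmul, cuspRep0, ModularGroup.S] <;> decide))
        (Or.inl (by simp [VEq, vmul, cuspRep0, ModularGroup.S] <;> decide))
        (by simp [PMEq, VEq] <;> decide) (by simp [PMEq, VEq] <;> decide) (by simp [PMEq, VEq] <;> decide)
      exact ⟨G', by simpa using hG', by simpa using h1'.1⟩
    · refine ⟨G - HahnSeries.C e, sub_const e hG, fun i hi ↦ ?_⟩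
      rcases eq_or_ne i 0 with rfl | hi0
      · simp [he]
      · simp [HahnSeries.C_apply, HahnSeries.coeff_single_of_ne hi0, h1.1 i (by omega)]
    · obtain ⟨G', hG', -, h1'⟩ := exists_hh_translate ζ hζ hu (σ := cuspRep0 3 2)
        (a₁ := 1) (b₁ := -1) (a₂ := 0) (b₂ := 1) (a₃ := 1) (b₃ := 0)
        (by simp [Canon]) (by simp [Canon]) (by simp [Canon])
        (Or.inr (by simp [VEq, vmul, cuspRep0, lowT] <;> decide))
        (Or.inl (by simp [VEq, vmul, cuspRep0, lowT] <;> decide))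
        (Or.inl (by simp [VEq, vmul, cuspRep0, lowT] <;> decide))
        (by simp [PMEq, VEq] <;> decide) (by simp [PMEq, VEq] <;> decide) (by simp [PMEq, VEq] <;> decide)
      exact ⟨G' - HahnSeries.C 1, sub_const 1 hG', by simpa using h1'.1⟩

end FLTAgent.GoodModel
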