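import Mathlib

/-!
Interpolation at finitely many points with unit differences in a commutative ring.
-/

set_option autoImplicit false

noncomputable section

open Polynomial

namespace FLTAgent.GoodModel

variable {A B : Type*} [CommRing A] [CommRing B]

/-- The node polynomial. -/
def nod (V : Finset A) : A[X] := ∏ v ∈ V, (X - C v)

lemma monic_nod (V : Finset A) : (nod V).Monic := monic_prod_of_monic _ _ fun v _ ↦ monic_X_sub_C v

lemma eval_nod_eq_zero {V : Finset A} {v : A} (hv : v ∈ V) : (nod V).eval v = 0 := by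
  rw [nod, eval_prod]
  exact Finset.prod_eq_zero hv (by simp)

lemma eval_derivative_nod [DecidableEq A] {V : Finset A} {v : A} (hv : v ∈ V) :
    (derivative (nod V)).eval v = ∏ u ∈ V.erase v, (v - u) := by
  rw [nod, derivative_prod_finset, eval_finsetSum, Finset.sum_eq_single v]
  · simp [eval_prod]
  · intro b _ hb
    rw [eval_mul, eval_prod, Finset.prod_eq_zero (Finset.mem_erase.mpr ⟨hb.symm, hv⟩) (by simp),
      zero_mul]
  · exact fun h ↦ absurd hv h

/-- Pairwise differences are units. -/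
def Sep (V : Finset A) : Prop := ∀ u ∈ V, ∀ v ∈ V, u ≠ v → IsUnit (u - v)

variable [DecidableEq A]

lemma Sep.isUnit_prod {V : Finset A} (hV : Sep V) {v : A} (hv : v ∈ V) :
    IsUnit (∏ u ∈ V.erase v, (v - u)) := by
  refine IsUnit.prod_iff.mpr fun u hu ↦ ?_
  exact hV v hv u (Finset.mem_of_mem_erase hu) (Finset.ne_of_mem_erase hu).symm

/-- The interpolation polynomial. -/
def interp (V : Finset A) (val : A → A) : A[X] :=
  ∑ v ∈ V, C (val v * Ring.inverse (∏ u ∈ V.erase v, (v - u))) * nod (V.erase v)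

lemma eval_interp {V : Finset A} (hV : Sep V) (val : A → A) {w : A} (hw : w ∈ V) :
    (interp V val).eval w = val w := by
  rw [interp, eval_finsetSum, Finset.sum_eq_single w]
  · rw [eval_mul, eval_C, nod, eval_prod]
    simp only [eval_sub, eval_X, eval_C]
    rw [mul_assoc, Ring.inverse_mul_cancel _ (hV.isUnit_prod hw), mul_one]
  · intro b _ hb
    rw [eval_mul, eval_nod_eq_zero (Finset.mem_erase.mpr ⟨hb.symm, hw⟩), mul_zero]
  · exact fun h ↦ absurd hw h

omit [DecidableEq A] in
lemma nod_dvd {V : Finset A} (hV : Sep V) {p : A[X]} (hp : ∀ v ∈ V, p.eval v = 0) : nod V ∣ p := by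
  refine Finset.prod_dvd_of_coprime (fun u hu v hv huv ↦ ?_) fun v hv ↦ dvd_iff_isRoot.mpr (hp v hv)
  exact Polynomial.isCoprime_X_sub_C_of_isUnit_sub (hV u hu v hv huv)

/-- Values of the Bézout coefficient of the derivative. -/
def bval (V : Finset A) (v : A) : A := Ring.inverse (∏ u ∈ V.erase v, (v - u))

/-- The Bézout coefficient of the derivative. -/
def bezB (V : Finset A) : A[X] := interp V (bval V)

/-- The Bézout coefficient of the node polynomial. -/
def bezA (V : Finset A) : A[X] := (1 - bezB V * derivative (nod V)) /ₘ nod V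

lemma bez_eq {V : Finset A} (hV : Sep V) :
    bezA V * nod V + bezB V * derivative (nod V) = 1 := by
  have hd : nod V ∣ 1 - bezB V * derivative (nod V) := nod_dvd hV fun v hv ↦ by
    rw [eval_sub, eval_one, eval_mul, bezB, eval_interp hV _ hv, eval_derivative_nod hv, bval,
      Ring.inverse_mul_cancel _ (hV.isUnit_prod hv), sub_self]
  have h := modByMonic_add_div (1 - bezB V * derivative (nod V)) (nod V)
  rw [(modByMonic_eq_zero_iff_dvd (monic_nod V)).mpr hd, zero_add] at h
  rw [bezA, mul_comm, h, sub_add_cancel]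

variable [DecidableEq B] (φ : A →+* B) {V : Finset A}

omit [DecidableEq A] [DecidableEq B] in
lemma map_inverse_of_isUnit {x : A} (hx : IsUnit x) :
    φ (Ring.inverse x) = Ring.inverse (φ x) := by
  obtain ⟨u, rfl⟩ := hx
  rw [Ring.inverse_unit, ← MonoidHom.coe_coe, ← Units.coe_map, ← Units.coe_map, Ring.inverse_unit,
    map_inv]

omit [DecidableEq A] in
lemma nod_map (hinj : Set.InjOn φ V) : (nod V).map φ = nod (V.image φ) := by
  rw [nod, nod, Polynomial.map_prod, Finset.prod_image hinj]
  simp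

lemma image_erase_of_injOn (hinj : Set.InjOn φ V) {v : A} (hv : v ∈ V) :
    (V.erase v).image φ = (V.image φ).erase (φ v) := by
  ext b
  simp only [Finset.mem_image, Finset.mem_erase]
  constructor
  · rintro ⟨a, ⟨hne, ha⟩, rfl⟩
    exact ⟨fun h ↦ hne (hinj ha hv h), a, ha, rfl⟩
  · rintro ⟨hne, a, ha, rfl⟩
    exact ⟨a, ⟨fun h ↦ hne (by rw [h]), ha⟩, rfl⟩

lemma prod_sub_map (hinj : Set.InjOn φ V) {v : A} (hv : v ∈ V) :
    φ (∏ u ∈ V.erase v, (v - u)) = ∏ u ∈ (V.image φ).erase (φ v), (φ v - u) := by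
  rw [map_prod, ← image_erase_of_injOn φ hinj hv,
    Finset.prod_image (hinj.mono (by simp))]
  simp

lemma interp_map (hV : Sep V) (hinj : Set.InjOn φ V) {val : A → A} {val' : B → B}
    (h : ∀ v ∈ V, val' (φ v) = φ (val v)) :
    (interp V val).map φ = interp (V.image φ) val' := by
  rw [interp, interp, Polynomial.map_sum, Finset.sum_image hinj]
  refine Finset.sum_congr rfl fun v hv ↦ ?_
  rw [Polynomial.map_mul, map_C, map_mul, map_inverse_of_isUnit φ (hV.isUnit_prod hv),
    prod_sub_map φ hinj hv, ← h v hv, ← image_erase_of_injOn φ hinj hv,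
    nod_map φ (hinj.mono (by simp))]

lemma bezB_map (hV : Sep V) (hinj : Set.InjOn φ V) : (bezB V).map φ = bezB (V.image φ) := by
  refine interp_map φ hV hinj fun v hv ↦ ?_
  rw [bval, bval, map_inverse_of_isUnit φ (hV.isUnit_prod hv), prod_sub_map φ hinj hv]

lemma bezA_map (hV : Sep V) (hinj : Set.InjOn φ V) : (bezA V).map φ = bezA (V.image φ) := by
  rw [bezA, bezA, map_divByMonic φ (monic_nod V), Polynomial.map_sub, Polynomial.map_one,
    Polynomial.map_mul, ← derivative_map, bezB_map φ hV hinj, nod_map φ hinj]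

/-- Two homomorphisms with the same image of the nodes give the same polynomials. -/
theorem interp_map_eq {ψ : A →+* B} (hV : Sep V) (h1 : Set.InjOn φ V) (h2 : Set.InjOn ψ V)
    (himg : V.image φ = V.image ψ) {val : A → A} {val' : B → B}
    (e1 : ∀ v ∈ V, val' (φ v) = φ (val v)) (e2 : ∀ v ∈ V, val' (ψ v) = ψ (val v)) :
    (nod V).map φ = (nod V).map ψ ∧ (bezA V).map φ = (bezA V).map ψ ∧
      (bezB V).map φ = (bezB V).map ψ ∧ (interp V val).map φ = (interp V val).map ψ := by
  refine ⟨?_, ?_, ?_, ?_⟩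
  · rw [nod_map φ h1, nod_map ψ h2, himg]
  · rw [bezA_map φ hV h1, bezA_map ψ hV h2, himg]
  · rw [bezB_map φ hV h1, bezB_map ψ hV h2, himg]
  · rw [interp_map φ hV h1 e1, interp_map ψ hV h2 e2, himg]

end FLTAgent.GoodModel
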