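import Fermat.Agent.GoodModel.Base

/-!
The functions `τ ↦ j(d τ / M₀)` and their translates.
-/

set_option autoImplicit false

noncomputable section

open UpperHalfPlane hiding I I_re I_im
open Filter Topology Complex Function FLTAgent.ModEq ModularCurve
open scoped MatrixGroups Manifold

namespace FLTAgent.GoodModel

/-- `τ ↦ j(d τ / M₀)`. -/
def jd (M0 d : ℕ) [NeZero M0] [NeZero d] (τ : ℍ) : ℂ := jFun (affPt d 0 M0 τ)

lemma coe_sl_smul' (γ : SL(2, ℤ)) (z : ℍ) :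
    ((γ • z : ℍ) : ℂ) = (((γ 0 0 : ℤ) : ℂ) * z + ((γ 0 1 : ℤ) : ℂ)) / (((γ 1 0 : ℤ) : ℂ) * z + ((γ 1 1 : ℤ) : ℂ)) := by
  rw [UpperHalfPlane.coe_specialLinearGroup_apply]
  simp

lemma affPt_mul (A : ℕ) (B : ℤ) (D g : ℕ) [NeZero A] [NeZero D] [NeZero g] :
    haveI : NeZero (g * A) := ⟨Nat.mul_ne_zero (NeZero.ne g) (NeZero.ne A)⟩
    haveI : NeZero (g * D) := ⟨Nat.mul_ne_zero (NeZero.ne g) (NeZero.ne D)⟩
    affPt (g * A) (g * B) (g * D) = affPt A B D := by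
  funext τ
  refine UpperHalfPlane.ext ?_
  have hg : (g : ℂ) ≠ 0 := Nat.cast_ne_zero.mpr (NeZero.ne g)
  have hD : (D : ℂ) ≠ 0 := Nat.cast_ne_zero.mpr (NeZero.ne D)
  simp only [coe_affPt]
  push_cast
  field_simp

lemma affPt_eq_of_mul {A A' : ℕ} {D D' : ℕ} [NeZero A] [NeZero D] [NeZero A'] [NeZero D']
    (g : ℕ) (hA : A = g * A') (hD : D = g * D') : affPt A 0 D = affPt A' 0 D' := by
  have hg : NeZero g := ⟨by rintro rfl; exact NeZero.ne A (by simp [hA])⟩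
  subst hA hD
  simpa using affPt_mul A' 0 D' g

/-- A translate of a diagonal substitution is triangular. -/
lemma exists_affPt_smul (A₀ D₀ : ℕ) [NeZero A₀] [NeZero D₀] (σ : SL(2, ℤ)) :
    ∃ (A D : ℕ) (B : ℤ) (δ : SL(2, ℤ)) (_ : NeZero A) (_ : NeZero D), A * D = A₀ * D₀ ∧
      ∀ τ : ℍ, affPt A₀ 0 D₀ (σ • τ) = δ • affPt A B D τ := by
  have hdet := det_eq σ
  have hA0 : (0 : ℤ) < A₀ := by exact_mod_cast Nat.pos_of_ne_zero (NeZero.ne A₀)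
  have hD0 : (0 : ℤ) < D₀ := by exact_mod_cast Nat.pos_of_ne_zero (NeZero.ne D₀)
  set x₁ : ℤ := A₀ * σ 0 0 with hx₁
  set x₂ : ℤ := A₀ * σ 0 1 with hx₂
  set y₁ : ℤ := D₀ * σ 1 0 with hy₁
  set y₂ : ℤ := D₀ * σ 1 1 with hy₂
  have hxy : x₁ * y₂ - x₂ * y₁ = A₀ * D₀ := by
    rw [hx₁, hx₂, hy₁, hy₂]
    linear_combination ((A₀ : ℤ) * D₀) * hdet
  obtain ⟨A, hAdef⟩ : ∃ A : ℕ, A = Int.gcd x₁ y₁ := ⟨_, rfl⟩
  have hA : A ≠ 0 := by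
    rw [hAdef, ne_eq, Int.gcd_eq_zero_iff]
    rintro ⟨h1, h2⟩
    rw [h1, h2] at hxy
    nlinarith
  obtain ⟨r, hr⟩ : (A : ℤ) ∣ x₁ := hAdef ▸ Int.gcd_dvd_left _ _
  obtain ⟨s, hs⟩ : (A : ℤ) ∣ y₁ := hAdef ▸ Int.gcd_dvd_right _ _
  have hgcd := Int.gcd_eq_gcd_ab x₁ y₁
  rw [← hAdef] at hgcd
  set w := Int.gcdA x₁ y₁
  set x := -Int.gcdB x₁ y₁ with hx
  have hbez : r * w - x * s = 1 := by
    refine mul_left_cancel₀ (show (A : ℤ) ≠ 0 by exact_mod_cast hA) ?_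
    linear_combination -hgcd - w * hr - Int.gcdB x₁ y₁ * hs - ((A : ℤ) * s) * hx
  set e : ℤ := r * y₂ - s * x₂ with he
  have hAe : (A : ℤ) * e = A₀ * D₀ := by
    linear_combination hxy - y₂ * hr + x₂ * hs + (A : ℤ) * he
  have hepos : 0 < e := by
    have : (0 : ℤ) < A := by exact_mod_cast Nat.pos_of_ne_zero hA
    nlinarith
  lift e to ℕ using hepos.le with D
  have hD : D ≠ 0 := by omega
  have : NeZero A := ⟨hA⟩
  have : NeZero D := ⟨hD⟩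
  obtain ⟨δ, d00, d01, d10, d11⟩ : ∃ δ : SL(2, ℤ), δ 0 0 = r ∧ δ 0 1 = x ∧ δ 1 0 = s ∧ δ 1 1 = w :=
    ⟨⟨!![r, x; s, w], by rw [Matrix.det_fin_two_of]; exact hbez⟩, rfl, rfl, rfl, rfl⟩
  refine ⟨A, D, w * x₂ - x * y₂, δ, ‹_›, ‹_›, by exact_mod_cast hAe, fun τ ↦ ?_⟩
  refine UpperHalfPlane.ext ?_
  have hB2 : s * (w * x₂ - x * y₂) + w * (D : ℤ) = y₂ := by
    linear_combination w * he + y₂ * hbez
  have hB1 : r * (w * x₂ - x * y₂) + x * (D : ℤ) = x₂ := by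
    linear_combination x * he + x₂ * hbez
  rw [coe_sl_smul' δ, d00, d01, d10, d11, coe_affPt, coe_affPt, coe_sl_smul' σ]
  have hD' : (D : ℂ) ≠ 0 := Nat.cast_ne_zero.mpr hD
  have hD0' : (D₀ : ℂ) ≠ 0 := Nat.cast_ne_zero.mpr (NeZero.ne D₀)
  have hden : ((σ 1 0 : ℤ) : ℂ) * τ + (σ 1 1 : ℤ) ≠ 0 := den_ne_zero σ τ
  have h1 : (A₀ : ℂ) * (σ 0 0 : ℤ) = A * r := by exact_mod_cast hr
  have h2 : (D₀ : ℂ) * (σ 1 0 : ℤ) = A * s := by exact_mod_cast hs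
  have h3 : (A₀ : ℂ) * (σ 0 1 : ℤ) = (r : ℂ) * ((w * x₂ - x * y₂ : ℤ) : ℂ) + x * D := by
    exact_mod_cast hB1.symm
  have h4 : (D₀ : ℂ) * (σ 1 1 : ℤ) = (s : ℂ) * ((w * x₂ - x * y₂ : ℤ) : ℂ) + w * D := by
    exact_mod_cast hB2.symm
  generalize ((w * x₂ - x * y₂ : ℤ) : ℂ) = B at h3 h4 ⊢
  have e1 : (r : ℂ) * (((A : ℂ) * τ + B) / D) + x =
      (A₀ : ℂ) * ((σ 0 0 : ℤ) * τ + (σ 0 1 : ℤ)) / D := by
    field_simp
    linear_combination -(τ : ℂ) * h1 - h3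
  have e2 : (s : ℂ) * (((A : ℂ) * τ + B) / D) + w =
      (D₀ : ℂ) * ((σ 1 0 : ℤ) * τ + (σ 1 1 : ℤ)) / D := by
    field_simp
    linear_combination -(τ : ℂ) * h2 - h4
  rw [e1, e2]
  push_cast
  field_simp
  ring

variable {S : Subring ℂ} {n : ℕ} [NeZero n] (ζ : Sˣ)

/-- The expansion of `j` at a triangular substitution. -/
theorem sPairs_jFun_affPt (hζ : ((ζ : S) : ℂ) = zetaN n) (A : ℕ) (B : ℤ) (D k : ℕ) [NeZero A]
    [NeZero D] [NeZero k] (h : D * k = n) :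
    ((fun τ ↦ jFun (affPt A B D τ)), jAt (ζ ^ ((k : ℤ) * B)) (A * k)) ∈ sPairs S n := by
  have : NeZero (A * k) := ⟨Nat.mul_ne_zero (NeZero.ne A) (NeZero.ne k)⟩
  refine mem_sPairs.mpr ⟨mdiff_comp_affPt A B D mdiff_jFun, ?_⟩
  have hu : Units.map S.subtype.toMonoidHom (ζ ^ ((k : ℤ) * B)) =
      Units.mk0 (Complex.exp (2 * Real.pi * I * B / D)) (Complex.exp_ne_zero _) := by
    refine (map_zeta ζ hζ _).trans ?_
    ext
    rw [Units.val_zpow_eq_zpow_val, zetaN, Units.val_mk0, ← Complex.exp_int_mul, Units.val_mk0, ← h]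
    congr 1
    have hD : (D : ℂ) ≠ 0 := Nat.cast_ne_zero.mpr (NeZero.ne D)
    have hk : (k : ℂ) ≠ 0 := Nat.cast_ne_zero.mpr (NeZero.ne k)
    push_cast
    field_simp
  show HasExp n (fun τ ↦ jFun (affPt A B D τ)) (sIncl S (jAt (ζ ^ ((k : ℤ) * B)) (A * k)))
  rw [coeffMap_jAt, jAt_eq, hu]
  refine hasExp_jFun.comp_affine (A * k) _ _ (fun τ ↦ ?_) (tendsto_affPt A B D)
  rw [qp_affPt A B D 1, Units.val_mk0, mul_one, qp_mul D k h τ, ← pow_mul, mul_comm k A]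

variable {M0 : ℕ} [NeZero M0]

/-- The expansion at `∞`. -/
theorem sPairs_jd (hζ : ((ζ : S) : ℂ) = zetaN n) {N' : ℕ} [NeZero N'] (hk : M0 * N' = n)
    (d : ℕ) [NeZero d] : (jd M0 d, jAt (1 : Sˣ) (d * N')) ∈ sPairs S n := by
  have h := sPairs_jFun_affPt ζ hζ d 0 M0 N' hk
  rw [mul_zero, zpow_zero] at h
  exact h

/-- All translates have expansions over `S`. -/
theorem exists_sPairs_jd_smul (hζ : ((ζ : S) : ℂ) = zetaN n) (hM : M0.Prime) {N' : ℕ}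
    (hk : M0 * N' = n) {d : ℕ} [NeZero d] (hd : d ∣ M0 * M0 * N') (σ : SL(2, ℤ)) :
    ∃ G : LaurentSeries S, ((fun τ ↦ jd M0 d (σ • τ)), G) ∈ sPairs S n := by
  have hM1 : NeZero (1 : ℕ) := ⟨one_ne_zero⟩
  obtain ⟨A₀, D₀, h₀, h₁, hdvd, heq⟩ : ∃ (A₀ D₀ : ℕ) (_ : NeZero A₀) (_ : NeZero D₀),
      A₀ * D₀ ∣ n ∧ affPt d 0 M0 = affPt A₀ 0 D₀ := by
    by_cases hdM : M0 ∣ d
    · obtain ⟨e, he⟩ := hdM
      have : NeZero e := ⟨by rintro rfl; exact NeZero.ne d (by simp [he])⟩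
      refine ⟨e, 1, ‹_›, hM1, ?_, affPt_eq_of_mul M0 he (mul_one M0).symm⟩
      rw [mul_one, ← hk]
      rw [he, mul_assoc] at hd
      exact Nat.dvd_of_mul_dvd_mul_left hM.pos hd
    · refine ⟨d, M0, ‹_›, ‹_›, ?_, rfl⟩
      rw [← hk, mul_comm d M0]
      refine Nat.mul_dvd_mul_left M0 ?_
      have hc : Nat.Coprime d (M0 * M0) :=
        Nat.Coprime.mul_right ((hM.coprime_iff_not_dvd.mpr hdM).symm)
          ((hM.coprime_iff_not_dvd.mpr hdM).symm)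
      exact hc.dvd_of_dvd_mul_left hd
  obtain ⟨A, D, B, δ, hA, hD, hAD, h⟩ := exists_affPt_smul A₀ D₀ σ
  obtain ⟨k, hk'⟩ : D ∣ n := (dvd_mul_left D A).trans (hAD ▸ hdvd)
  have : NeZero k := ⟨by rintro rfl; exact NeZero.ne n (by simp [hk'])⟩
  refine ⟨jAt (ζ ^ ((k : ℤ) * B)) (A * k), ?_⟩
  convert sPairs_jFun_affPt ζ hζ A B D k hk'.symm using 2
  funext τ
  rw [jd, heq, h, jFun_smul]

/-- Invariance. -/
theorem jd_invariant {γ : SL(2, ℤ)} (hγ : γ ∈ CongruenceSubgroup.Gamma M0) {d : ℕ} [NeZero d]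
    (hd : (d : ℤ) ∣ M0 * γ 1 0) (τ : ℍ) : jd M0 d (γ • τ) = jd M0 d τ := by
  obtain ⟨c, hc⟩ := hd
  obtain ⟨b, hb⟩ : (M0 : ℤ) ∣ γ 0 1 :=
    (ZMod.intCast_zmod_eq_zero_iff_dvd _ _).mp (CongruenceSubgroup.Gamma_mem.mp hγ).2.1
  obtain ⟨δ, d00, d01, d10, d11⟩ : ∃ δ : SL(2, ℤ),
      δ 0 0 = γ 0 0 ∧ δ 0 1 = d * b ∧ δ 1 0 = c ∧ δ 1 1 = γ 1 1 :=
    ⟨⟨!![γ 0 0, d * b; c, γ 1 1], by
      rw [Matrix.det_fin_two_of]
      linear_combination (det_eq γ) + b * hc + (γ 1 0) * hb⟩, rfl, rfl, rfl, rfl⟩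
  rw [jd, jd, ← jFun_smul δ (affPt d 0 M0 τ)]
  congr 1
  refine UpperHalfPlane.ext ?_
  rw [coe_sl_smul' δ, d00, d01, d10, d11, coe_affPt, coe_affPt, coe_sl_smul' γ]
  have hM : (M0 : ℂ) ≠ 0 := Nat.cast_ne_zero.mpr (NeZero.ne M0)
  have hd0 : (d : ℂ) ≠ 0 := Nat.cast_ne_zero.mpr (NeZero.ne d)
  have hden : ((γ 1 0 : ℤ) : ℂ) * τ + (γ 1 1 : ℤ) ≠ 0 := den_ne_zero γ τ
  have hc' : (M0 : ℂ) * (γ 1 0 : ℤ) = d * c := by exact_mod_cast hc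
  have hb' : ((γ 0 1 : ℤ) : ℂ) = M0 * b := by exact_mod_cast hb
  have e2 : (c : ℂ) * (((d : ℂ) * τ + ((0 : ℤ) : ℂ)) / M0) + (γ 1 1 : ℤ) =
      (γ 1 0 : ℤ) * τ + (γ 1 1 : ℤ) := by
    push_cast
    field_simp
    linear_combination -(τ : ℂ) * hc'
  rw [e2, hb']
  push_cast
  field_simp
  ring

/-- The translate to the cusp `0`. -/
theorem jd_one_S (τ : ℍ) : jd M0 1 (ModularGroup.S • τ) = jFun (affPt M0 0 1 τ) := by
  rw [jd, ← jFun_smul ModularGroup.S (affPt M0 0 1 τ)]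
  congr 1
  refine UpperHalfPlane.ext ?_
  simp only [UpperHalfPlane.modular_S_smul, coe_affPt, UpperHalfPlane.coe_mk]
  have hM : (M0 : ℂ) ≠ 0 := Nat.cast_ne_zero.mpr (NeZero.ne M0)
  have := τ.ne_zero
  push_cast
  field_simp
  simp

/-- The translates to the other cusps. -/
theorem jd_one_lowT (i : ℤ) (τ : ℍ) : jd M0 1 (lowT i • τ) = jFun (affPt 1 0 M0 τ) := by
  rw [jd, ← jFun_smul (lowT (i * M0)) (affPt 1 0 M0 τ)]
  congr 1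
  refine UpperHalfPlane.ext ?_
  rw [coe_sl_smul' (lowT (i * M0)), coe_affPt, coe_affPt, coe_sl_smul' (lowT i),
    show lowT (i * M0) 0 0 = 1 from rfl, show lowT (i * M0) 0 1 = 0 from rfl,
    show lowT (i * M0) 1 0 = i * M0 from rfl, show lowT (i * M0) 1 1 = 1 from rfl,
    show lowT i 0 0 = 1 from rfl, show lowT i 0 1 = 0 from rfl,
    show lowT i 1 0 = i from rfl, show lowT i 1 1 = 1 from rfl]
  have hM : (M0 : ℂ) ≠ 0 := Nat.cast_ne_zero.mpr (NeZero.ne M0)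
  push_cast
  field_simp
  ring

end FLTAgent.GoodModel
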