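import Fermat.Agent.GoodModel.JLevel
import Fermat.Agent.GoodModel.Interp

/-!
The series identities of the auxiliary level structure over a subring of `ℂ`.
-/

set_option autoImplicit false

noncomputable section

open UpperHalfPlane hiding I I_re I_im
open Filter Topology Complex Function FLTAgent.ModEq ModularCurve
open scoped MatrixGroups Manifold

namespace FLTAgent.GoodModel

/-- Composition with `σ`. -/
def compg (σ : SL(2, ℤ)) : (ℍ → ℂ) →+* (ℍ → ℂ) :=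
  RingHom.pi fun τ ↦ Pi.evalRingHom (fun _ : ℍ ↦ ℂ) (σ • τ)

lemma compg_apply (σ : SL(2, ℤ)) (f : ℍ → ℂ) (τ : ℍ) : compg σ f τ = f (σ • τ) := rfl

lemma compg_compg (σ γ : SL(2, ℤ)) (f : ℍ → ℂ) : compg σ (compg γ f) = compg (γ * σ) f := by
  funext τ
  simp only [compg_apply, mul_smul]

lemma compg_one (f : ℍ → ℂ) : compg 1 f = f := by
  funext τ
  simp only [compg_apply, one_smul]

lemma compg_injective (σ : SL(2, ℤ)) : Function.Injective (compg σ) := fun f g h ↦ by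
  have := congrArg (compg σ⁻¹) h
  rwa [compg_compg, compg_compg, mul_inv_cancel, compg_one, compg_one] at this

/-- Functions all of whose translates have expansions over `S`. -/
def trRing (S : Subring ℂ) (n : ℕ) : Subring (ℍ → ℂ) :=
  ⨅ σ : SL(2, ℤ), ((sPairs S n).map (RingHom.fst _ _)).comap (compg σ)

variable {S : Subring ℂ} {n : ℕ}

lemma mem_trRing {f : ℍ → ℂ} :
    f ∈ trRing S n ↔ ∀ σ, ∃ G : LaurentSeries S, (compg σ f, G) ∈ sPairs S n := by
  simp only [trRing, Subring.mem_iInf, Subring.mem_comap, Subring.mem_map]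
  refine forall_congr' fun σ ↦ ⟨fun ⟨x, hx, h⟩ ↦ ⟨x.2, ?_⟩, fun ⟨G, h⟩ ↦ ⟨_, h, rfl⟩⟩
  rw [← h]
  exact hx

lemma compg_mem_trRing {f : ℍ → ℂ} (hf : f ∈ trRing S n) (γ : SL(2, ℤ)) :
    compg γ f ∈ trRing S n :=
  mem_trRing.mpr fun σ ↦ by rw [compg_compg]; exact mem_trRing.mp hf _

variable [NeZero n]

lemma sPairs_unique {φ : ℍ → ℂ} {G G' : LaurentSeries S} (h : (φ, G) ∈ sPairs S n)
    (h' : (φ, G') ∈ sPairs S n) : G = G' :=
  sIncl_injective ((mem_sPairs.mp h).2.unique (mem_sPairs.mp h').2)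

/-- The expansion at `∞`. -/
def serFun (a : trRing S n) : LaurentSeries S := (mem_trRing.mp a.2 1).choose

omit [NeZero n] in
lemma serFun_spec (a : trRing S n) : ((a : ℍ → ℂ), serFun a) ∈ sPairs S n := by
  simpa [serFun, compg_one] using (mem_trRing.mp a.2 1).choose_spec

/-- The expansion at `∞` as a ring homomorphism. -/
def ser : trRing S n →+* LaurentSeries S where
  toFun := serFun
  map_one' := sPairs_unique (serFun_spec 1) (sPairs S n).one_mem
  map_zero' := sPairs_unique (serFun_spec 0) (sPairs S n).zero_mem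
  map_add' a b := sPairs_unique (serFun_spec (a + b))
    ((sPairs S n).add_mem (serFun_spec a) (serFun_spec b))
  map_mul' a b := sPairs_unique (serFun_spec (a * b))
    ((sPairs S n).mul_mem (serFun_spec a) (serFun_spec b))

lemma ser_spec (a : trRing S n) : ((a : ℍ → ℂ), ser a) ∈ sPairs S n := serFun_spec a

/-- A quotient of differences. -/
def wq (n : ℕ) [NeZero n] (p e a b : Vec) (τ : ℍ) : ℂ := wdiff n p e τ / wdiff n a b τ

lemma compg_wq (σ : SL(2, ℤ)) (p e a b : Vec) :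
    compg σ (wq n p e a b) = wq n (vmul p σ) (vmul e σ) (vmul a σ) (vmul b σ) := by
  funext τ
  simp only [compg_apply, wq, wdiff_smul]
  exact mul_div_mul_left _ _ (pow_ne_zero 2 (den_ne_zero σ τ))

lemma wq_mem (ζ : Sˣ) (hζ : ((ζ : S) : ℂ) = zetaN n) (hu : IsUnit ((n : ℕ) : S)) {p e a b : Vec}
    (hp : Nz n p) (he : Nz n e) (ha : Nz n a) (hb : Nz n b) (hab : ¬ PMEq n a b) :
    wq n p e a b ∈ trRing S n := by
  refine mem_trRing.mpr fun σ ↦ ?_
  rw [compg_wq]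
  have hab' : ¬ PMEq n (vmul a σ) (vmul b σ) := by rwa [PMEq.vmul_iff]
  obtain ⟨G, hG⟩ := exists_wdiff_series ζ hζ hu (hp.vmul σ) (he.vmul σ)
  obtain ⟨D, hD⟩ := exists_wdiff_unit ζ hζ hu (ha.vmul σ) (hb.vmul σ) hab'
  have h0 : ∀ τ, wdiff n (vmul a σ) (vmul b σ) τ ≠ 0 := fun τ h ↦
    hab' ((wdiff_eq_zero_iff (ha.vmul σ) (hb.vmul σ) τ).mp h)
  refine ⟨G * ((D⁻¹ : (LaurentSeries S)ˣ) : LaurentSeries S), ?_⟩
  have h : wq n (vmul p σ) (vmul e σ) (vmul a σ) (vmul b σ) =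
      wdiff n (vmul p σ) (vmul e σ) * fun τ ↦ (wdiff n (vmul a σ) (vmul b σ) τ)⁻¹ := by
    funext τ
    simp [wq, div_eq_mul_inv]
  rw [h]
  exact (sPairs S n).mul_mem hG (sPairs_inv D hD h0)

section LevelData

variable {M0 N' : ℕ} [NeZero M0] [NeZero N'] (hM : M0 = 2 ∨ M0 = 3) (hk : M0 * N' = n) (ζ : Sˣ)
  (hζ : ((ζ : S) : ℂ) = zetaN n) (hu : IsUnit ((n : ℕ) : S))

/-- The second vector of the numerator. -/
def eVec (N' : ℕ) : Vec := (0, N')

/-- The first vector of the denominator. -/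
def aVec (N' : ℕ) : Vec := (N', 0)

/-- The second vector of the denominator. -/
def bVec (N' : ℕ) : Vec := (N', N')

/-- The coordinate at a vector. -/
def fvv (n N' : ℕ) [NeZero n] (p : Vec) : ℍ → ℂ := wq n p (eVec N') (aVec N') (bVec N')

include hM hk in
omit [NeZero n] in
lemma level_nz : Nz n (eVec N') ∧ Nz n (aVec N') ∧ Nz n (bVec N') ∧
    ¬ PMEq n (aVec N') (bVec N') ∧ Nz n ((0, 1) : Vec) := by
  have h0 : ((N' : ℤ) : ZMod n) ≠ 0 := by
    rw [Int.cast_natCast, Ne, ZMod.natCast_eq_zero_iff]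
    intro h
    have := Nat.le_of_dvd (Nat.pos_of_ne_zero (NeZero.ne N')) h
    have := Nat.pos_of_ne_zero (NeZero.ne N')
    rcases hM with rfl | rfl <;> omega
  have h1 : (1 : ZMod n) ≠ 0 := by
    intro h
    have : n ∣ 1 := (ZMod.natCast_eq_zero_iff 1 n).mp (by simpa using h)
    have := Nat.le_of_dvd one_pos this
    have := Nat.pos_of_ne_zero (NeZero.ne N')
    rcases hM with rfl | rfl <;> omega
  refine ⟨Or.inr (by simpa [eVec] using h0), Or.inl (by simpa [aVec] using h0),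
    Or.inl (by simpa [bVec] using h0), ?_, Or.inr (by simpa using h1)⟩
  rintro (⟨-, h⟩ | ⟨-, h⟩) <;> simp [aVec, bVec] at h <;> exact h0 (by simp [h])

include hk in
omit [NeZero n] [NeZero N'] [NeZero M0] in
lemma mul_vEq {γ : SL(2, ℤ)} (hγ : γ ∈ CongruenceSubgroup.Gamma M0) (x y : ℤ) :
    VEq n (vmul ((N' : ℤ) * x, (N' : ℤ) * y) γ) ((N' : ℤ) * x, (N' : ℤ) * y) := by
  obtain ⟨h00, h01, h10, h11⟩ := CongruenceSubgroup.Gamma_mem.mp hγ
  have key : ∀ u v : ℤ, ((u : ℤ) : ZMod M0) = v →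
      ((((N' : ℤ) * u : ℤ)) : ZMod n) = (((N' : ℤ) * v : ℤ)) := by
    intro u v h
    rw [ZMod.intCast_eq_intCast_iff_dvd_sub] at h ⊢
    obtain ⟨c, hc⟩ := h
    exact ⟨c, by rw [← hk]; push_cast; linear_combination (N' : ℤ) * hc⟩
  constructor
  · show (((N' : ℤ) * x * γ 0 0 + (N' : ℤ) * y * γ 1 0 : ℤ) : ZMod n) = _
    rw [show (N' : ℤ) * x * γ 0 0 + (N' : ℤ) * y * γ 1 0 = (N' : ℤ) * (x * γ 0 0 + y * γ 1 0) by ring]
    exact key _ _ (by push_cast; rw [h00, h10]; ring)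
  · show (((N' : ℤ) * x * γ 0 1 + (N' : ℤ) * y * γ 1 1 : ℤ) : ZMod n) = _
    rw [show (N' : ℤ) * x * γ 0 1 + (N' : ℤ) * y * γ 1 1 = (N' : ℤ) * (x * γ 0 1 + y * γ 1 1) by ring]
    exact key _ _ (by push_cast; rw [h01, h11]; ring)

include hk in
omit [NeZero M0] [NeZero N'] in
lemma compg_fvv {γ : SL(2, ℤ)} (hγ : γ ∈ CongruenceSubgroup.Gamma M0) (p : Vec) :
    compg γ (fvv n N' p) = fvv n N' (vmul p γ) := by
  have he : VEq n (vmul (eVec N') γ) (eVec N') := by simpa [eVec] using mul_vEq hk hγ 0 1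
  have ha : VEq n (vmul (aVec N') γ) (aVec N') := by simpa [aVec] using mul_vEq hk hγ 1 0
  have hb : VEq n (vmul (bVec N') γ) (bVec N') := by simpa [bVec] using mul_vEq hk hγ 1 1
  rw [fvv, compg_wq, fvv]
  funext τ
  simp only [wq]
  rw [wdiff_congr (v := vmul p γ) (w := vmul p γ) (Or.inl ⟨rfl, rfl⟩) (Or.inl he),
    wdiff_congr (Or.inl ha) (Or.inl hb)]

include hM hk ζ hζ hu in
lemma fvv_mem {p : Vec} (hp : Nz n p) : fvv n N' p ∈ trRing S n := by
  obtain ⟨he, ha, hb, hab, -⟩ := level_nz (n := n) hM hk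
  exact wq_mem ζ hζ hu hp he ha hb hab

include hM hk in
lemma fvv_congr_iff {p p' : Vec} (hp : Nz n p) (hp' : Nz n p') :
    fvv n N' p = fvv n N' p' ↔ PMEq n p p' := by
  obtain ⟨he, ha, hb, hab, -⟩ := level_nz (n := n) hM hk
  refine ⟨fun h ↦ (wdiff_eq_zero_iff hp hp' UpperHalfPlane.I).mp ?_, fun h ↦ funext fun τ ↦ ?_⟩
  · have h1 := congrFun h UpperHalfPlane.I
    simp only [fvv, wq] at h1
    rw [div_left_inj' fun e ↦ hab ((wdiff_eq_zero_iff ha hb _).mp e)] at h1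
    simp only [wdiff] at h1 ⊢
    rw [sub_div, sub_div] at h1
    rw [sub_div]
    linear_combination h1
  · simp only [fvv, wq]
    rw [wdiff_congr h (Or.inl ⟨rfl, rfl⟩)]

include hM hk ζ hζ hu in
lemma isUnit_fvv_sub {p p' : Vec} (hp : Nz n p) (hp' : Nz n p') (h : ¬ PMEq n p p') :
    IsUnit ((⟨fvv n N' p, fvv_mem hM hk ζ hζ hu hp⟩ : trRing S n) -
      ⟨fvv n N' p', fvv_mem hM hk ζ hζ hu hp'⟩) := by
  obtain ⟨he, ha, hb, hab, -⟩ := level_nz (n := n) hM hk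
  refine IsUnit.of_mul_eq_one ⟨wq n (aVec N') (bVec N') p p', wq_mem ζ hζ hu ha hb hp hp' h⟩
    (Subtype.ext (funext fun τ ↦ ?_))
  have h1 : wdiff n (aVec N') (bVec N') τ ≠ 0 := fun e ↦ hab ((wdiff_eq_zero_iff ha hb τ).mp e)
  have h2 : wdiff n p p' τ ≠ 0 := fun e ↦ h ((wdiff_eq_zero_iff hp hp' τ).mp e)
  show (fvv n N' p τ - fvv n N' p' τ) * wq n (aVec N') (bVec N') p p' τ = 1
  rw [show fvv n N' p τ - fvv n N' p' τ = wq n p p' (aVec N') (bVec N') τ by
    simp only [fvv, wq, wdiff]; rw [← sub_div]; ring]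
  simp only [wq]
  field_simp

/-- The coordinate. -/
def f0 (n N' : ℕ) [NeZero n] : ℍ → ℂ := fvv n N' (0, 1)

variable (M0 N' n) in
/-- Its translates under `Γ(M₀)`. -/
def nodeSet : Set (ℍ → ℂ) :=
  Set.range fun γ : CongruenceSubgroup.Gamma M0 ↦ compg (γ : SL(2, ℤ)) (f0 n N')

include hk in
lemma nodeSet_finite : (nodeSet n M0 N').Finite := by
  refine (Set.finite_range fun c : ZMod n × ZMod n ↦
    fvv n N' ((c.1.val : ℤ), (c.2.val : ℤ))).subset ?_
  rintro _ ⟨γ, rfl⟩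
  refine ⟨(((vmul ((0, 1) : Vec) (γ : SL(2, ℤ))).1 : ℤ), ((vmul ((0, 1) : Vec) (γ : SL(2, ℤ))).2 : ℤ)), ?_⟩
  show fvv n N' _ = compg _ (f0 n N')
  rw [f0, compg_fvv hk γ.2]
  funext τ
  simp only [fvv, wq]
  congr 1
  exact congrFun (wdiff_congr (Or.inl ⟨by simp, by simp⟩) (Or.inl ⟨rfl, rfl⟩)) τ

include hM hk ζ hζ hu in
lemma nodeSet_subset : nodeSet n M0 N' ⊆ (trRing S n : Set (ℍ → ℂ)) := by
  rintro _ ⟨γ, rfl⟩
  exact compg_mem_trRing (fvv_mem hM hk ζ hζ hu (level_nz hM hk).2.2.2.2) _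

include hM hk in
lemma mem_of_f0_eq {γ γ' : SL(2, ℤ)} (hγ : γ ∈ CongruenceSubgroup.Gamma M0)
    (hγ' : γ' ∈ CongruenceSubgroup.Gamma M0) (h : compg γ (f0 n N') = compg γ' (f0 n N')) :
    (n : ℤ) ∣ (γ' * γ⁻¹) 1 0 := by
  obtain ⟨-, -, -, -, h01⟩ := level_nz (n := n) hM hk
  have hδ := mul_mem hγ' (inv_mem hγ)
  have h2 := congrArg (compg γ⁻¹) h
  rw [compg_compg, compg_compg, mul_inv_cancel, compg_one, f0, compg_fvv hk hδ,
    fvv_congr_iff hM hk h01 (h01.vmul _)] at h2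
  rw [← ZMod.intCast_zmod_eq_zero_iff_dvd]
  rcases h2 with ⟨h3, -⟩ | ⟨h3, -⟩
  · simpa [vmul] using h3.symm
  · simpa [vmul] using h3.symm

open Classical in
variable (M0) in
/-- Transport of `J` along the nodes. -/
def valFun (J : ℍ → ℂ) (n N' : ℕ) [NeZero n] (f : ℍ → ℂ) : ℍ → ℂ :=
  if h : ∃ γ : CongruenceSubgroup.Gamma M0, compg (γ : SL(2, ℤ)) (f0 n N') = f
  then compg (h.choose : SL(2, ℤ)) J else 0

include hM hk in
lemma valFun_eq {d : ℕ} [NeZero d] (hd : d ∣ M0 * M0 * N') (γ : CongruenceSubgroup.Gamma M0) :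
    valFun M0 (jd M0 d) n N' (compg (γ : SL(2, ℤ)) (f0 n N')) = compg (γ : SL(2, ℤ)) (jd M0 d) := by
  have h : ∃ γ' : CongruenceSubgroup.Gamma M0,
      compg (γ' : SL(2, ℤ)) (f0 n N') = compg (γ : SL(2, ℤ)) (f0 n N') := ⟨γ, rfl⟩
  rw [valFun, dif_pos h]
  set γ' := h.choose
  have hdvd := mem_of_f0_eq hM hk γ.2 γ'.2 h.choose_spec.symm
  funext τ
  simp only [compg_apply]
  conv_lhs => rw [show (γ' : SL(2, ℤ)) = (γ' : SL(2, ℤ)) * (γ : SL(2, ℤ))⁻¹ * (γ : SL(2, ℤ)) by group]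
  rw [mul_smul]
  refine jd_invariant (mul_mem γ'.2 (inv_mem γ.2)) ?_ _
  refine (Int.natCast_dvd_natCast.mpr hd).trans ?_
  rw [mul_assoc M0 M0 N', hk, Nat.cast_mul]
  exact mul_dvd_mul_left _ hdvd

/-- `z ∏ (h - cᵢ)^{wᵢ} = P(h)`. -/
def RatIn {R : Type*} [CommRing R] {ι : Type*} [Fintype ι] (H : LaurentSeries R) (c : ι → R)
    (z : LaurentSeries R) : Prop :=
  ∃ (P : Polynomial R) (w : ι → ℕ),
    z * (∏ i, (Polynomial.X - Polynomial.C (c i)) ^ w i).eval₂ HahnSeries.C H =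
      P.eval₂ HahnSeries.C H

variable (M0 N' S) in
/-- The series identities of the auxiliary level. -/
structure LevelSeries where
  H : LaurentSeries S
  c : Fin M0 → S
  g : Polynomial (LaurentSeries S)
  bezLeft : Polynomial (LaurentSeries S)
  bezRight : Polynomial (LaurentSeries S)
  F : LaurentSeries S
  leadH : LeadAt H (-(N' : ℤ))
  isUnit_c : ∀ i j, i ≠ j → IsUnit (c i - c j)
  jRel : ∃ P : Polynomial S, P.natDegree ≤ M0 * M0 + M0 ∧
    jAt (1 : Sˣ) N' * (∏ i, (Polynomial.X - Polynomial.C (c i)) ^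
      (if (i : ℕ) = 0 then M0 * M0 else 1)).eval₂ HahnSeries.C H = P.eval₂ HahnSeries.C H
  jMRat : RatIn H c (jAt (1 : Sˣ) (M0 * M0 * N'))
  monic : g.Monic
  bez : bezLeft * g + bezRight * Polynomial.derivative g = 1
  root : g.eval F = 0
  rat_g : ∀ k, RatIn H c (g.coeff k)
  rat_left : ∀ k, RatIn H c (bezLeft.coeff k)
  rat_right : ∀ k, RatIn H c (bezRight.coeff k)
  param : ∀ d : ℕ, d ≠ 0 → d ∣ M0 * M0 * N' → ∃ G : Polynomial (LaurentSeries S),
    (∀ k, RatIn H c (G.coeff k)) ∧ G.eval F = jAt (1 : Sˣ) (d * N')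

omit [NeZero n] in
lemma geOrd_qExpand {R : Type*} [CommRing R] {G : LaurentSeries R} {a : ℤ} (h : GeOrd G a) (k : ℕ)
    [NeZero k] : GeOrd (qExpand R k G) (k * a) := by
  intro i hi
  by_cases hd : (k : ℤ) ∣ i
  · obtain ⟨j, rfl⟩ := hd
    rw [qExpand_coeff_mul]
    exact h j (by nlinarith [Nat.pos_of_ne_zero (NeZero.ne k)])
  · exact qExpand_coeff_of_not_dvd k G hd

include hM hk ζ hζ hu in
/-- Existence of the identities. -/
theorem nonempty_levelSeries : Nonempty (LevelSeries S M0 N') := by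
  classical
  -- the auxiliary function
  have hζ₀ : (((ζ ^ N' : Sˣ) : S) : ℂ) = zetaN M0 := by
    rw [Units.val_pow_eq_pow_val, SubmonoidClass.coe_pow, hζ, zetaN, zetaN, Units.val_mk0,
      Units.val_mk0, ← Complex.exp_nat_mul, ← hk]
    congr 1
    have : (N' : ℂ) ≠ 0 := Nat.cast_ne_zero.mpr (NeZero.ne N')
    have : (M0 : ℂ) ≠ 0 := Nat.cast_ne_zero.mpr (NeZero.ne M0)
    push_cast
    field_simp
  have hu₀ : IsUnit ((M0 : ℕ) : S) := by
    rw [← hk, Nat.cast_mul] at hu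
    exact (IsUnit.mul_iff.mp hu).1
  obtain ⟨H₀, hH₀, hlead⟩ := exists_hh_series (ζ ^ N') hM hζ₀ hu₀
  obtain ⟨c, hc, hval⟩ := exists_cuspValues (ζ ^ N') hM hζ₀ hu₀
  set H := qExpand S N' H₀ with hH
  have hhb : ∀ i, IsBoundedAtImInfty fun τ ↦ hh M0 (cuspRep0 M0 i • τ) := fun i ↦ by
    obtain ⟨G, hG, hG1⟩ := hval i
    have h1 : IsBoundedAtImInfty fun τ ↦ hh M0 (cuspRep0 M0 i • τ) - (c i : ℂ) :=
      (mem_sPairs.mp hG).2.isBoundedAtImInfty fun k hk ↦ by
        rw [coeffMap_coeff, hG1 k (by omega), map_zero]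
    exact (h1.add (Filter.const_boundedAtFilter atImInfty (c i : ℂ))).congr_left fun τ ↦ by simp
  -- invariant elements are rational in `h`
  have rat : ∀ a : trRing S n, (∀ γ ∈ CongruenceSubgroup.Gamma M0, compg γ (a : ℍ → ℂ) = a) →
      RatIn H c (ser a) := by
    intro a ha
    have hw : ∀ i, ∃ w : ℕ, IsBoundedAtImInfty fun τ ↦
        (a : ℍ → ℂ) (cuspRep0 M0 i • τ) * (hh M0 (cuspRep0 M0 i • τ) - (c i : ℂ)) ^ w := by
      intro i
      obtain ⟨G, hG⟩ := mem_trRing.mp a.2 (cuspRep0 M0 i)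
      obtain ⟨G', hG', hG'1⟩ := hval i
      obtain ⟨m, hm⟩ := (meroInf_of_hasExp (mem_sPairs.mp hG).2).exists_pow_bounded
        (mem_sPairs.mp hG').2 fun k hk ↦ by rw [coeffMap_coeff, hG'1 k hk, map_zero]
      exact ⟨m, (hm m le_rfl).congr_left fun τ ↦ by simp [compg_apply]⟩
    choose w hw using hw
    obtain ⟨P, -, hP⟩ := exists_poly_of_invariant hM hk hH₀ hlead c hhb (ser_spec a)
      (fun γ hγ τ ↦ congrFun (ha γ hγ) τ) w hw (d := (-(ser a).order).toNat) (fun i hi ↦ by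
        refine HahnSeries.coeff_eq_zero_of_lt_order ?_
        have : (-(ser a).order).toNat ≤ N' * (-(ser a).order).toNat :=
          Nat.le_mul_of_pos_left _ (Nat.pos_of_ne_zero (NeZero.ne N'))
        omega)
    refine ⟨P, w, ?_⟩
    have := congrArg Prod.snd hP
    rw [Prod.snd_mul, evalP_snd, evalP_snd] at this
    exact this.symm
  -- the nodes
  set VS : Finset (ℍ → ℂ) := (nodeSet_finite (n := n) (M0 := M0) (N' := N') hk).toFinset
  set V : Finset (trRing S n) := VS.subtype (· ∈ trRing S n)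
  have hmemV : ∀ v : trRing S n, v ∈ V ↔ (v : ℍ → ℂ) ∈ nodeSet n M0 N' := fun v ↦ by
    simp [V, VS]
  have hnz : ∀ γ : SL(2, ℤ), Nz n (vmul ((0, 1) : Vec) γ) := fun γ ↦
    (level_nz hM hk).2.2.2.2.vmul γ
  have hsep : Sep V := by
    intro u hu' v hv' huv
    obtain ⟨γ, hγ⟩ := (hmemV u).mp hu'
    obtain ⟨δ, hδ⟩ := (hmemV v).mp hv'
    simp only [f0, compg_fvv hk γ.2] at hγ
    simp only [f0, compg_fvv hk δ.2] at hδ
    have hne : ¬ PMEq n (vmul ((0, 1) : Vec) (γ : SL(2, ℤ))) (vmul ((0, 1) : Vec) (δ : SL(2, ℤ))) :=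
      fun e ↦ huv (Subtype.ext (hγ ▸ hδ ▸ (fvv_congr_iff hM hk (hnz _) (hnz _)).mpr e))
    convert isUnit_fvv_sub hM hk ζ hζ hu (hnz γ) (hnz δ) hne using 2
    · exact Subtype.ext hγ.symm
    · exact Subtype.ext hδ.symm
  have himg : ∀ γ ∈ CongruenceSubgroup.Gamma M0,
      V.image (trRing S n).subtype = V.image ((compg γ).comp (trRing S n).subtype) := by
    intro γ hγ
    ext f
    simp only [Finset.mem_image, hmemV, Subring.subtype_apply, RingHom.comp_apply]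
    constructor
    · rintro ⟨v, ⟨δ, hδ⟩, rfl⟩
      refine ⟨⟨compg γ⁻¹ v, compg_mem_trRing v.2 _⟩, ⟨⟨δ * γ⁻¹, mul_mem δ.2 (inv_mem hγ)⟩, ?_⟩, ?_⟩
      · show compg (δ * γ⁻¹ : SL(2, ℤ)) _ = compg γ⁻¹ (v : ℍ → ℂ)
        rw [← hδ, compg_compg]
      · show compg γ (compg γ⁻¹ (v : ℍ → ℂ)) = v
        rw [compg_compg, inv_mul_cancel, compg_one]
    · rintro ⟨v, ⟨δ, hδ⟩, rfl⟩
      refine ⟨⟨compg γ v, compg_mem_trRing v.2 _⟩, ⟨⟨δ * γ, mul_mem δ.2 hγ⟩, ?_⟩, rfl⟩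
      show compg (δ * γ : SL(2, ℤ)) _ = compg γ (v : ℍ → ℂ)
      rw [← hδ, compg_compg]
  have hinj : Set.InjOn (trRing S n).subtype V := Subtype.val_injective.injOn
  have hinjγ : ∀ γ : SL(2, ℤ), Set.InjOn ((compg γ).comp (trRing S n).subtype) V := fun γ ↦
    ((compg_injective γ).comp Subtype.val_injective).injOn
  have hMp : M0.Prime := by rcases hM with rfl | rfl <;> norm_num
  have hJ : ∀ {d : ℕ} [NeZero d], d ∣ M0 * M0 * N' → jd M0 d ∈ trRing S n := fun hd ↦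
    mem_trRing.mpr fun σ ↦ exists_sPairs_jd_smul ζ hζ hMp hk hd σ
  have hvalmem : ∀ {d : ℕ} [NeZero d], d ∣ M0 * M0 * N' → ∀ f,
      valFun M0 (jd M0 d) n N' f ∈ trRing S n := fun hd f ↦ by
    rw [valFun]
    split
    · exact compg_mem_trRing (hJ hd) _
    · exact Subring.zero_mem _
  -- invariance of all polynomials
  have hpol : ∀ (d : ℕ) [NeZero d] (hd : d ∣ M0 * M0 * N'), ∀ γ ∈ CongruenceSubgroup.Gamma M0,
      let val : trRing S n → trRing S n := fun v ↦ ⟨_, hvalmem hd (v : ℍ → ℂ)⟩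
      (nod V).map (trRing S n).subtype = (nod V).map ((compg γ).comp (trRing S n).subtype) ∧
      (bezA V).map (trRing S n).subtype = (bezA V).map ((compg γ).comp (trRing S n).subtype) ∧
      (bezB V).map (trRing S n).subtype = (bezB V).map ((compg γ).comp (trRing S n).subtype) ∧
      (interp V val).map (trRing S n).subtype =
        (interp V val).map ((compg γ).comp (trRing S n).subtype) := by
    intro d _ hd γ hγ val
    refine interp_map_eq (trRing S n).subtype hsep hinj (hinjγ γ) (himg γ hγ)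
      (val' := valFun M0 (jd M0 d) n N') (fun v _ ↦ rfl) fun v hv ↦ ?_
    obtain ⟨δ, hδ⟩ := (hmemV v).mp hv
    show valFun M0 (jd M0 d) n N' (compg γ (v : ℍ → ℂ)) =
      compg γ (valFun M0 (jd M0 d) n N' (v : ℍ → ℂ))
    rw [← hδ, compg_compg, valFun_eq hM hk hd δ, compg_compg]
    exact valFun_eq hM hk hd ⟨δ * γ, mul_mem δ.2 hγ⟩
  have hcoeff : ∀ (p : Polynomial (trRing S n)), (∀ γ ∈ CongruenceSubgroup.Gamma M0,
      p.map (trRing S n).subtype = p.map ((compg γ).comp (trRing S n).subtype)) →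
      ∀ k, RatIn H c ((p.map ser).coeff k) := fun p hp k ↦ by
    rw [Polynomial.coeff_map]
    refine rat _ fun γ hγ ↦ ?_
    have := congrArg (fun q : Polynomial (ℍ → ℂ) ↦ q.coeff k) (hp γ hγ)
    simpa [Polynomial.coeff_map] using this.symm
  have hone : (1 : ℕ) ∣ M0 * M0 * N' := one_dvd _
  set v0 : trRing S n := ⟨f0 n N', fvv_mem hM hk ζ hζ hu (level_nz hM hk).2.2.2.2⟩
  have hv0 : v0 ∈ V := (hmemV v0).mpr ⟨1, compg_one _⟩
  refine ⟨{ H := H, c := c, g := (nod V).map ser, bezLeft := (bezA V).map ser,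
            bezRight := (bezB V).map ser, F := ser v0, leadH := ?_, isUnit_c := hc, jRel := ?_,
            jMRat := ?_,
            monic := (monic_nod V).map _, bez := ?_, root := ?_, rat_g := ?_, rat_left := ?_,
            rat_right := ?_, param := ?_ }⟩
  · refine ⟨by simpa using geOrd_qExpand hlead.1 N', ?_⟩
    rw [hH, show -(N' : ℤ) = (N' : ℤ) * (-1) by ring, qExpand_coeff_mul]
    exact hlead.2
  · have h1 := hJ (d := 1) hone
    have hinv : ∀ γ ∈ CongruenceSubgroup.Gamma M0, ∀ τ : ℍ, jd M0 1 (γ • τ) = jd M0 1 τ :=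
      fun γ hγ τ ↦ jd_invariant hγ (by simp) τ
    have hb1 : ∀ i, IsBoundedAtImInfty fun τ ↦ jd M0 1 (cuspRep0 M0 i • τ) *
        (hh M0 (cuspRep0 M0 i • τ) - (c i : ℂ)) ^ (if (i : ℕ) = 0 then M0 * M0 else 1) := by
      intro i
      obtain ⟨G, hG, hG1⟩ := hval i
      have hG' := sPairs_refine hk hG
      have hgo : GeOrd (qExpand S N' G) (N' : ℤ) := by simpa using geOrd_qExpand hG1 N'
      by_cases hi : (i : ℕ) = 0
      · have hj := sPairs_jFun_affPt ζ hζ M0 0 1 n (one_mul n)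
        have hp := (sPairs S n).mul_mem hj ((sPairs S n).pow_mem hG' (M0 * M0))
        refine ((mem_sPairs.mp hp).2.isBoundedAtImInfty ?_).congr_left fun τ ↦ ?_
        · have : NeZero (M0 * n) := ⟨Nat.mul_ne_zero (NeZero.ne M0) (NeZero.ne n)⟩
          intro k hk'
          rw [coeffMap_coeff, Prod.snd_mul, Prod.pow_snd, ((geOrd_jAt _ (M0 * n)).mul (hgo.pow _)) k ?_,
            map_zero]
          rw [← hk]
          push_cast
          linarith [hk']
        · simp only [Prod.fst_mul, Prod.pow_fst, Pi.mul_apply, Pi.pow_apply, if_pos hi]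
          rw [cuspRep0, if_pos hi, jd_one_S]
      · have hj := sPairs_jFun_affPt ζ hζ 1 0 M0 N' hk
        have hp := (sPairs S n).mul_mem hj hG'
        refine ((mem_sPairs.mp hp).2.isBoundedAtImInfty ?_).congr_left fun τ ↦ ?_
        · intro k hk'
          have : NeZero (1 * N') := ⟨by simpa using NeZero.ne N'⟩
          rw [coeffMap_coeff, Prod.snd_mul, ((geOrd_jAt _ (1 * N')).mul hgo) k (by simpa using hk'),
            map_zero]
        · simp only [Prod.fst_mul, Pi.mul_apply, if_neg hi, pow_one]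
          rw [cuspRep0, if_neg hi, jd_one_lowT]
    obtain ⟨P, hP1, hP2⟩ := exists_poly_of_invariant hM hk hH₀ hlead c hhb
      (sPairs_jd ζ hζ hk 1) hinv (fun i ↦ if (i : ℕ) = 0 then M0 * M0 else 1) hb1 (d := 1)
      (by simpa using geOrd_jAt (1 : Sˣ) N')
    refine ⟨P, hP1.trans ?_, ?_⟩
    · rcases hM with rfl | rfl <;> simp [Fin.sum_univ_two, Fin.sum_univ_three]
    · have := congrArg Prod.snd hP2
      rw [Prod.snd_mul, evalP_snd, evalP_snd, one_mul] at this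
      exact this.symm
  · have : NeZero (M0 * M0) := ⟨Nat.mul_ne_zero (NeZero.ne M0) (NeZero.ne M0)⟩
    have hd : M0 * M0 ∣ M0 * M0 * N' := dvd_mul_right _ _
    rw [← sPairs_unique (ser_spec (⟨jd M0 (M0 * M0), hJ hd⟩ : trRing S n)) (sPairs_jd ζ hζ hk (M0 * M0))]
    refine rat _ fun γ hγ ↦ funext fun τ ↦ jd_invariant hγ ?_ τ
    obtain ⟨c', hc'⟩ := (ZMod.intCast_zmod_eq_zero_iff_dvd _ _).mp (CongruenceSubgroup.Gamma_mem.mp hγ).2.2.1
    exact ⟨c', by push_cast; rw [hc']; ring⟩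
  · rw [Polynomial.derivative_map, ← Polynomial.map_mul, ← Polynomial.map_mul, ← Polynomial.map_add,
      bez_eq hsep, Polynomial.map_one]
  · rw [Polynomial.eval_map, Polynomial.eval₂_at_apply, eval_nod_eq_zero hv0, map_zero]
  · exact hcoeff _ fun γ hγ ↦ (hpol 1 hone γ hγ).1
  · exact hcoeff _ fun γ hγ ↦ (hpol 1 hone γ hγ).2.1
  · exact hcoeff _ fun γ hγ ↦ (hpol 1 hone γ hγ).2.2.1
  · intro d hd0 hd
    have : NeZero d := ⟨hd0⟩
    set val : trRing S n → trRing S n := fun v ↦ ⟨_, hvalmem hd (v : ℍ → ℂ)⟩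
    refine ⟨(interp V val).map ser, hcoeff _ fun γ hγ ↦ (hpol d hd γ hγ).2.2.2, ?_⟩
    rw [Polynomial.eval_map, Polynomial.eval₂_at_apply]
    rw [eval_interp hsep _ hv0]
    refine sPairs_unique (ser_spec _) ?_
    show (valFun M0 (jd M0 d) n N' (f0 n N'), _) ∈ sPairs S n
    rw [← compg_one (f0 n N'), ← OneMemClass.coe_one (CongruenceSubgroup.Gamma M0),
      valFun_eq hM hk hd 1, OneMemClass.coe_one, compg_one]
    exact sPairs_jd ζ hζ hk d

end LevelData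

end FLTAgent.GoodModel
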