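import Mathlib

/-!
The Weierstrass function of the lattice `ℤτ + ℤ` at torsion points.
-/

set_option autoImplicit false

noncomputable section

open UpperHalfPlane hiding I I_re I_im
open Filter Topology Complex Function PeriodPair
open scoped MatrixGroups Manifold

namespace FLTAgent.GoodModel

/-- The lattice `ℤτ + ℤ`. -/
def perPair (τ : ℍ) : PeriodPair where
  ω₁ := τ
  ω₂ := 1
  indep := by
    rw [LinearIndependent.pair_iff]
    intro s t h
    have him := congrArg Complex.im h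
    have hre := congrArg Complex.re h
    simp at him
    have hs : s = 0 := him.resolve_right τ.im_ne_zero
    subst hs
    simp at hre
    exact ⟨rfl, hre⟩

/-- `℘` of the lattice `ℤτ + ℤ`. -/
def wp (τ : ℍ) (z : ℂ) : ℂ := ℘[perPair τ] z

lemma mem_perPair_lattice {τ : ℍ} {x : ℂ} :
    x ∈ (perPair τ).lattice ↔ ∃ m n : ℤ, (m : ℂ) * τ + n = x := by
  simp [PeriodPair.mem_lattice, perPair]

lemma hasSum_wp (τ : ℍ) (z : ℂ) :
    HasSum (fun p : ℤ × ℤ ↦ 1 / (z - ((p.1 : ℂ) * τ + p.2)) ^ 2 - 1 / ((p.1 : ℂ) * τ + p.2) ^ 2)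
      (wp τ z) := by
  have h := (perPair τ).hasSum_weierstrassP z
  rw [← ((perPair τ).latticeEquivProd.symm.toEquiv).hasSum_iff] at h
  refine h.congr_fun fun p ↦ ?_
  have e := latticeEquiv_symm_apply (perPair τ) p
  simp only [comp_apply]
  rw [show ((perPair τ).latticeEquivProd.symm.toEquiv p : (perPair τ).lattice) =
    (perPair τ).latticeEquivProd.symm p from rfl, e]
  simp [perPair]

lemma wp_add (τ : ℍ) (z : ℂ) (m n : ℤ) : wp τ (z + ((m : ℂ) * τ + n)) = wp τ z :=
  (perPair τ).weierstrassP_add_coe z ⟨_, mem_perPair_lattice.mpr ⟨m, n, rfl⟩⟩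

@[simp] lemma wp_neg (τ : ℍ) (z : ℂ) : wp τ (-z) = wp τ z := (perPair τ).weierstrassP_neg z

lemma coe_smul_eq (γ : SL(2, ℤ)) (τ : ℍ) :
    ((γ • τ : ℍ) : ℂ) = ((γ 0 0 : ℂ) * τ + γ 0 1) / ((γ 1 0 : ℂ) * τ + γ 1 1) := by
  rw [UpperHalfPlane.coe_specialLinearGroup_apply]
  simp

lemma den_ne_zero (γ : SL(2, ℤ)) (τ : ℍ) : (γ 1 0 : ℂ) * τ + γ 1 1 ≠ 0 := by
  have := UpperHalfPlane.denom_ne_zero (γ : GL (Fin 2) ℝ) τ
  simpa [UpperHalfPlane.denom] using this

lemma det_eq (γ : SL(2, ℤ)) : γ 0 0 * γ 1 1 - γ 0 1 * γ 1 0 = 1 := by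
  have := γ.2
  rw [Matrix.det_fin_two] at this
  exact this

/-- Change of lattice basis. -/
theorem wp_smul (γ : SL(2, ℤ)) (τ : ℍ) (z : ℂ) :
    wp (γ • τ) (z / ((γ 1 0 : ℂ) * τ + γ 1 1)) =
      ((γ 1 0 : ℂ) * τ + γ 1 1) ^ 2 * wp τ z := by
  have hdet := det_eq γ
  set a := γ 0 0
  set b := γ 0 1
  set c := γ 1 0
  set d := γ 1 1
  set D := (c : ℂ) * τ + d
  have hD : D ≠ 0 := den_ne_zero γ τ
  let e : ℤ × ℤ ≃ ℤ × ℤ :=
    { toFun := fun p ↦ (p.1 * a + p.2 * c, p.1 * b + p.2 * d)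
      invFun := fun p ↦ (p.1 * d - p.2 * c, p.2 * a - p.1 * b)
      left_inv := fun p ↦ by
        ext
        · linear_combination p.1 * hdet
        · linear_combination p.2 * hdet
      right_inv := fun p ↦ by
        ext
        · linear_combination p.1 * hdet
        · linear_combination p.2 * hdet }
  have h := ((e.hasSum_iff).mpr (hasSum_wp τ z)).mul_left (D ^ 2)
  refine (hasSum_wp (γ • τ) (z / D)).unique (h.congr_fun fun p ↦ ?_)
  have hl : (p.1 : ℂ) * ((γ • τ : ℍ) : ℂ) + p.2 =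
      (((p.1 * a + p.2 * c : ℤ) : ℂ) * τ + ((p.1 * b + p.2 * d : ℤ) : ℂ)) / D := by
    rw [coe_smul_eq]
    show (p.1 : ℂ) * (((a : ℂ) * τ + b) / D) + p.2 = _
    field_simp
    simp only [D]
    push_cast
    ring
  rw [hl, ← sub_div, div_pow, div_pow, one_div_div, one_div_div]
  simp only [comp_apply, e, Equiv.coe_fn_mk]
  ring

/-- `℘` takes equal values only at `±` congruent points. -/
theorem wp_eq_iff {τ : ℍ} {z w : ℂ} (hz : z ∉ (perPair τ).lattice) (hw : w ∉ (perPair τ).lattice) :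
    wp τ z = wp τ w ↔ z - w ∈ (perPair τ).lattice ∨ z + w ∈ (perPair τ).lattice := by
  set L := perPair τ with hL
  constructor
  · intro h
    change ℘[L] z = ℘[L] w at h
    -- the second order equation
    have hode : ∀ x ∉ L.lattice, deriv ℘'[L] x = 6 * ℘[L] x ^ 2 - L.g₂ / 2 := by
      intro x hx
      set Φ : ℂ → ℂ := fun y ↦ deriv ℘'[L] y - (6 * ℘[L] y ^ 2 - L.g₂ / 2)
      have hU : IsOpen (L.lattice : Set ℂ)ᶜ := L.isClosed_lattice.isOpen_compl
      have han : AnalyticAt ℂ Φ x := by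
        have := L.analyticOnNhd_weierstrassP _ hx
        have := (L.analyticOnNhd_derivWeierstrassP _ hx).deriv
        fun_prop
      have hprod : ∀ y ∉ L.lattice, ℘'[L] y * Φ y = 0 := by
        intro y hy
        have hP : HasDerivAt ℘[L] (℘'[L] y) y := by
          rw [← L.deriv_weierstrassP]
          exact (L.analyticOnNhd_weierstrassP _ hy).differentiableAt.hasDerivAt
        have hP' : HasDerivAt ℘'[L] (deriv ℘'[L] y) y :=
          (L.analyticOnNhd_derivWeierstrassP _ hy).differentiableAt.hasDerivAt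
        have h1 : HasDerivAt (fun t ↦ ℘'[L] t ^ 2) (2 * ℘'[L] y * deriv ℘'[L] y) y := by
          simpa using hP'.fun_pow 2
        have h2 : HasDerivAt (fun t ↦ 4 * ℘[L] t ^ 3 - L.g₂ * ℘[L] t - L.g₃)
            (12 * ℘[L] y ^ 2 * ℘'[L] y - L.g₂ * ℘'[L] y) y := by
          have h5 := ((hP.fun_pow 3).const_mul (4 : ℂ) |>.fun_sub (hP.const_mul L.g₂)).sub_const L.g₃
          refine h5.congr_deriv ?_
          push_cast
          ring
        have h3 := h1.congr_of_eventuallyEq
          ((hU.eventually_mem hy).mono fun t ht ↦ (L.derivWeierstrassP_sq t ht).symm)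
        have := h3.unique h2
        simp only [Φ]
        linear_combination this / 2
      by_contra hne
      have hΦ : Φ x ≠ 0 := sub_ne_zero.mpr hne
      have hev : ∀ᶠ y in 𝓝 x, ℘'[L] y = 0 :=
        ((han.continuousAt.eventually_ne hΦ).and (hU.eventually_mem hx)).mono fun y hy ↦
          (mul_eq_zero.mp (hprod y hy.2)).resolve_right hy.1
      have hconn : IsPreconnected (L.lattice : Set ℂ)ᶜ := by
        refine (Set.Countable.isConnected_compl_of_one_lt_rank (by simp) ?_).isPreconnected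
        exact (Set.countable_coe_iff.mp (inferInstance : Countable L.lattice))
      have hzero := L.analyticOnNhd_derivWeierstrassP.eqOn_zero_of_preconnected_of_eventuallyEq_zero
        hconn hx hev
      -- but `℘'` is not identically zero
      have hconst : ∀ y ∈ (L.lattice : Set ℂ)ᶜ, 4 * ℘[L] y ^ 3 - L.g₂ * ℘[L] y - L.g₃ = 0 := fun y hy ↦ by
        rw [← L.derivWeierstrassP_sq y hy, hzero hy]; simp
      have hd : ∀ y ∈ (L.lattice : Set ℂ)ᶜ, deriv ℘[L] y = 0 := fun y hy ↦ by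
        rw [L.deriv_weierstrassP]; exact hzero hy
      obtain ⟨c, hc⟩ := hU.exists_is_const_of_deriv_eq_zero hconn
        L.differentiableOn_weierstrassP hd
      -- a constant has a limit at the pole
      have h0 : ℘[L] =ᶠ[𝓝[≠] (0 : ℂ)] fun _ ↦ c := by
        have : ∀ᶠ y in 𝓝[≠] (0 : ℂ), y ∉ L.lattice := by
          filter_upwards [(nhdsWithin_le_nhds (L.compl_lattice_sdiff_singleton_mem_nhds 0)),
            self_mem_nhdsWithin] with y hy hy0 hmem
          exact hy ⟨hmem, hy0⟩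
        exact this.mono fun y hy ↦ hc y hy
      have ho := L.order_weierstrassP 0 (zero_mem _)
      rw [meromorphicOrderAt_congr h0] at ho
      rw [meromorphicOrderAt_const] at ho
      split_ifs at ho with hc0
      · exact absurd ho (by decide)
      · exact absurd ho (by decide)
    -- fix the sign of the derivative
    obtain ⟨w', hw', he, hcase⟩ : ∃ w', w' ∉ L.lattice ∧
        (℘[L] z = ℘[L] w' ∧ ℘'[L] z = ℘'[L] w') ∧ (z - w' ∈ L.lattice →
          z - w ∈ L.lattice ∨ z + w ∈ L.lattice) := by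
      have hsq : ℘'[L] z ^ 2 = ℘'[L] w ^ 2 := by
        rw [L.derivWeierstrassP_sq z hz, L.derivWeierstrassP_sq w hw, h]
      rcases sq_eq_sq_iff_eq_or_eq_neg.mp hsq with e | e
      · exact ⟨w, hw, ⟨h, e⟩, Or.inl⟩
      · refine ⟨-w, fun hm ↦ hw (by simpa using neg_mem hm), ⟨by simpa using h, by simpa using e⟩,
          fun hm ↦ Or.inr (by simpa using hm)⟩
    refine hcase ?_
    by_contra hzw
    -- the difference of translates vanishes to all orders
    set u : ℂ → ℂ := fun t ↦ ℘[L] (z + t) with hu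
    set v : ℂ → ℂ := fun t ↦ ℘[L] (w' + t) with hv
    set δ : ℂ → ℂ := fun t ↦ u t - v t with hδ
    have hua : AnalyticAt ℂ u 0 := by
      have := L.analyticOnNhd_weierstrassP (z + 0) (by simpa using hz)
      exact this.comp (analyticAt_const.add analyticAt_id)
    have hva : AnalyticAt ℂ v 0 := by
      have := L.analyticOnNhd_weierstrassP (w' + 0) (by simpa using hw')
      exact this.comp (analyticAt_const.add analyticAt_id)
    have hδa : AnalyticAt ℂ δ 0 := hua.sub hva
    have hu1 : ∀ᶠ t in 𝓝 (0 : ℂ), z + t ∉ L.lattice ∧ w' + t ∉ L.lattice := by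
      have hU : IsOpen (L.lattice : Set ℂ)ᶜ := L.isClosed_lattice.isOpen_compl
      exact (((continuous_const_add z).tendsto' 0 z (add_zero z)).eventually (hU.eventually_mem hz)).and
        (((continuous_const_add w').tendsto' 0 w' (add_zero w')).eventually (hU.eventually_mem hw'))
    have hδ1 : deriv δ =ᶠ[𝓝 0] fun t ↦ ℘'[L] (z + t) - ℘'[L] (w' + t) := by
      filter_upwards [hu1] with t ht
      have e1 : HasDerivAt u (℘'[L] (z + t)) t := by
        have := (L.analyticOnNhd_weierstrassP _ ht.1).differentiableAt.hasDerivAt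
        rw [L.deriv_weierstrassP] at this
        exact this.comp_const_add z t
      have e2 : HasDerivAt v (℘'[L] (w' + t)) t := by
        have := (L.analyticOnNhd_weierstrassP _ ht.2).differentiableAt.hasDerivAt
        rw [L.deriv_weierstrassP] at this
        exact this.comp_const_add w' t
      exact (e1.sub e2).deriv
    have hδ2 : deriv (deriv δ) =ᶠ[𝓝 0] fun t ↦ (6 * (u t + v t)) * δ t := by
      filter_upwards [hu1, hδ1.eventuallyEq_nhds] with t ht hd
      have e1 := (L.analyticOnNhd_derivWeierstrassP _ ht.1).differentiableAt.hasDerivAt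
      have e2 := (L.analyticOnNhd_derivWeierstrassP _ ht.2).differentiableAt.hasDerivAt
      rw [hd.deriv_eq, ((e1.comp_const_add z t).fun_sub (e2.comp_const_add w' t)).deriv,
        hode _ ht.1, hode _ ht.2]
      simp only [hδ, hu, hv]
      ring
    have hder : ∀ n, iteratedDeriv n δ 0 = 0 := by
      intro n
      induction n using Nat.strong_induction_on with
      | _ n ih =>
        match n with
        | 0 => simp [hδ, hu, hv, he.1]
        | 1 => simp [iteratedDeriv_one, hδ1.eq_of_nhds, he.2]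
        | k + 2 =>
          rw [iteratedDeriv_succ', iteratedDeriv_succ', (hδ2.iteratedDeriv_eq k),
            show (fun t ↦ 6 * (u t + v t) * δ t) = ((fun _ ↦ (6 : ℂ)) * (u + v)) * δ from rfl,
            iteratedDeriv_mul ((analyticAt_const.mul (hua.add hva)).contDiffAt) hδa.contDiffAt]
          refine Finset.sum_eq_zero fun i hi ↦ ?_
          rw [ih (k - i) (by omega), mul_zero]
    have hzero : δ =ᶠ[𝓝 0] 0 := by
      have hp := hδa.hasFPowerSeriesAt
      rw [show (FormalMultilinearSeries.ofScalars ℂ fun n ↦ iteratedDeriv n δ 0 / (n.factorial : ℂ))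
        = 0 from by ext n; simp [hder]] at hp
      exact hp.eventually_eq_zero
    -- so `z - w'` is a period
    set p := z - w' with hp
    have hU : IsOpen ((L.lattice : Set ℂ)ᶜ ∩ (fun x ↦ x + p) ⁻¹' (L.lattice : Set ℂ)ᶜ) :=
      L.isClosed_lattice.isOpen_compl.inter
        (L.isClosed_lattice.isOpen_compl.preimage (continuous_add_const p))
    have hcnt : (((L.lattice : Set ℂ)ᶜ ∩ (fun x ↦ x + p) ⁻¹' (L.lattice : Set ℂ)ᶜ)ᶜ).Countable := by
      rw [Set.compl_inter, compl_compl, ← Set.preimage_compl, compl_compl]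
      exact (Set.countable_coe_iff.mp (inferInstance : Countable L.lattice)).union
        ((Set.countable_coe_iff.mp (inferInstance : Countable L.lattice)).preimage
          (add_left_injective p))
    have hconn : IsPreconnected ((L.lattice : Set ℂ)ᶜ ∩ (fun x ↦ x + p) ⁻¹' (L.lattice : Set ℂ)ᶜ) := by
      rw [← compl_compl ((L.lattice : Set ℂ)ᶜ ∩ _)]
      exact (hcnt.isConnected_compl_of_one_lt_rank (by simp)).isPreconnected
    have heq := AnalyticOnNhd.eqOn_of_preconnected_of_eventuallyEq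
      (f := fun x ↦ ℘[L] (x + p)) (g := ℘[L])
      (fun x hx ↦ (L.analyticOnNhd_weierstrassP _ hx.2).comp (analyticAt_id.add analyticAt_const))
      (fun x hx ↦ L.analyticOnNhd_weierstrassP _ hx.1) hconn (z₀ := w')
      ⟨hw', by simpa [hp] using hz⟩ (by
        have := ((continuous_sub_right w').tendsto' w' 0 (sub_self w')).eventually hzero
        filter_upwards [this] with x hx
        simp only [hδ, hu, hv, Pi.zero_apply, sub_eq_zero, add_sub_cancel] at hx
        rw [← hx, hp]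
        ring_nf)
    have h0 : (fun x ↦ ℘[L] (x + p)) =ᶠ[𝓝[≠] (0 : ℂ)] ℘[L] := by
      filter_upwards [nhdsWithin_le_nhds (L.compl_lattice_sdiff_singleton_mem_nhds 0),
        self_mem_nhdsWithin, nhdsWithin_le_nhds
          (((continuous_add_const p).tendsto' 0 p (zero_add p)).eventually
            (L.isClosed_lattice.isOpen_compl.eventually_mem hzw))] with x hx hx0 hxp
      exact heq ⟨fun hm ↦ hx ⟨hm, hx0⟩, hxp⟩
    have ho := L.order_weierstrassP 0 (zero_mem _)
    rw [← meromorphicOrderAt_congr h0] at ho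
    have han : AnalyticAt ℂ (fun x ↦ ℘[L] (x + p)) 0 := by
      have := L.analyticOnNhd_weierstrassP (0 + p) (by simpa using hzw)
      exact this.comp (f := fun x ↦ x + p) (analyticAt_id.add analyticAt_const)
    have := han.meromorphicOrderAt_nonneg
    rw [ho] at this
    exact absurd this (by decide)
  · rintro (h | h)
    · have := L.weierstrassP_add_coe w ⟨_, h⟩
      change ℘[L] z = ℘[L] w
      rw [← this, add_sub_cancel]
    · have := L.weierstrassP_add_coe (-w) ⟨_, h⟩
      change ℘[L] z = ℘[L] w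
      rw [← L.weierstrassP_neg w, ← this]
      congr 1
      ring

/-- `℘` at the torsion point `(aτ + b)/N`. -/
def wv (N : ℕ) (a b : ℤ) (τ : ℍ) : ℂ := wp τ (((a : ℂ) * τ + b) / N)

theorem wv_smul (N : ℕ) (a b : ℤ) (γ : SL(2, ℤ)) (τ : ℍ) :
    wv N a b (γ • τ) = ((γ 1 0 : ℂ) * τ + γ 1 1) ^ 2 *
      wv N (a * γ 0 0 + b * γ 1 0) (a * γ 0 1 + b * γ 1 1) τ := by
  rw [wv, wv, ← wp_smul γ τ]
  congr 1
  rw [coe_smul_eq, div_div, mul_comm (N : ℂ) ((γ 1 0 : ℂ) * τ + γ 1 1), ← div_div]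
  congr 1
  rw [eq_div_iff (den_ne_zero γ τ), add_mul, mul_assoc, div_mul_cancel₀ _ (den_ne_zero γ τ)]
  push_cast
  ring

lemma wv_add_mul (N : ℕ) [NeZero N] (a b k l : ℤ) (τ : ℍ) :
    wv N (a + k * N) (b + l * N) τ = wv N a b τ := by
  rw [wv, wv, ← wp_add τ (((a : ℂ) * τ + b) / N) k l]
  congr 1
  have : (N : ℂ) ≠ 0 := Nat.cast_ne_zero.mpr (NeZero.ne N)
  field_simp
  push_cast
  ring

lemma wv_congr (N : ℕ) [NeZero N] {a b a' b' : ℤ} (ha : (a : ZMod N) = a') (hb : (b : ZMod N) = b')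
    (τ : ℍ) : wv N a b τ = wv N a' b' τ := by
  obtain ⟨k, hk⟩ := (ZMod.intCast_eq_intCast_iff_dvd_sub a' a N).mp ha.symm
  obtain ⟨l, hl⟩ := (ZMod.intCast_eq_intCast_iff_dvd_sub b' b N).mp hb.symm
  rw [← wv_add_mul N a' b' k l τ, show a' + k * N = a by linear_combination -hk,
    show b' + l * N = b by linear_combination -hl]

@[simp] lemma wv_neg (N : ℕ) (a b : ℤ) (τ : ℍ) : wv N (-a) (-b) τ = wv N a b τ := by
  rw [wv, wv, ← wp_neg]
  congr 1
  push_cast
  ring

lemma point_not_mem {N : ℕ} [NeZero N] {a b : ℤ} (h : (a : ZMod N) ≠ 0 ∨ (b : ZMod N) ≠ 0)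
    (τ : ℍ) : ((a : ℂ) * τ + b) / N ∉ (perPair τ).lattice := by
  intro hm
  obtain ⟨m, n, e⟩ := mem_perPair_lattice.mp hm
  have hN : (N : ℂ) ≠ 0 := Nat.cast_ne_zero.mpr (NeZero.ne N)
  rw [eq_div_iff hN] at e
  have h1 : ((a - m * N : ℤ) : ℂ) * τ + ((b - n * N : ℤ) : ℂ) = 0 := by
    push_cast; linear_combination -e
  have ha : a - m * N = 0 := by
    have := congrArg Complex.im h1
    simp [τ.im_ne_zero] at this
    exact_mod_cast this
  have hb : b - n * N = 0 := by
    rw [ha] at h1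
    simp at h1
    exact_mod_cast h1
  rw [sub_eq_zero] at ha hb
  subst ha hb
  simp at h

/-- Distinct `±` classes give values without coincidences. -/
theorem wv_eq_iff {N : ℕ} [NeZero N] {a b a' b' : ℤ} (h : (a : ZMod N) ≠ 0 ∨ (b : ZMod N) ≠ 0)
    (h' : (a' : ZMod N) ≠ 0 ∨ (b' : ZMod N) ≠ 0) (τ : ℍ) :
    wv N a b τ = wv N a' b' τ ↔ ((a : ZMod N) = a' ∧ (b : ZMod N) = b') ∨
      ((a : ZMod N) = -a' ∧ (b : ZMod N) = -b') := by
  rw [wv, wv, wp_eq_iff (point_not_mem h τ) (point_not_mem h' τ)]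
  have hN : (N : ℂ) ≠ 0 := Nat.cast_ne_zero.mpr (NeZero.ne N)
  have key : ∀ x y : ℤ, ((x : ℂ) * τ + y) / N ∈ (perPair τ).lattice ↔
      (x : ZMod N) = 0 ∧ (y : ZMod N) = 0 := by
    intro x y
    constructor
    · intro hm
      by_contra hc
      exact point_not_mem (not_and_or.mp hc) τ hm
    · rintro ⟨hx, hy⟩
      obtain ⟨k, rfl⟩ := (ZMod.intCast_zmod_eq_zero_iff_dvd x N).mp hx
      obtain ⟨l, rfl⟩ := (ZMod.intCast_zmod_eq_zero_iff_dvd y N).mp hy
      refine mem_perPair_lattice.mpr ⟨k, l, ?_⟩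
      push_cast
      field_simp
  have e1 : ((a : ℂ) * τ + b) / N - ((a' : ℂ) * τ + b') / N =
      (((a - a' : ℤ) : ℂ) * τ + ((b - b' : ℤ) : ℂ)) / N := by push_cast; ring
  have e2 : ((a : ℂ) * τ + b) / N + ((a' : ℂ) * τ + b') / N =
      (((a + a' : ℤ) : ℂ) * τ + ((b + b' : ℤ) : ℂ)) / N := by push_cast; ring
  rw [e1, e2, key, key]
  push_cast
  rw [sub_eq_zero, sub_eq_zero, add_eq_zero_iff_eq_neg, add_eq_zero_iff_eq_neg]

section Row

/-- `u/(1-u)²`. -/
def ufun (u : ℂ) : ℂ := u / (1 - u) ^ 2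

lemma ufun_inv (u : ℂ) : ufun u⁻¹ = ufun u := by
  rcases eq_or_ne u 0 with rfl | hu
  · simp
  rcases eq_or_ne u 1 with rfl | hu1
  · simp
  simp only [ufun]
  have : (1 : ℂ) - u⁻¹ ≠ 0 := sub_ne_zero.mpr fun e ↦ hu1 (inv_eq_one.mp e.symm)
  have : (1 : ℂ) - u ≠ 0 := sub_ne_zero.mpr hu1.symm
  field_simp
  ring

lemma exp_ne_one_of_not_int {w : ℂ} (hw : ∀ n : ℤ, w ≠ n) : exp (2 * Real.pi * I * w) ≠ 1 := by
  intro e
  obtain ⟨n, hn⟩ := Complex.exp_eq_one_iff.mp e
  refine hw n ?_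
  have h2 : (2 : ℂ) * Real.pi * I ≠ 0 := by simp [Real.pi_ne_zero, I_ne_zero]
  exact mul_left_cancel₀ h2 (by linear_combination hn)

lemma hasSum_row_of_im_pos {w : ℂ} (hw : 0 < w.im) :
    HasSum (fun n : ℤ ↦ 1 / (w + n) ^ 2) ((2 * Real.pi * I) ^ 2 * ufun (exp (2 * Real.pi * I * w))) := by
  have hs : Summable fun n : ℤ ↦ 1 / (w + n) ^ 2 := by
    simpa [one_div, zpow_ofNat] using EisensteinSeries.linear_right_summable w 1 (k := 2) le_rfl
  have h := EisensteinSeries.qExpansion_identity (k := 1) le_rfl ⟨w, hw⟩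
  have hq : ‖exp (2 * Real.pi * I * w)‖ < 1 := UpperHalfPlane.norm_exp_two_pi_I_lt_one ⟨w, hw⟩
  simp only [pow_one, one_add_one_eq_two, Nat.factorial_one, Nat.cast_one, div_one] at h
  rw [tsum_coe_mul_geometric_of_norm_lt_one hq] at h
  convert hs.hasSum using 1
  rw [h, ufun]
  ring

/-- The sum over a row of the lattice. -/
theorem hasSum_row {w : ℂ} (hw : ∀ n : ℤ, w ≠ n) :
    HasSum (fun n : ℤ ↦ 1 / (w + n) ^ 2) ((2 * Real.pi * I) ^ 2 * ufun (exp (2 * Real.pi * I * w))) := by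
  rcases lt_trichotomy w.im 0 with h | h | h
  · have h1 := hasSum_row_of_im_pos (w := -w) (by simpa using h)
    rw [show 2 * (Real.pi : ℂ) * I * -w = -(2 * Real.pi * I * w) by ring, Complex.exp_neg, ufun_inv,
      ← (Equiv.neg ℤ).hasSum_iff] at h1
    refine h1.congr_fun fun n ↦ ?_
    simp only [comp_apply, Equiv.neg_apply, Int.cast_neg]
    ring
  · have hs : Summable fun n : ℤ ↦ 1 / (w + n) ^ 2 := by
      simpa [one_div, zpow_ofNat] using EisensteinSeries.linear_right_summable w 1 (k := 2) le_rfl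
    have hε : ∀ k : ℕ, 0 < (w + ((1 / (k + 1 : ℝ) : ℝ) : ℂ) * I).im := fun k ↦ by
      rw [Complex.add_im, h, zero_add, Complex.mul_im, Complex.ofReal_re, Complex.ofReal_im]
      simp only [Complex.I_re, Complex.I_im, mul_one, mul_zero, add_zero]
      positivity
    have hlim : Tendsto (fun k : ℕ ↦ w + ((1 / (k + 1 : ℝ) : ℝ) : ℂ) * I) atTop (𝓝 w) := by
      have := ((Complex.continuous_ofReal.tendsto 0).comp
        tendsto_one_div_add_atTop_nhds_zero_nat).mul_const I
      simpa using this.const_add w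
    have hwn : ∀ n : ℤ, w + n ≠ 0 := fun n e ↦ hw (-n) (by push_cast; linear_combination e)
    have h1 := tendsto_tsum_of_dominated_convergence (𝓕 := atTop)
      (f := fun (k : ℕ) (n : ℤ) ↦ 1 / (w + ((1 / (k + 1 : ℝ) : ℝ) : ℂ) * I + n) ^ 2)
      (g := fun n : ℤ ↦ 1 / (w + n) ^ 2) (bound := fun n : ℤ ↦ ‖1 / (w + (n : ℂ)) ^ 2‖) hs.norm
      (fun n ↦ tendsto_const_nhds.div ((hlim.add_const _).pow 2) (pow_ne_zero _ (hwn n)))
      (Eventually.of_forall fun k n ↦ ?_)
    · have hu : ContinuousAt (fun x : ℂ ↦ (2 * Real.pi * I) ^ 2 * ufun (exp (2 * Real.pi * I * x))) w := by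
        have hne : (1 : ℂ) - exp (2 * Real.pi * I * w) ≠ 0 :=
          sub_ne_zero.mpr (exp_ne_one_of_not_int hw).symm
        unfold ufun
        exact continuousAt_const.mul ((by fun_prop : ContinuousAt (fun x : ℂ ↦
          exp (2 * Real.pi * I * x)) w).div (by fun_prop) (pow_ne_zero 2 hne))
      have h2 := tendsto_nhds_unique h1 ((hu.tendsto.comp hlim).congr fun k ↦
        ((hasSum_row_of_im_pos (hε k)).tsum_eq).symm)
      exact h2 ▸ hs.hasSum
    · simp only [norm_div, norm_one, norm_pow]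
      gcongr
      · exact pow_pos (norm_pos_iff.mpr (hwn n)) 2
      have hre : (w + n).re = (w + ((1 / (k + 1 : ℝ) : ℝ) : ℂ) * I + n).re := by simp
      calc ‖w + n‖ = |(w + n).re| := by
            rw [show w + n = (((w + n).re : ℝ) : ℂ) from Complex.ext rfl (by simp [h]),
              Complex.norm_real]
            simp
        _ ≤ _ := hre ▸ Complex.abs_re_le_norm _
  · exact hasSum_row_of_im_pos h

/-- The difference of two values as a sum over rows. -/
theorem hasSum_wp_sub (τ : ℍ) {z z' : ℂ} (hz : z ∉ (perPair τ).lattice)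
    (hz' : z' ∉ (perPair τ).lattice) :
    HasSum (fun m : ℤ ↦ ufun (exp (2 * Real.pi * I * (z - m * τ))) -
        ufun (exp (2 * Real.pi * I * (z' - m * τ))))
      ((wp τ z - wp τ z') / (2 * Real.pi * I) ^ 2) := by
  have h := (hasSum_wp τ z).sub (hasSum_wp τ z')
  have hrow : ∀ x, x ∉ (perPair τ).lattice → ∀ m : ℤ, ∀ n : ℤ, x - m * (τ : ℂ) ≠ n := fun x hx m n e ↦
    hx (mem_perPair_lattice.mpr ⟨m, n, by linear_combination -e⟩)
  have key : ∀ x, x ∉ (perPair τ).lattice → ∀ m : ℤ, HasSum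
      (fun n : ℤ ↦ 1 / (x - ((m : ℂ) * τ + n)) ^ 2)
      ((2 * Real.pi * I) ^ 2 * ufun (exp (2 * Real.pi * I * (x - m * τ)))) := by
    intro x hx m
    have := hasSum_row (hrow x hx m)
    rw [← (Equiv.neg ℤ).hasSum_iff] at this
    refine this.congr_fun fun n ↦ ?_
    simp only [comp_apply, Equiv.neg_apply, Int.cast_neg]
    ring
  have h2 := h.prod_fiberwise (g := fun m : ℤ ↦
      (2 * Real.pi * I) ^ 2 * (ufun (exp (2 * Real.pi * I * (z - m * τ))) -
        ufun (exp (2 * Real.pi * I * (z' - m * τ))))) fun m ↦ by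
    rw [mul_sub]
    refine ((key z hz m).sub (key z' hz' m)).congr_fun fun n ↦ ?_
    simp only [Pi.sub_apply]
    ring
  have := h2.div_const ((2 * (Real.pi : ℂ) * I) ^ 2)
  refine this.congr_fun fun m ↦ ?_
  rw [mul_div_cancel_left₀]
  simp [Real.pi_ne_zero, I_ne_zero]

end Row

end FLTAgent.GoodModel
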